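import Fermat.Agent.Corollaries.ZetaK.HL.Defs

/-!
# Mean squares of Dirichlet polynomials

* `meanStmt` : `∫_T^{2T} |∑_{n ≤ N} a_n n^{-2iu}|² du ≤ A T ∑ |a_n|²` for `N ≤ 4 T`: with the weight
  `e^{4 - (u/T)²}` the cross terms are `≤ √π T e⁴ |a_m a_n| e^{-(m-n)²/16}`;
* `logStmt` : the sums `∑ 1 / (n log² n)` are bounded.
-/

set_option autoImplicit false

noncomputable section

namespace Fermat.Agent.Cor.HL

open Complex Real Filter Topology Set MeasureTheory

/-! ### The logarithmic sum -/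

/-- (B2) -/
theorem logStmt : LogStmt := by
  refine ⟨1 / (2 * Real.log 2 ^ 2) + 1 / Real.log 2, fun N => ?_⟩
  have hl2 : 0 < Real.log 2 := Real.log_pos (by norm_num)
  have key : ∀ k : ℕ, ∑ n ∈ Finset.Icc 2 (k + 2), 1 / ((n : ℝ) * Real.log n ^ 2) ≤
      1 / (2 * Real.log 2 ^ 2) + 1 / Real.log 2 - 1 / Real.log (k + 2 : ℕ) := by
    intro k
    induction k with
    | zero =>
      rw [zero_add, Finset.Icc_self, Finset.sum_singleton]
      push_cast
      linarith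
    | succ k ih =>
      rw [show k + 1 + 2 = (k + 2) + 1 by ring,
        Finset.sum_Icc_succ_top (show 2 ≤ k + 2 + 1 by omega)]
      have h0 : (2 : ℝ) ≤ ((k + 2 : ℕ) : ℝ) := by exact_mod_cast Nat.le_add_left 2 k
      have h1 : 0 < Real.log ((k + 2 : ℕ) : ℝ) := Real.log_pos (by linarith)
      have h2 : Real.log ((k + 2 : ℕ) : ℝ) < Real.log ((k + 2 + 1 : ℕ) : ℝ) :=
        Real.log_lt_log (by linarith) (by push_cast; linarith)
      have h3 : 1 / ((k + 2 + 1 : ℕ) : ℝ) ≤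
          Real.log ((k + 2 + 1 : ℕ) : ℝ) - Real.log ((k + 2 : ℕ) : ℝ) := by
        have h4 := Real.one_sub_inv_le_log_of_pos
          (x := ((k + 2 + 1 : ℕ) : ℝ) / ((k + 2 : ℕ) : ℝ)) (by positivity)
        rw [Real.log_div (by positivity) (by positivity), inv_div] at h4
        have h5 : (1 : ℝ) - ((k + 2 : ℕ) : ℝ) / ((k + 2 + 1 : ℕ) : ℝ) =
            1 / ((k + 2 + 1 : ℕ) : ℝ) := by
          push_cast
          field_simp
          ring
        rwa [h5] at h4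
      set a := Real.log ((k + 2 : ℕ) : ℝ)
      set b := Real.log ((k + 2 + 1 : ℕ) : ℝ)
      have hn : 0 < ((k + 2 + 1 : ℕ) : ℝ) := by positivity
      have hb : 0 < b := h1.trans h2
      have h6 : 1 / (((k + 2 + 1 : ℕ) : ℝ) * b ^ 2) ≤ 1 / a - 1 / b := by
        have h7 : 1 / a - 1 / b = (b - a) / (a * b) := by
          field_simp
        rw [h7, le_div_iff₀ (mul_pos h1 hb)]
        have h8 : 1 / (((k + 2 + 1 : ℕ) : ℝ) * b ^ 2) * (a * b) ≤ 1 / ((k + 2 + 1 : ℕ) : ℝ) := by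
          rw [div_mul_eq_mul_div, one_mul, div_le_div_iff₀ (by positivity) hn]
          have : a * b ≤ b ^ 2 := by nlinarith
          nlinarith
        exact h8.trans h3
      linarith
  rcases Nat.lt_or_ge N 2 with h | h
  · rw [Finset.Icc_eq_empty (by omega), Finset.sum_empty]
    positivity
  · obtain ⟨k, rfl⟩ := Nat.exists_eq_add_of_le' h
    refine (key k).trans ?_
    have h0 : (2 : ℝ) ≤ ((k + 2 : ℕ) : ℝ) := by exact_mod_cast Nat.le_add_left 2 k
    have h1 : 0 < Real.log ((k + 2 : ℕ) : ℝ) := Real.log_pos (by linarith)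
    have h2 : 0 ≤ 1 / Real.log ((k + 2 : ℕ) : ℝ) := by positivity
    linarith

/-! ### The kernel -/

/-- the kernel `e^{-k²/16}` -/
def ker16 (k : ℤ) : ℝ := Real.exp (-((k : ℝ) ^ 2 / 16))

theorem ker16_pos (k : ℤ) : 0 < ker16 k := Real.exp_pos _

theorem summable_ker16 : Summable ker16 := by
  have h1 : Summable fun n : ℕ => (Real.exp (-(1 / 16))) ^ n :=
    summable_geometric_of_lt_one (Real.exp_pos _).le 
      ((Real.exp_lt_exp.2 (by norm_num : -(1 / 16 : ℝ) < 0)).trans_eq Real.exp_zero)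
  have h2 : ∀ n : ℕ, Real.exp (-((n : ℝ) ^ 2 / 16)) ≤ (Real.exp (-(1 / 16))) ^ n := by
    intro n
    rw [← Real.exp_nat_mul]
    refine Real.exp_le_exp.2 ?_
    have h3 : (n : ℝ) ≤ (n : ℝ) ^ 2 := by exact_mod_cast Nat.le_self_pow two_ne_zero n
    linarith
  have h4 : Summable fun n : ℕ => Real.exp (-((n : ℝ) ^ 2 / 16)) :=
    Summable.of_nonneg_of_le (fun n => (Real.exp_pos _).le) h2 h1
  rw [summable_int_iff_summable_nat_and_neg]
  constructor
  · refine h4.congr fun n => ?_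
    rw [ker16]
    push_cast
    rfl
  · refine h4.congr fun n => ?_
    rw [ker16]
    push_cast
    rw [neg_sq]

theorem sum_ker16_le (s : Finset ℕ) (m : ℕ) :
    ∑ n ∈ s, ker16 ((m : ℤ) - n) ≤ ∑' k : ℤ, ker16 k := by
  classical
  have hinj : Function.Injective fun n : ℕ => (m : ℤ) - n := fun a b h => by
    simp only at h
    omega
  rw [← Finset.sum_image (f := ker16) (g := fun n : ℕ => (m : ℤ) - n) hinj.injOn]
  exact summable_ker16.sum_le_tsum _ fun k _ => (ker16_pos k).le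

/-- Schur's test -/
theorem schur (s : Finset ℕ) (b : ℕ → ℝ) (hb : ∀ n, 0 ≤ b n) :
    ∑ m ∈ s, ∑ n ∈ s, b m * b n * ker16 ((m : ℤ) - n) ≤
      (∑' k : ℤ, ker16 k) * ∑ n ∈ s, b n ^ 2 := by
  have hsym : ∀ m n : ℕ, ker16 ((m : ℤ) - n) = ker16 ((n : ℤ) - m) := fun m n => by
    rw [ker16, ker16]
    push_cast
    ring_nf
  have h1 : ∀ m n : ℕ, b m * b n * ker16 ((m : ℤ) - n) ≤
      (b m ^ 2 * ker16 ((m : ℤ) - n) + b n ^ 2 * ker16 ((n : ℤ) - m)) / 2 := fun m n => by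
    rw [← hsym m n]
    have := ker16_pos ((m : ℤ) - n)
    nlinarith [mul_nonneg this.le (sq_nonneg (b m - b n))]
  have h2 : ∑ m ∈ s, ∑ n ∈ s, b m ^ 2 * ker16 ((m : ℤ) - n) ≤
      (∑' k : ℤ, ker16 k) * ∑ n ∈ s, b n ^ 2 := by
    rw [Finset.mul_sum]
    refine Finset.sum_le_sum fun m _ => ?_
    rw [← Finset.mul_sum, mul_comm]
    exact mul_le_mul_of_nonneg_right (sum_ker16_le s m) (sq_nonneg _)
  have h3 : ∑ m ∈ s, ∑ n ∈ s, b n ^ 2 * ker16 ((n : ℤ) - m) =
      ∑ m ∈ s, ∑ n ∈ s, b m ^ 2 * ker16 ((m : ℤ) - n) := Finset.sum_comm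
  calc ∑ m ∈ s, ∑ n ∈ s, b m * b n * ker16 ((m : ℤ) - n)
      ≤ ∑ m ∈ s, ∑ n ∈ s,
        (b m ^ 2 * ker16 ((m : ℤ) - n) + b n ^ 2 * ker16 ((n : ℤ) - m)) / 2 :=
        Finset.sum_le_sum fun m _ => Finset.sum_le_sum fun n _ => h1 m n
    _ = (∑ m ∈ s, ∑ n ∈ s, b m ^ 2 * ker16 ((m : ℤ) - n) +
        ∑ m ∈ s, ∑ n ∈ s, b n ^ 2 * ker16 ((n : ℤ) - m)) / 2 := by
        simp only [← Finset.sum_div, Finset.sum_add_distrib]
    _ ≤ _ := by
        rw [h3]
        linarith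

/-! ### The Gaussian integrals -/

/-- the weighted exponential -/
def gexp (T c u : ℝ) : ℂ := cexp (I * c * u) * cexp (-((1 / T ^ 2 : ℝ) : ℂ) * (u : ℂ) ^ 2)

theorem integrable_gexp {T : ℝ} (hT : 0 < T) (c : ℝ) : Integrable (gexp T c) := by
  have hb : 0 < (((1 / T ^ 2 : ℝ) : ℂ)).re := by
    rw [ofReal_re]
    positivity
  refine (integrable_cexp_quadratic hb (I * c) 0).congr (Eventually.of_forall fun u => ?_)
  simp only [gexp]
  rw [← Complex.exp_add]
  congr 1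
  ring

theorem norm_integral_gexp {T : ℝ} (hT : 0 < T) (c : ℝ) :
    ‖∫ u : ℝ, gexp T c u‖ = √π * T * Real.exp (-(c ^ 2 * T ^ 2 / 4)) := by
  have hb : 0 < (((1 / T ^ 2 : ℝ) : ℂ)).re := by
    rw [ofReal_re]
    positivity
  have h1 : ∫ u : ℝ, gexp T c u = _ := fourierIntegral_gaussian hb (c : ℂ)
  have h2 : (π : ℂ) / ((1 / T ^ 2 : ℝ) : ℂ) = ((π * T ^ 2 : ℝ) : ℂ) := by
    push_cast
    have : (T : ℂ) ≠ 0 := ofReal_ne_zero.2 hT.ne'
    field_simp
  have h3 : -(c : ℂ) ^ 2 / (4 * ((1 / T ^ 2 : ℝ) : ℂ)) = ((-(c ^ 2 * T ^ 2 / 4) : ℝ) : ℂ) := by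
    push_cast
    have : (T : ℂ) ≠ 0 := ofReal_ne_zero.2 hT.ne'
    field_simp
  rw [h1, norm_mul, h2, h3, ← Complex.ofReal_exp, Complex.norm_of_nonneg (Real.exp_pos _).le,
    norm_cpow_eq_rpow_re_of_pos (by positivity)]
  congr 1
  have h4 : ((1 / 2 : ℂ)).re = 1 / 2 := by norm_num
  rw [h4, ← Real.sqrt_eq_rpow, Real.sqrt_mul Real.pi_pos.le, Real.sqrt_sq hT.le]

/-! ### The mean square -/

/-- the Dirichlet polynomial, squared -/
theorem norm_sq_sum (s : Finset ℕ) (hs : ∀ n ∈ s, 1 ≤ n) (a : ℕ → ℂ) (u : ℝ) :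
    ((‖∑ n ∈ s, a n * (n : ℂ) ^ (-(2 * u * I))‖ ^ 2 : ℝ) : ℂ) =
      ∑ m ∈ s, ∑ n ∈ s, a m * (starRingEnd ℂ) (a n) *
        cexp (I * ((2 * (Real.log n - Real.log m) : ℝ) : ℂ) * u) := by
  have h1 : ∀ n ∈ s, (n : ℂ) ^ (-(2 * u * I)) = cexp (-(2 * u * I) * (Real.log n : ℂ)) := by
    intro n hn
    have hn0 : (n : ℂ) ≠ 0 := Nat.cast_ne_zero.2 (by have := hs n hn; omega)
    rw [cpow_def_of_ne_zero hn0, Complex.natCast_log, mul_comm]
  rw [ofReal_pow, ← mul_conj', map_sum, Finset.sum_mul_sum]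
  refine Finset.sum_congr rfl fun m hm => Finset.sum_congr rfl fun n hn => ?_
  rw [h1 m hm, h1 n hn, map_mul, ← exp_conj, mul_mul_mul_comm, ← Complex.exp_add]
  congr 2
  simp only [map_mul, map_neg, conj_I, conj_ofReal, map_ofNat]
  push_cast
  ring

/-- the distance of the logarithms -/
theorem kernel_le {T : ℝ} {N : ℕ} (hT : 1 ≤ T) (hN : (N : ℝ) ≤ 4 * T) {m n : ℕ}
    (hm : m ∈ Finset.Icc 1 N) (hn : n ∈ Finset.Icc 1 N) :
    Real.exp (-((2 * (Real.log n - Real.log m)) ^ 2 * T ^ 2 / 4)) ≤ ker16 ((m : ℤ) - n) := by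
  rw [Finset.mem_Icc] at hm hn
  have key : ∀ {m n : ℕ}, 1 ≤ n → n ≤ m → m ≤ N →
      ((m : ℝ) - n) / 4 ≤ T * (Real.log m - Real.log n) := by
    intro m n hn hnm hmN
    have hn0 : (0 : ℝ) < n := by exact_mod_cast hn
    have hm0 : (0 : ℝ) < m := by exact_mod_cast hn.trans hnm
    have hmn : (n : ℝ) ≤ m := by exact_mod_cast hnm
    have hmN' : (m : ℝ) ≤ N := by exact_mod_cast hmN
    have h1 := Real.one_sub_inv_le_log_of_pos (x := (m : ℝ) / n) (by positivity)
    rw [Real.log_div hm0.ne' hn0.ne', inv_div] at h1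
    have h2 : (1 : ℝ) - n / m = ((m : ℝ) - n) / m := by field_simp
    rw [h2] at h1
    have h3 : ((m : ℝ) - n) / 4 ≤ T * (((m : ℝ) - n) / m) := by
      rw [mul_div_assoc', div_le_div_iff₀ (by norm_num) hm0]
      nlinarith
    exact h3.trans (mul_le_mul_of_nonneg_left h1 (by linarith))
  rw [ker16]
  refine Real.exp_le_exp.2 (neg_le_neg ?_)
  push_cast
  rcases le_total n m with h | h
  · have h1 := key hn.1 h hm.2
    have h2 : (0 : ℝ) ≤ ((m : ℝ) - n) / 4 := by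
      have : (n : ℝ) ≤ m := by exact_mod_cast h
      linarith
    have h3 := pow_le_pow_left₀ h2 h1 2
    nlinarith
  · have h1 := key hm.1 h hn.2
    have h2 : (0 : ℝ) ≤ ((n : ℝ) - m) / 4 := by
      have : (m : ℝ) ≤ n := by exact_mod_cast h
      linarith
    have h3 := pow_le_pow_left₀ h2 h1 2
    nlinarith

/-- (B1) -/
theorem meanStmt : MeanStmt := by
  have hC : 0 < ∑' k : ℤ, ker16 k := summable_ker16.tsum_pos (fun k => (ker16_pos k).le) 0
    (ker16_pos 0)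
  have hpi : 0 < √π := Real.sqrt_pos.2 Real.pi_pos
  refine ⟨Real.exp 4 * √π * ∑' k : ℤ, ker16 k, by positivity, fun T N a hT hN => ?_⟩
  have hT0 : 0 < T := by linarith
  set s := Finset.Icc 1 N with hs
  have hs1 : ∀ n ∈ s, 1 ≤ n := fun n hn => (Finset.mem_Icc.1 hn).1
  set f : ℝ → ℝ := fun u => ‖∑ n ∈ s, a n * (n : ℂ) ^ (-(2 * u * I))‖ ^ 2 with hf
  set w : ℝ → ℝ := fun u => Real.exp (4 - (u / T) ^ 2) with hw
  -- the weighted integrand as a sum
  have hsum : ∀ u : ℝ, ((w u * f u : ℝ) : ℂ) = (Real.exp 4 : ℂ) * ∑ m ∈ s, ∑ n ∈ s,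
      a m * (starRingEnd ℂ) (a n) * gexp T (2 * (Real.log n - Real.log m)) u := by
    intro u
    rw [ofReal_mul, hf]
    simp only
    rw [norm_sq_sum s hs1 a u, hw]
    simp only
    have h1 : ((Real.exp (4 - (u / T) ^ 2) : ℝ) : ℂ) = (Real.exp 4 : ℂ) *
        cexp (-((1 / T ^ 2 : ℝ) : ℂ) * (u : ℂ) ^ 2) := by
      rw [Complex.ofReal_exp, Complex.ofReal_exp, ← Complex.exp_add]
      congr 1
      push_cast
      have : (T : ℂ) ≠ 0 := ofReal_ne_zero.2 hT0.ne'
      field_simp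
      ring
    rw [h1, mul_assoc, Finset.mul_sum]
    congr 1
    refine Finset.sum_congr rfl fun m _ => ?_
    rw [Finset.mul_sum]
    refine Finset.sum_congr rfl fun n _ => ?_
    rw [gexp]
    ring
  have hint : ∀ m n : ℕ, Integrable fun u : ℝ => a m * (starRingEnd ℂ) (a n) *
      gexp T (2 * (Real.log n - Real.log m)) u := fun m n =>
    (integrable_gexp hT0 _).const_mul _
  have hint2 : Integrable fun u : ℝ => (Real.exp 4 : ℂ) * ∑ m ∈ s, ∑ n ∈ s,
      a m * (starRingEnd ℂ) (a n) * gexp T (2 * (Real.log n - Real.log m)) u :=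
    (integrable_finsetSum _ fun m _ => integrable_finsetSum _ fun n _ => hint m n).const_mul _
  have hwf : Integrable fun u : ℝ => w u * f u := by
    refine hint2.re.congr (Eventually.of_forall fun u => ?_)
    simp only
    rw [← hsum u]
    exact Complex.ofReal_re _
  -- the weighted integral
  have hR : ∫ u : ℝ, w u * f u ≤ Real.exp 4 * √π * (∑' k : ℤ, ker16 k) * T *
      ∑ n ∈ s, ‖a n‖ ^ 2 := by
    have h1 : ((∫ u : ℝ, w u * f u : ℝ) : ℂ) = (Real.exp 4 : ℂ) * ∑ m ∈ s, ∑ n ∈ s,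
        a m * (starRingEnd ℂ) (a n) * ∫ u : ℝ, gexp T (2 * (Real.log n - Real.log m)) u := by
      have h0 : ((∫ u : ℝ, w u * f u : ℝ) : ℂ) = ∫ u : ℝ, ((w u * f u : ℝ) : ℂ) :=
        integral_ofReal.symm
      rw [h0]
      simp only [hsum]
      rw [integral_const_mul, integral_finsetSum _ fun m _ =>
        integrable_finsetSum _ fun n _ => hint m n]
      congr 1
      refine Finset.sum_congr rfl fun m _ => ?_
      rw [integral_finsetSum _ fun n _ => hint m n]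
      refine Finset.sum_congr rfl fun n _ => ?_
      rw [integral_const_mul]
    have h2 : ∫ u : ℝ, w u * f u ≤ ‖((∫ u : ℝ, w u * f u : ℝ) : ℂ)‖ := by
      rw [Complex.norm_real]
      exact Real.le_norm_self _
    refine h2.trans ?_
    rw [h1, norm_mul, Complex.norm_of_nonneg (Real.exp_pos 4).le]
    have h3 : ‖∑ m ∈ s, ∑ n ∈ s, a m * (starRingEnd ℂ) (a n) *
        ∫ u : ℝ, gexp T (2 * (Real.log n - Real.log m)) u‖ ≤
        √π * T * ∑ m ∈ s, ∑ n ∈ s, ‖a m‖ * ‖a n‖ * ker16 ((m : ℤ) - n) := by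
      rw [Finset.mul_sum]
      refine (norm_sum_le _ _).trans (Finset.sum_le_sum fun m hm => ?_)
      rw [Finset.mul_sum]
      refine (norm_sum_le _ _).trans (Finset.sum_le_sum fun n hn => ?_)
      rw [norm_mul, norm_mul, RCLike.norm_conj, norm_integral_gexp hT0]
      have h4 := kernel_le hT hN hm hn
      have h5 : 0 ≤ ‖a m‖ * ‖a n‖ * (√π * T) := by positivity
      nlinarith [mul_le_mul_of_nonneg_left h4 h5]
    have h6 := schur s (fun n => ‖a n‖) fun n => norm_nonneg _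
    calc Real.exp 4 * ‖∑ m ∈ s, ∑ n ∈ s, a m * (starRingEnd ℂ) (a n) *
        ∫ u : ℝ, gexp T (2 * (Real.log n - Real.log m)) u‖
        ≤ Real.exp 4 * (√π * T * ((∑' k : ℤ, ker16 k) * ∑ n ∈ s, ‖a n‖ ^ 2)) :=
          mul_le_mul_of_nonneg_left (h3.trans (mul_le_mul_of_nonneg_left h6 (by positivity)))
            (Real.exp_pos 4).le
      _ = _ := by ring
  refine le_trans ?_ hR
  -- the comparison on `[T, 2T]`
  have hnn : ∀ u, 0 ≤ w u * f u := fun u => mul_nonneg (Real.exp_pos _).le (sq_nonneg _)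
  have h7 : ∫ u in T..(2 * T), f u ≤ ∫ u in T..(2 * T), w u * f u := by
    refine intervalIntegral.integral_mono_on (by linarith) ?_ hwf.intervalIntegrable
      fun u hu => ?_
    · refine Continuous.intervalIntegrable ?_ _ _
      refine (Continuous.norm ?_).pow 2
      refine continuous_finset_sum _ fun n hn => continuous_const.mul ?_
      have hn0 : (n : ℂ) ≠ 0 := Nat.cast_ne_zero.2 (by have := hs1 n hn; omega)
      refine Continuous.const_cpow ?_ (Or.inl hn0)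
      fun_prop
    · have h8 : 1 ≤ w u := by
        refine Real.one_le_exp ?_
        have h9 : 0 ≤ u / T := div_nonneg (by linarith [hu.1]) hT0.le
        have h10 : u / T ≤ 2 := (div_le_iff₀ hT0).2 hu.2
        nlinarith
      exact le_mul_of_one_le_left (sq_nonneg _) h8
  refine h7.trans ?_
  rw [intervalIntegral.integral_of_le (by linarith)]
  exact setIntegral_le_integral hwf (Eventually.of_forall hnn)

end Fermat.Agent.Cor.HL

end
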