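import Fermat.Agent.Corollaries.ZetaK.HL.Defs

/-!
# Hardy - Littlewood (A3): the simplest approximate formula on the critical line

`|ζ(1/2 + it) - ∑_{n ≤ N} n^{-1/2 - it}| ≤ A / √N` for `N ≤ 2t`, `t ≤ 3N`, from the Euler-Maclaurin
formula (A1), the Fourier series of the second Bernoulli function and the first derivative test (A2).
-/

set_option autoImplicit false

noncomputable section

namespace Fermat.Agent.Cor.HL

open Complex Real Filter Topology Set MeasureTheory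


/-- The Fourier series of the second Bernoulli function. -/
theorem hasSum_B2 (x : ℝ) :
    HasSum (fun n : ℕ => 1 / (π ^ 2 * (n : ℝ) ^ 2) * Real.cos (2 * π * n * x)) (B2 x) := by
  have h := hasSum_one_div_nat_pow_mul_cos (k := 1) one_ne_zero (x := Int.fract x)
    ⟨Int.fract_nonneg x, (Int.fract_lt_one x).le⟩
  have h2 : (Polynomial.map (algebraMap ℚ ℝ) (Polynomial.bernoulli (2 * 1))).eval (Int.fract x) =
      B2 x := by
    rw [B2, Polynomial.bernoulli_def]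
    simp [Finset.sum_range_succ, bernoulli_one]
    ring
  rw [h2] at h
  have h3 := h.mul_left (1 / π ^ 2)
  have hpi : (π : ℝ) ≠ 0 := Real.pi_ne_zero
  have e : 1 / π ^ 2 * ((-1 : ℝ) ^ (1 + 1) * (2 * π) ^ (2 * 1) / 2 / ((2 * 1).factorial : ℕ) * B2 x) = B2 x := by
    simp [Nat.factorial]
    field_simp
  rw [e] at h3
  refine h3.congr_fun fun n => ?_
  have e2 : Real.cos (2 * π * n * x) = Real.cos (2 * π * n * Int.fract x) := by
    have h4 : 2 * π * n * x = 2 * π * n * Int.fract x + ((n * ⌊x⌋ : ℤ) : ℝ) * (2 * π) := by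
      have := Int.floor_add_fract x
      push_cast
      nth_rewrite 1 [← this]
      ring
    rw [h4, Real.cos_add_int_mul_two_pi]
  rw [e2]
  simp only [mul_one]
  rw [← mul_assoc]
  congr 1
  rw [one_div_mul_one_div]

/-- the oscillating integrals with the cosine -/
theorem norm_integral_cos_le {A : ℝ} (hA : 0 < A)
    (hosc : ∀ (t : ℝ) (N : ℕ) (κ : ℤ), 1 ≤ N → κ ≠ 0 → |t| ≤ 3 * N →
      ‖∫ x in Ioi (N : ℝ), cexp (2 * π * κ * x * I) * (x : ℂ) ^ (-(5 / 2 + t * I))‖ ≤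
        A * (N : ℝ) ^ (-(5 / 2) : ℝ) / |(κ : ℝ)|)
    {t : ℝ} {N : ℕ} (hN : 1 ≤ N) (ht : |t| ≤ 3 * N) {n : ℕ} (hn : n ≠ 0) :
    ‖∫ x in Ioi (N : ℝ), (Real.cos (2 * π * n * x) : ℂ) * (x : ℂ) ^ (-(5 / 2 + t * I))‖ ≤
      A * (N : ℝ) ^ (-(5 / 2) : ℝ) := by
  have hN0 : (0 : ℝ) < N := by exact_mod_cast hN
  have hint : IntegrableOn (fun x : ℝ => (x : ℂ) ^ (-(5 / 2 + t * I))) (Ioi (N : ℝ)) :=
    integrableOn_Ioi_cpow_of_lt (by simp; norm_num) hN0
  have hexp : ∀ κ : ℤ, IntegrableOn (fun x : ℝ => cexp (2 * π * κ * x * I) *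
      (x : ℂ) ^ (-(5 / 2 + t * I))) (Ioi (N : ℝ)) := by
    intro κ
    refine Integrable.bdd_mul hint (c := 1) ?_ (Eventually.of_forall fun x => ?_)
    · exact (by fun_prop : Continuous fun x : ℝ => cexp (2 * π * κ * x * I)).aestronglyMeasurable
    · rw [show (2 * π * κ * x * I : ℂ) = ((2 * π * κ * x : ℝ) : ℂ) * I by push_cast; ring,
        norm_exp_ofReal_mul_I]
  have e : ∀ x : ℝ, (Real.cos (2 * π * n * x) : ℂ) * (x : ℂ) ^ (-(5 / 2 + t * I)) =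
      (1 / 2 : ℂ) * (cexp (2 * π * (n : ℤ) * x * I) * (x : ℂ) ^ (-(5 / 2 + t * I))) +
      (1 / 2 : ℂ) * (cexp (2 * π * (-(n : ℤ) : ℤ) * x * I) * (x : ℂ) ^ (-(5 / 2 + t * I))) := by
    intro x
    rw [Complex.ofReal_cos, Complex.cos]
    push_cast
    rw [show -(2 * (π : ℂ) * n * x) * I = 2 * π * -n * x * I by ring]
    ring
  rw [setIntegral_congr_fun measurableSet_Ioi fun x _ => e x,
    integral_add ((hexp _).const_mul _) ((hexp _).const_mul _), integral_const_mul,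
    integral_const_mul]
  have hn0 : (n : ℤ) ≠ 0 := by exact_mod_cast hn
  have h1 := hosc t N n hN hn0 ht
  have h2 := hosc t N (-n) hN (neg_ne_zero.mpr hn0) ht
  have hb : A * (N : ℝ) ^ (-(5 / 2) : ℝ) / |((n : ℤ) : ℝ)| ≤ A * (N : ℝ) ^ (-(5 / 2) : ℝ) := by
    refine div_le_self (by positivity) ?_
    rw [Int.cast_natCast, Nat.abs_cast]
    exact_mod_cast Nat.pos_of_ne_zero hn
  have hb2 : A * (N : ℝ) ^ (-(5 / 2) : ℝ) / |((-(n : ℤ) : ℤ) : ℝ)| ≤
      A * (N : ℝ) ^ (-(5 / 2) : ℝ) := by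
    rw [Int.cast_neg, abs_neg]
    exact hb
  refine (norm_add_le _ _).trans ?_
  rw [norm_mul, norm_mul]
  have h12 : ‖(1 / 2 : ℂ)‖ = 1 / 2 := by norm_num
  rw [h12]
  linarith [h1.trans hb, h2.trans hb2]

theorem norm_integral_B2_le {A : ℝ} (hA : 0 < A)
    (hosc : ∀ (t : ℝ) (N : ℕ) (κ : ℤ), 1 ≤ N → κ ≠ 0 → |t| ≤ 3 * N →
      ‖∫ x in Ioi (N : ℝ), cexp (2 * π * κ * x * I) * (x : ℂ) ^ (-(5 / 2 + t * I))‖ ≤
        A * (N : ℝ) ^ (-(5 / 2) : ℝ) / |(κ : ℝ)|)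
    {t : ℝ} {N : ℕ} (hN : 1 ≤ N) (ht : |t| ≤ 3 * N) :
    ‖∫ x in Ioi (N : ℝ), (B2 x : ℂ) * (x : ℂ) ^ (-(5 / 2 + t * I))‖ ≤
      A * (N : ℝ) ^ (-(5 / 2) : ℝ) := by
  have hN0 : (0 : ℝ) < N := by exact_mod_cast hN
  have hpi : (π : ℝ) ≠ 0 := Real.pi_ne_zero
  have hint : IntegrableOn (fun x : ℝ => (x : ℂ) ^ (-(5 / 2 + t * I))) (Ioi (N : ℝ)) :=
    integrableOn_Ioi_cpow_of_lt (by simp; norm_num) hN0
  set μ := volume.restrict (Ioi (N : ℝ)) with hμ
  set D : ℝ := ∫ x, ‖(x : ℂ) ^ (-(5 / 2 + t * I))‖ ∂μ with hD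
  have hD0 : 0 ≤ D := integral_nonneg fun _ => norm_nonneg _
  set F : ℕ → ℝ → ℂ := fun n x => ((1 / (π ^ 2 * (n : ℝ) ^ 2) : ℝ) : ℂ) *
    ((Real.cos (2 * π * n * x) : ℂ) * (x : ℂ) ^ (-(5 / 2 + t * I))) with hF
  have hcos : ∀ n : ℕ, Integrable (fun x : ℝ => (Real.cos (2 * π * n * x) : ℂ) *
      (x : ℂ) ^ (-(5 / 2 + t * I))) μ := by
    intro n
    refine Integrable.bdd_mul hint (c := 1) ?_ (Eventually.of_forall fun x => ?_)
    · exact (by fun_prop : Continuous fun x : ℝ =>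
        ((Real.cos (2 * π * n * x) : ℝ) : ℂ)).aestronglyMeasurable
    · rw [norm_real]
      exact Real.abs_cos_le_one _
  have hFi : ∀ n, Integrable (F n) μ := fun n => (hcos n).const_mul _
  have hs6 : HasSum (fun n : ℕ => 1 / (π ^ 2 * (n : ℝ) ^ 2)) (1 / 6) := by
    have h := hasSum_zeta_two.mul_left (1 / π ^ 2)
    have e : 1 / π ^ 2 * (π ^ 2 / 6) = 1 / 6 := by field_simp
    rw [e] at h
    refine h.congr_fun fun n => ?_
    rw [one_div_mul_one_div]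
  have hnorm : ∀ n, (∫ x, ‖F n x‖ ∂μ) ≤ 1 / (π ^ 2 * (n : ℝ) ^ 2) * D := by
    intro n
    rw [hD, ← integral_const_mul]
    refine integral_mono (hFi n).norm (hint.norm.const_mul _) fun x => ?_
    simp only [hF]
    rw [norm_mul, norm_mul, norm_real, norm_real, Real.norm_eq_abs, Real.norm_eq_abs,
      abs_of_nonneg (by positivity : 0 ≤ 1 / (π ^ 2 * (n : ℝ) ^ 2))]
    refine mul_le_mul_of_nonneg_left ?_ (by positivity)
    exact mul_le_of_le_one_left (norm_nonneg _) (Real.abs_cos_le_one _)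
  have hsum : Summable fun n => ∫ x, ‖F n x‖ ∂μ :=
    Summable.of_nonneg_of_le (fun n => integral_nonneg fun _ => norm_nonneg _) hnorm
      (hs6.summable.mul_right D)
  have hS := hasSum_integral_of_summable_integral_norm hFi hsum
  have hK : (∫ x, ∑' n, F n x ∂μ) = ∫ x, (B2 x : ℂ) * (x : ℂ) ^ (-(5 / 2 + t * I)) ∂μ := by
    refine integral_congr_ae (Eventually.of_forall fun x => ?_)
    simp only [hF]
    have h := (hasSum_B2 x)
    have h' : HasSum (fun n : ℕ => ((1 / (π ^ 2 * (n : ℝ) ^ 2) * Real.cos (2 * π * n * x) : ℝ) : ℂ))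
        (B2 x : ℂ) := by exact_mod_cast h
    have h'' := h'.mul_right ((x : ℂ) ^ (-(5 / 2 + t * I)))
    rw [← h''.tsum_eq]
    refine tsum_congr fun n => ?_
    push_cast
    ring
  rw [hK] at hS
  rw [← hS.tsum_eq]
  have hterm : ∀ n, ‖∫ x, F n x ∂μ‖ ≤ 1 / (π ^ 2 * (n : ℝ) ^ 2) * (A * (N : ℝ) ^ (-(5 / 2) : ℝ)) := by
    intro n
    simp only [hF]
    rw [integral_const_mul, norm_mul, norm_real, Real.norm_eq_abs,
      abs_of_nonneg (by positivity : 0 ≤ 1 / (π ^ 2 * (n : ℝ) ^ 2))]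
    rcases eq_or_ne n 0 with rfl | hn
    · simp
    · exact mul_le_mul_of_nonneg_left (norm_integral_cos_le hA hosc hN ht hn) (by positivity)
  refine (tsum_of_norm_bounded (hs6.mul_right _) hterm).trans ?_
  have : 0 ≤ A * (N : ℝ) ^ (-(5 / 2) : ℝ) := by positivity
  linarith

/-- **(A3) the simplest approximate formula on the critical line.** -/
theorem approxStmt (hE : EmStmt) (hO : OscStmt) : ApproxStmt := by
  obtain ⟨A, hA, hosc⟩ := hO
  refine ⟨2 + 1 / 2 + 1 / 3 + 10 * A, by positivity, fun t N hN h2t h3t => ?_⟩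
  have hN0 : (0 : ℝ) < N := by exact_mod_cast hN
  have hN1 : (1 : ℝ) ≤ N := by exact_mod_cast hN
  have ht0 : 0 < t := by linarith
  have htabs : |t| ≤ 3 * N := by rw [abs_of_pos ht0]; exact h3t
  have hs : 0 < √(N : ℝ) := Real.sqrt_pos.mpr hN0
  have hB := norm_integral_B2_le hA hosc hN htabs
  set J := ∫ x in Ioi (N : ℝ), (B2 x : ℂ) * (x : ℂ) ^ (-(5 / 2 + t * I)) with hJ
  have hNc : ∀ s : ℂ, ‖(N : ℂ) ^ s‖ = (N : ℝ) ^ s.re := by
    intro s
    rw [← ofReal_natCast, norm_cpow_eq_rpow_re_of_pos hN0]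
  have r12 : (N : ℝ) ^ (1 / 2 : ℝ) = √N := (Real.sqrt_eq_rpow _).symm
  have rm12 : (N : ℝ) ^ (-(1 / 2) : ℝ) = 1 / √N := by
    rw [Real.rpow_neg hN0.le, r12, one_div]
  have rm32 : (N : ℝ) ^ (-(3 / 2) : ℝ) = 1 / √N / N := by
    rw [show (-(3 / 2) : ℝ) = -(1 / 2) - 1 by norm_num, Real.rpow_sub_one hN0.ne', rm12]
  have rm52 : (N : ℝ) ^ (-(5 / 2) : ℝ) = 1 / √N / N / N := by
    rw [show (-(5 / 2) : ℝ) = -(3 / 2) - 1 by norm_num, Real.rpow_sub_one hN0.ne', rm32]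
  -- the four error terms
  have e1 : ‖(N : ℂ) ^ (1 / 2 - t * I) / (t * I - 1 / 2)‖ ≤ 2 / √N := by
    have h1 : ‖(N : ℂ) ^ (1 / 2 - t * I)‖ = √N := by
      rw [hNc, ← r12]
      congr 1
      simp
    have h2 : t ≤ ‖(t * I - 1 / 2 : ℂ)‖ := by
      have h3 := abs_im_le_norm (t * I - 1 / 2 : ℂ)
      have h4 : (t * I - 1 / 2 : ℂ).im = t := by simp
      rw [h4, abs_of_pos ht0] at h3
      exact h3
    rw [norm_div, h1, div_le_div_iff₀ (by linarith) hs, Real.mul_self_sqrt hN0.le]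
    linarith
  have e2 : ‖(N : ℂ) ^ (-(1 / 2 + t * I)) / 2‖ ≤ 1 / 2 / √N := by
    have h1 : ‖(N : ℂ) ^ (-(1 / 2 + t * I))‖ = 1 / √N := by
      rw [hNc, ← rm12]
      congr 1
      simp
    rw [norm_div, h1, Complex.norm_ofNat, div_div, div_div, mul_comm]
  have hs1 : ‖(1 / 2 + t * I : ℂ)‖ ≤ 4 * N := by
    refine (norm_add_le _ _).trans ?_
    rw [norm_mul, norm_I, mul_one, norm_real, Real.norm_eq_abs, abs_of_pos ht0]
    norm_num
    linarith
  have hs2 : ‖(3 / 2 + t * I : ℂ)‖ ≤ 5 * N := by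
    refine (norm_add_le _ _).trans ?_
    rw [norm_mul, norm_I, mul_one, norm_real, Real.norm_eq_abs, abs_of_pos ht0]
    norm_num
    linarith
  have e3 : ‖(1 / 2 + t * I) / 12 * (N : ℂ) ^ (-(3 / 2 + t * I))‖ ≤ 1 / 3 / √N := by
    have h1 : ‖(N : ℂ) ^ (-(3 / 2 + t * I))‖ = 1 / √N / N := by
      rw [hNc, ← rm32]
      congr 1
      simp
    rw [norm_mul, norm_div, h1, Complex.norm_ofNat]
    calc ‖(1 / 2 + t * I : ℂ)‖ / 12 * (1 / √N / N) ≤ 4 * N / 12 * (1 / √N / N) := by gcongr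
      _ = 1 / 3 / √N := by
        field_simp
        norm_num
  have e4 : ‖(1 / 2 + t * I) * (3 / 2 + t * I) / 2 * J‖ ≤ 10 * A / √N := by
    rw [norm_mul, norm_div, norm_mul, Complex.norm_ofNat]
    calc ‖(1 / 2 + t * I : ℂ)‖ * ‖(3 / 2 + t * I : ℂ)‖ / 2 * ‖J‖
        ≤ (4 * N) * (5 * N) / 2 * (A * (N : ℝ) ^ (-(5 / 2) : ℝ)) := by gcongr
      _ = 10 * A / √N := by
        rw [rm52]
        field_simp
        norm_num
  rw [hE t N hN]
  have key : ∀ (S a b c d : ℂ), ‖(S + a - b + c - d) - S‖ ≤ ‖a‖ + ‖b‖ + ‖c‖ + ‖d‖ := by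
    intro S a b c d
    rw [show (S + a - b + c - d) - S = a - b + c - d by ring]
    have h1 := norm_sub_le (a - b + c) d
    have h2 := norm_add_le (a - b) c
    have h3 := norm_sub_le a b
    linarith
  refine (key _ _ _ _ _).trans ?_
  calc _ ≤ 2 / √N + 1 / 2 / √N + 1 / 3 / √N + 10 * A / √N := by linarith
    _ = (2 + 1 / 2 + 1 / 3 + 10 * A) / √N := by ring

end Fermat.Agent.Cor.HL

end
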