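import Fermat.Agent.Corollaries.ZetaK.HL.Defs

/-!
# First derivative test

`|∫_N^∞ e^{2πiκx} x^{-(5/2+it)} dx| ≤ 2 N^{-5/2} / |κ|` for `|t| ≤ 3N`, `κ ≠ 0`: the derivative of
`-i x^{-(3/2+it)} e^{2πiκx} / (2πκx - t)` is the integrand plus a term which is at most
`2 x^{-7/2} / |κ|`.
-/

set_option autoImplicit false

noncomputable section

namespace Fermat.Agent.Cor.HL

open Complex Real Filter Topology Set MeasureTheory

/-- the integrand -/
def oscF (t : ℝ) (κ : ℤ) (x : ℝ) : ℂ := cexp (2 * π * κ * x * I) * (x : ℂ) ^ (-(5 / 2 + t * I))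

/-- the denominator -/
def oscD (t : ℝ) (κ : ℤ) (x : ℝ) : ℝ := 2 * π * κ * x - t

/-- the primitive -/
def oscU (t : ℝ) (κ : ℤ) (x : ℝ) : ℂ :=
  -I * (cexp (2 * π * κ * x * I) * (x : ℂ) ^ (-(3 / 2 + t * I))) / (oscD t κ x : ℂ)

/-- the second term of the derivative -/
def oscR (t : ℝ) (κ : ℤ) (x : ℝ) : ℂ :=
  oscF t κ x * (I * ((3 / 2 / oscD t κ x + 2 * π * κ * x / oscD t κ x ^ 2 : ℝ) : ℂ))

theorem norm_exp_osc (κ : ℤ) (x : ℝ) : ‖cexp (2 * π * κ * x * I)‖ = 1 := by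
  have h : (2 * π * κ * x * I : ℂ) = ((2 * π * κ * x : ℝ) : ℂ) * I := by push_cast; ring
  rw [h, norm_exp_ofReal_mul_I]

theorem norm_oscF {t x : ℝ} (hx : 0 < x) (κ : ℤ) : ‖oscF t κ x‖ = x ^ (-(5 / 2) : ℝ) := by
  rw [oscF, norm_mul, norm_exp_osc, one_mul, norm_cpow_eq_rpow_re_of_pos hx]
  congr 1
  simp

theorem le_oscD {t x : ℝ} {N : ℕ} {κ : ℤ} (hN : 1 ≤ N) (hκ : κ ≠ 0) (ht : |t| ≤ 3 * N)
    (hx : (N : ℝ) ≤ x) : 3 * |(κ : ℝ)| * x ≤ |oscD t κ x| := by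
  have hN' : (1 : ℝ) ≤ N := by exact_mod_cast hN
  have hx0 : 0 < x := by linarith
  have hκ1 : (1 : ℝ) ≤ |(κ : ℝ)| := by exact_mod_cast Int.one_le_abs hκ
  have h1 : |2 * π * κ * x| = 2 * π * |(κ : ℝ)| * x := by
    rw [abs_mul, abs_mul, abs_of_pos hx0, abs_of_pos (by positivity)]
  have h2 : |2 * π * κ * x| - |t| ≤ |oscD t κ x| := abs_sub_abs_le_abs_sub _ _
  rw [h1] at h2
  have h3 : x ≤ |(κ : ℝ)| * x := le_mul_of_one_le_left hx0.le hκ1
  have h4 : 6 * (|(κ : ℝ)| * x) ≤ 2 * π * (|(κ : ℝ)| * x) :=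
    mul_le_mul_of_nonneg_right (by linarith [Real.pi_gt_three]) (by positivity)
  nlinarith

theorem norm_oscR_le {t x : ℝ} {N : ℕ} {κ : ℤ} (hN : 1 ≤ N) (hκ : κ ≠ 0) (ht : |t| ≤ 3 * N)
    (hx : (N : ℝ) ≤ x) : ‖oscR t κ x‖ ≤ 2 / |(κ : ℝ)| * x ^ (-(7 / 2) : ℝ) := by
  have hN' : (1 : ℝ) ≤ N := by exact_mod_cast hN
  have hx0 : 0 < x := by linarith
  have hκ1 : (1 : ℝ) ≤ |(κ : ℝ)| := by exact_mod_cast Int.one_le_abs hκ
  have hD := le_oscD hN hκ ht hx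
  have hD0 : 0 < |oscD t κ x| := lt_of_lt_of_le (by positivity) hD
  rw [oscR, norm_mul, norm_oscF hx0, norm_mul, norm_I, one_mul, Complex.norm_real,
    Real.norm_eq_abs]
  have h1 : |3 / 2 / oscD t κ x + 2 * π * κ * x / oscD t κ x ^ 2| ≤ 2 / |(κ : ℝ)| * x⁻¹ := by
    refine (abs_add_le _ _).trans ?_
    have h2 : |3 / 2 / oscD t κ x| ≤ 1 / 2 / |(κ : ℝ)| * x⁻¹ := by
      rw [abs_div, abs_of_pos (by norm_num : (0 : ℝ) < 3 / 2)]
      have e : 1 / 2 / |(κ : ℝ)| * x⁻¹ = 3 / 2 / (3 * |(κ : ℝ)| * x) := by field_simp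
      rw [e]
      exact div_le_div_of_nonneg_left (by norm_num) (by positivity) hD
    have h3 : |2 * π * κ * x / oscD t κ x ^ 2| ≤ 1 / |(κ : ℝ)| * x⁻¹ := by
      rw [abs_div, abs_pow, abs_mul, abs_mul, abs_of_pos hx0,
        abs_of_pos (by positivity : (0 : ℝ) < 2 * π)]
      have h4 : (3 * |(κ : ℝ)| * x) ^ 2 ≤ |oscD t κ x| ^ 2 :=
        pow_le_pow_left₀ (by positivity) hD 2
      refine (div_le_div_of_nonneg_left (by positivity) (by positivity) h4).trans ?_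
      have e : 2 * π * |(κ : ℝ)| * x / (3 * |(κ : ℝ)| * x) ^ 2 =
          2 * π / 9 * (1 / |(κ : ℝ)| * x⁻¹) := by
        field_simp
        norm_num
      rw [e]
      have h5 : 2 * π / 9 ≤ 1 := by linarith [Real.pi_le_four]
      exact mul_le_of_le_one_left (by positivity) h5
    have e2 : 1 / 2 / |(κ : ℝ)| * x⁻¹ + 1 / |(κ : ℝ)| * x⁻¹ =
        3 / 2 * (1 / |(κ : ℝ)| * x⁻¹) := by ring
    have e3 : 2 / |(κ : ℝ)| * x⁻¹ = 2 * (1 / |(κ : ℝ)| * x⁻¹) := by ring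
    have h6 : 0 ≤ 1 / |(κ : ℝ)| * x⁻¹ := by positivity
    rw [e3]
    linarith
  have e4 : x ^ (-(7 / 2) : ℝ) = x ^ (-(5 / 2) : ℝ) * x⁻¹ := by
    rw [← Real.rpow_neg_one, ← Real.rpow_add hx0]
    norm_num
  rw [e4]
  calc x ^ (-(5 / 2) : ℝ) * |3 / 2 / oscD t κ x + 2 * π * κ * x / oscD t κ x ^ 2|
      ≤ x ^ (-(5 / 2) : ℝ) * (2 / |(κ : ℝ)| * x⁻¹) :=
        mul_le_mul_of_nonneg_left h1 (by positivity)
    _ = _ := by ring

/-- the algebra of the derivative -/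
theorem alg_osc {e w x p D t : ℂ} (hD : D ≠ 0) (hDt : D = p * x - t) :
    (-I * (e * (p * I) * (w * x) + e * (-(3 / 2 + t * I) * w)) * D -
      -I * (e * (w * x)) * p) / D ^ 2 = e * w + e * w * (I * (3 / 2 / D + p * x / D ^ 2)) := by
  obtain rfl : t = p * x - D := by rw [hDt]; ring
  have hI : I ^ 2 = -1 := I_sq
  field_simp
  ring_nf
  rw [hI]
  ring

theorem hasDerivAt_oscU {t x : ℝ} {κ : ℤ} (hx : 0 < x) (hD : oscD t κ x ≠ 0) :
    HasDerivAt (oscU t κ) (oscF t κ x + oscR t κ x) x := by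
  have hDc : (oscD t κ x : ℂ) ≠ 0 := ofReal_ne_zero.2 hD
  have hxc : (x : ℂ) ≠ 0 := ofReal_ne_zero.2 hx.ne'
  have h1 : HasDerivAt (fun x : ℝ => cexp (2 * π * κ * x * I))
      (cexp (2 * π * κ * x * I) * (2 * π * κ * I)) x := by
    have h : HasDerivAt (fun x : ℝ => (2 * π * κ * x * I : ℂ)) (2 * π * κ * I) x := by
      have h0 := ((hasDerivAt_id x).ofReal_comp.const_mul (2 * π * κ : ℂ)).mul_const I
      simpa using h0
    exact h.cexp
  have h2 : HasDerivAt (fun x : ℝ => (x : ℂ) ^ (-(3 / 2 + t * I)))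
      (-(3 / 2 + t * I) * (x : ℂ) ^ (-(3 / 2 + t * I) - 1)) x := by
    refine hasDerivAt_ofReal_cpow_const hx.ne' fun h => ?_
    have := congrArg Complex.re h
    simp at this
  have h3 : HasDerivAt (fun x : ℝ => (oscD t κ x : ℂ)) (2 * π * κ : ℂ) x := by
    have h0 : HasDerivAt (oscD t κ) (2 * π * κ) x := by
      have := ((hasDerivAt_id x).const_mul (2 * π * κ : ℝ)).sub_const t
      rw [mul_one] at this
      exact this
    have := h0.ofReal_comp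
    push_cast at this
    exact this
  have h4 := ((h1.mul h2).const_mul (-I)).div h3 hDc
  refine h4.congr_deriv ?_
  have e1 : (x : ℂ) ^ (-(3 / 2 + t * I) - 1) = (x : ℂ) ^ (-(5 / 2 + t * I)) := by
    congr 1
    ring
  have e2 : (x : ℂ) ^ (-(3 / 2 + t * I)) = (x : ℂ) ^ (-(5 / 2 + t * I)) * x := by
    have h5 := cpow_add (-(5 / 2 + t * I)) 1 hxc
    rw [cpow_one] at h5
    rw [← h5]
    congr 1
    ring
  have hDdef : (oscD t κ x : ℂ) = 2 * π * κ * x - t := by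
    rw [oscD]
    push_cast
    ring
  rw [oscR, oscF]
  simp only [Pi.mul_apply]
  rw [e1, e2]
  push_cast
  exact alg_osc hDc hDdef

theorem continuousOn_oscF (t : ℝ) (κ : ℤ) : ContinuousOn (oscF t κ) (Ioi 0) := by
  intro x hx
  have hx0 : x ≠ 0 := (mem_Ioi.1 hx).ne'
  have h2 : HasDerivAt (fun x : ℝ => (x : ℂ) ^ (-(5 / 2 + t * I)))
      (-(5 / 2 + t * I) * (x : ℂ) ^ (-(5 / 2 + t * I) - 1)) x := by
    refine hasDerivAt_ofReal_cpow_const hx0 fun h => ?_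
    have := congrArg Complex.re h
    simp at this
  have h1 : Continuous fun x : ℝ => cexp (2 * π * κ * x * I) := by fun_prop
  exact (h1.continuousAt.mul h2.continuousAt).continuousWithinAt

/-- (A2) -/
theorem oscStmt : OscStmt := by
  refine ⟨2, two_pos, fun t N κ hN hκ ht => ?_⟩
  have hN' : (1 : ℝ) ≤ N := by exact_mod_cast hN
  have hN0 : (0 : ℝ) < N := by linarith
  have hκ1 : (1 : ℝ) ≤ |(κ : ℝ)| := by exact_mod_cast Int.one_le_abs hκ
  have hκ0 : 0 < |(κ : ℝ)| := by linarith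
  have hDne : ∀ x : ℝ, (N : ℝ) ≤ x → oscD t κ x ≠ 0 := fun x hx h => by
    have h1 := le_oscD hN hκ ht hx
    rw [h, abs_zero] at h1
    have : 0 < 3 * |(κ : ℝ)| * x := by
      have : 0 < x := by linarith
      positivity
    linarith
  have hcD : Continuous (oscD t κ) := by
    unfold oscD
    fun_prop
  have hsub : Ioi (N : ℝ) ⊆ Ioi 0 := fun x hx => hN0.trans hx
  have hcF : ContinuousOn (oscF t κ) (Ioi (N : ℝ)) := (continuousOn_oscF t κ).mono hsub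
  have hcR : ContinuousOn (oscR t κ) (Ioi (N : ℝ)) := by
    refine hcF.mul (continuousOn_const.mul (continuous_ofReal.comp_continuousOn ?_))
    refine ContinuousOn.add (continuousOn_const.div hcD.continuousOn fun x hx => hDne x
      (le_of_lt hx)) (ContinuousOn.div (by fun_prop) (hcD.continuousOn.pow 2) fun x hx =>
        pow_ne_zero 2 (hDne x (le_of_lt hx)))
  have hiF : IntegrableOn (oscF t κ) (Ioi (N : ℝ)) := by
    refine (integrableOn_Ioi_rpow_of_lt (by norm_num : (-(5 / 2) : ℝ) < -1) hN0).mono'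
      (hcF.aestronglyMeasurable measurableSet_Ioi) ?_
    filter_upwards [ae_restrict_mem measurableSet_Ioi] with x hx
    rw [norm_oscF (hN0.trans hx)]
  have hbd : IntegrableOn (fun x : ℝ => 2 / |(κ : ℝ)| * x ^ (-(7 / 2) : ℝ)) (Ioi (N : ℝ)) :=
    (integrableOn_Ioi_rpow_of_lt (by norm_num : (-(7 / 2) : ℝ) < -1) hN0).const_mul _
  have hRle : ∀ᵐ x ∂(volume.restrict (Ioi (N : ℝ))),
      ‖oscR t κ x‖ ≤ 2 / |(κ : ℝ)| * x ^ (-(7 / 2) : ℝ) := by
    filter_upwards [ae_restrict_mem measurableSet_Ioi] with x hx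
    exact norm_oscR_le hN hκ ht (le_of_lt hx)
  have hiR : IntegrableOn (oscR t κ) (Ioi (N : ℝ)) :=
    hbd.mono' (hcR.aestronglyMeasurable measurableSet_Ioi) hRle
  have hUle : ∀ x : ℝ, (N : ℝ) ≤ x → ‖oscU t κ x‖ ≤ 1 / 3 / |(κ : ℝ)| * x ^ (-(5 / 2) : ℝ) := by
    intro x hx
    have hx0 : 0 < x := by linarith
    have hD := le_oscD hN hκ ht hx
    rw [oscU, norm_div, norm_mul, norm_mul, norm_neg, norm_I, one_mul, norm_exp_osc, one_mul,
      norm_cpow_eq_rpow_re_of_pos hx0, Complex.norm_real, Real.norm_eq_abs]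
    have e1 : (-(3 / 2 + t * I) : ℂ).re = -(3 / 2) := by simp
    rw [e1]
    refine (div_le_div_of_nonneg_left (by positivity) (by positivity) hD).trans (le_of_eq ?_)
    have e4 : x ^ (-(5 / 2) : ℝ) = x ^ (-(3 / 2) : ℝ) * x⁻¹ := by
      rw [← Real.rpow_neg_one, ← Real.rpow_add hx0]
      norm_num
    rw [e4]
    field_simp
  have hlim : Tendsto (oscU t κ) atTop (𝓝 0) := by
    refine squeeze_zero_norm' (a := fun x => 1 / 3 / |(κ : ℝ)| * x ^ (-(5 / 2) : ℝ)) ?_ ?_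
    · filter_upwards [eventually_ge_atTop (N : ℝ)] with x hx
      exact hUle x hx
    · have h := (tendsto_rpow_neg_atTop (by norm_num : (0 : ℝ) < 5 / 2)).const_mul
        (1 / 3 / |(κ : ℝ)|)
      rw [mul_zero] at h
      exact h
  have hFTC := integral_Ioi_of_hasDerivAt_of_tendsto' (a := (N : ℝ)) (f := oscU t κ)
    (f' := fun x => oscF t κ x + oscR t κ x) (m := 0)
    (fun x hx => hasDerivAt_oscU (hN0.trans_le hx) (hDne x hx)) (hiF.add hiR) hlim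
  rw [integral_add hiF hiR, zero_sub] at hFTC
  have hmain : ∫ x in Ioi (N : ℝ), oscF t κ x = -oscU t κ N - ∫ x in Ioi (N : ℝ), oscR t κ x := by
    rw [← hFTC]
    ring
  have hR : ‖∫ x in Ioi (N : ℝ), oscR t κ x‖ ≤ 4 / 5 / |(κ : ℝ)| * (N : ℝ) ^ (-(5 / 2) : ℝ) := by
    refine (norm_integral_le_of_norm_le hbd hRle).trans (le_of_eq ?_)
    rw [integral_const_mul, integral_Ioi_rpow_of_lt (by norm_num) hN0]
    have e1 : (-(7 / 2) : ℝ) + 1 = -(5 / 2) := by norm_num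
    rw [e1]
    field_simp
    norm_num
  change ‖∫ x in Ioi (N : ℝ), oscF t κ x‖ ≤ _
  rw [hmain]
  refine (norm_sub_le _ _).trans ?_
  rw [norm_neg]
  have h1 := hUle N le_rfl
  have h2 : 1 / 3 / |(κ : ℝ)| * (N : ℝ) ^ (-(5 / 2) : ℝ) +
      4 / 5 / |(κ : ℝ)| * (N : ℝ) ^ (-(5 / 2) : ℝ) =
      17 / 15 * ((N : ℝ) ^ (-(5 / 2) : ℝ) / |(κ : ℝ)|) := by ring
  have h3 : 2 * (N : ℝ) ^ (-(5 / 2) : ℝ) / |(κ : ℝ)| =
      2 * ((N : ℝ) ^ (-(5 / 2) : ℝ) / |(κ : ℝ)|) := by ring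
  have h4 : 0 ≤ (N : ℝ) ^ (-(5 / 2) : ℝ) / |(κ : ℝ)| := by positivity
  rw [h3]
  linarith

end Fermat.Agent.Cor.HL

end
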