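import Fermat.Agent.Corollaries.ZetaK.Hardy.Main

/-!
# The theorem of Hardy and Littlewood: `N₀(T) ≥ c T` (statements of the pieces)

`X y = completedRiemannZeta (1/2 + 2 i y)` is real. Put `G u = e^{φ u} X u`, `δ = π/2 - φ = 1/T`. On the
set `S` of the `t ∈ [T, 2T]` such that `X` has no zero in `(t, t + H)` one has
`|∫_t^{t+H} G| = ∫_t^{t+H} |G|`; the mean square of the left hand side is `O(H T^{1/2})` (Plancherel and the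
theta function), the right hand side is `≥ c T^{-1/4} |∫_t^{t+H} ζ|` and `∫_t^{t+H} ζ = H + Ψ(t)` with
`∫_T^{2T} |Ψ|² = O(T)`; so `|S| ≤ T/2` if `H` is large.
-/

set_option autoImplicit false

noncomputable section

namespace Fermat.Agent.Cor.HL

open Complex Real Filter Topology Set MeasureTheory

open Fermat.Agent.Cor.Hardy (X th)

/-- the second Bernoulli function -/
def B2 (x : ℝ) : ℝ := Int.fract x ^ 2 - Int.fract x + 1 / 6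

/-- (A1) Euler-Maclaurin of order two on the critical line -/
def EmStmt : Prop := ∀ (t : ℝ) (N : ℕ), 1 ≤ N →
  riemannZeta (1 / 2 + t * I) = ∑ n ∈ Finset.Icc 1 N, (n : ℂ) ^ (-(1 / 2 + t * I)) +
    (N : ℂ) ^ (1 / 2 - t * I) / (t * I - 1 / 2) - (N : ℂ) ^ (-(1 / 2 + t * I)) / 2 +
    (1 / 2 + t * I) / 12 * (N : ℂ) ^ (-(3 / 2 + t * I)) -
    (1 / 2 + t * I) * (3 / 2 + t * I) / 2 *
      ∫ x in Ioi (N : ℝ), (B2 x : ℂ) * (x : ℂ) ^ (-(5 / 2 + t * I))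

/-- (A2) first derivative test -/
def OscStmt : Prop := ∃ A : ℝ, 0 < A ∧ ∀ (t : ℝ) (N : ℕ) (κ : ℤ), 1 ≤ N → κ ≠ 0 → |t| ≤ 3 * N →
  ‖∫ x in Ioi (N : ℝ), cexp (2 * π * κ * x * I) * (x : ℂ) ^ (-(5 / 2 + t * I))‖ ≤
    A * (N : ℝ) ^ (-(5 / 2) : ℝ) / |(κ : ℝ)|

/-- (A3) the simplest approximate formula -/
def ApproxStmt : Prop := ∃ A : ℝ, 0 < A ∧ ∀ (t : ℝ) (N : ℕ), 1 ≤ N → N ≤ 2 * t → t ≤ 3 * N →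
  ‖riemannZeta (1 / 2 + t * I) - ∑ n ∈ Finset.Icc 1 N, (n : ℂ) ^ (-(1 / 2 + t * I))‖ ≤ A / √N

/-- (B1) mean squares of Dirichlet polynomials -/
def MeanStmt : Prop := ∃ A : ℝ, 0 < A ∧ ∀ (T : ℝ) (N : ℕ) (a : ℕ → ℂ), 1 ≤ T → (N : ℝ) ≤ 4 * T →
  ∫ u in T..(2 * T), ‖∑ n ∈ Finset.Icc 1 N, a n * (n : ℂ) ^ (-(2 * u * I))‖ ^ 2 ≤
    A * T * ∑ n ∈ Finset.Icc 1 N, ‖a n‖ ^ 2

/-- (B2) -/
def LogStmt : Prop := ∃ B : ℝ, ∀ N : ℕ, ∑ n ∈ Finset.Icc 2 N, 1 / ((n : ℝ) * Real.log n ^ 2) ≤ B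

/-- (B3) -/
def PsiStmt : Prop := ∃ A : ℝ, 0 < A ∧ ∀ H : ℝ, 1 ≤ H → ∃ T₀ : ℝ, ∀ T : ℝ, T₀ ≤ T →
  ∫ t in T..(2 * T), ‖∫ u in t..(t + H), (riemannZeta (1 / 2 + 2 * u * I) - 1)‖ ^ 2 ≤ A * T

/-- (C) -/
def GammaStmt : Prop := ∃ c : ℝ, 0 < c ∧ ∀ y : ℝ, 1 ≤ y →
  c * y ^ (-(1 / 4) : ℝ) * Real.exp (-(π / 2 * y)) ≤ ‖Complex.Gamma (1 / 4 + y * I)‖

/-- (D) the mean square of `∫_t^{t+H} e^{φ u} X u du` -/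
def UpperStmt : Prop := ∃ C : ℝ, 0 < C ∧ ∀ H : ℝ, 1 ≤ H → ∃ c₀ : ℝ, 0 < c₀ ∧ ∀ φ : ℝ, 0 ≤ φ →
  φ < π / 2 → Real.cos φ ≤ c₀ →
  Integrable (fun t : ℝ => ‖∫ u in t..(t + H), (Real.exp (φ * u) : ℂ) * X u‖ ^ 2) ∧
  ∫ t : ℝ, ‖∫ u in t..(t + H), (Real.exp (φ * u) : ℂ) * X u‖ ^ 2 ≤
    C * H * (Real.cos φ) ^ (-(1 / 2) : ℝ)

/-- (E) **Hardy and Littlewood (1921)** -/
def MainStmt : Prop := ∃ c : ℝ, 0 < c ∧ ∃ T₀ : ℝ, ∀ T : ℝ, T₀ ≤ T →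
  {t : ℝ | 0 < t ∧ t ≤ T ∧ riemannZeta (1 / 2 + t * I) = 0}.Finite ∧
  c * T ≤ ({t : ℝ | 0 < t ∧ t ≤ T ∧ riemannZeta (1 / 2 + t * I) = 0}.ncard : ℝ)

end Fermat.Agent.Cor.HL

end
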