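import Fermat.Agent.Corollaries.ZetaK.HL.Defs

/-!
# Euler-Maclaurin of order two for the Riemann zeta function
-/

set_option autoImplicit false

noncomputable section

namespace Fermat.Agent.Cor.HL

open Complex Real Filter Topology Set MeasureTheory

theorem abs_B2_le (x : ℝ) : |B2 x| ≤ 1 := by
  have h0 := Int.fract_nonneg x
  have h1 := (Int.fract_lt_one x).le
  rw [B2, abs_le]
  constructor <;> nlinarith [sq_nonneg (Int.fract x - 1 / 2)]

theorem measurable_B2 : Measurable B2 := by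
  unfold B2
  exact ((measurable_fract.pow_const 2).sub measurable_fract).add_const _

theorem B2_eq {n : ℕ} {x : ℝ} (hx : x ∈ Icc (n : ℝ) (n + 1)) :
    B2 x = (x - n) ^ 2 - (x - n) + 1 / 6 := by
  rcases eq_or_lt_of_le hx.2 with h | h
  · rw [B2, h, show ((n : ℝ) + 1) = ((n + 1 : ℕ) : ℝ) by push_cast; rfl, Int.fract_natCast]
    push_cast
    ring
  · have hf : Int.fract x = x - n := by
      rw [Int.fract_eq_iff]
      exact ⟨by linarith [hx.1], by linarith, n, by push_cast; ring⟩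
    rw [B2, hf]

theorem hasDerivAt_cpow' (r : ℂ) {x : ℝ} (hx : 0 < x) :
    HasDerivAt (fun y : ℝ => (y : ℂ) ^ r) (r * (x : ℂ) ^ (r - 1)) x := by
  have h := ((hasDerivAt_id (x : ℂ)).cpow_const (c := r) (Or.inl (by simpa using hx))).comp_ofReal
  simpa using h

/-- the antiderivative on `[n, n + 1]` -/
def Phi (s : ℂ) (n : ℕ) (x : ℝ) : ℂ :=
  (((x : ℂ) - n) ^ 2 - (x - n) + 1 / 6) * (-s * (x : ℂ) ^ (-s - 1)) -
    (2 * ((x : ℂ) - n) - 1) * (x : ℂ) ^ (-s) + 2 * ((x : ℂ) ^ (1 - s) / (1 - s))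

theorem hasDerivAt_Phi {s : ℂ} (hs : s ≠ 1) (n : ℕ) {x : ℝ} (hx : 0 < x) :
    HasDerivAt (Phi s n)
      ((((x : ℂ) - n) ^ 2 - (x - n) + 1 / 6) * (s * (s + 1) * (x : ℂ) ^ (-s - 2))) x := by
  have hs1 : (1 - s : ℂ) ≠ 0 := sub_ne_zero.mpr hs.symm
  have hx1 : HasDerivAt (fun y : ℝ => (y : ℂ)) 1 x := (hasDerivAt_id x).ofReal_comp
  have hl : HasDerivAt (fun y : ℝ => (y : ℂ) - n) 1 x := hx1.sub_const _
  have hq : HasDerivAt (fun y : ℝ => ((y : ℂ) - n) ^ 2 - (y - n) + 1 / 6)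
      (2 * ((x : ℂ) - n) - 1) x := by
    have h := ((hl.pow 2).sub hl).add_const (1 / 6 : ℂ)
    refine h.congr_deriv ?_
    norm_num
  have hl2 : HasDerivAt (fun y : ℝ => 2 * ((y : ℂ) - n) - 1) 2 x := by
    have h := (hl.const_mul 2).sub_const 1
    refine h.congr_deriv ?_
    norm_num
  have h1 := (hasDerivAt_cpow' (-s - 1) hx).const_mul (-s)
  have h2 := hasDerivAt_cpow' (-s) hx
  have h3 := ((hasDerivAt_cpow' (1 - s) hx).div_const (1 - s)).const_mul 2
  have h := ((hq.mul h1).sub (hl2.mul h2)).add h3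
  refine h.congr_deriv ?_
  rw [show -s - 1 - 1 = -s - 2 by ring, show 1 - s - 1 = -s by ring,
    mul_div_cancel_left₀ _ hs1]
  ring

theorem integral_step {s : ℂ} (hs : s ≠ 1) {n : ℕ} (hn : 1 ≤ n) :
    s * (s + 1) * ∫ x in (n : ℝ)..((n + 1 : ℕ) : ℝ), (B2 x : ℂ) * (x : ℂ) ^ (-s - 2) =
      Phi s n ((n + 1 : ℕ) : ℝ) - Phi s n n := by
  have hn0 : (0 : ℝ) < n := by exact_mod_cast hn
  have hle : (n : ℝ) ≤ ((n + 1 : ℕ) : ℝ) := by push_cast; linarith
  have hpos : ∀ x ∈ uIcc (n : ℝ) ((n + 1 : ℕ) : ℝ), 0 < x := by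
    intro x hx
    rw [uIcc_of_le hle] at hx
    exact hn0.trans_le hx.1
  rw [← intervalIntegral.integral_const_mul]
  have e : ∫ x in (n : ℝ)..((n + 1 : ℕ) : ℝ), s * (s + 1) * ((B2 x : ℂ) * (x : ℂ) ^ (-s - 2)) =
      ∫ x in (n : ℝ)..((n + 1 : ℕ) : ℝ),
        (((x : ℂ) - n) ^ 2 - (x - n) + 1 / 6) * (s * (s + 1) * (x : ℂ) ^ (-s - 2)) := by
    refine intervalIntegral.integral_congr fun x hx => ?_
    rw [uIcc_of_le hle] at hx
    rw [B2_eq (n := n) (by push_cast at hx; exact hx)]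
    push_cast
    ring
  rw [e]
  refine intervalIntegral.integral_eq_sub_of_hasDerivAt
    (fun x hx => hasDerivAt_Phi hs n (hpos x hx)) ?_
  refine ContinuousOn.intervalIntegrable fun x hx => ContinuousAt.continuousWithinAt ?_
  have h1 := (hasDerivAt_cpow' (-s - 2) (hpos x hx)).continuousAt
  exact ContinuousAt.mul (by fun_prop) (continuousAt_const.mul h1)

/-- the partial sums with the correction terms -/
def Qs (s : ℂ) (M : ℕ) : ℂ :=
  ∑ n ∈ Finset.Icc 1 M, (n : ℂ) ^ (-s) - (M : ℂ) ^ (1 - s) / (1 - s) - (M : ℂ) ^ (-s) / 2 +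
    s / 12 * (M : ℂ) ^ (-s - 1)

theorem Qs_succ {s : ℂ} (hs : s ≠ 1) {n : ℕ} (hn : 1 ≤ n) :
    Qs s (n + 1) = Qs s n -
      s * (s + 1) / 2 * ∫ x in (n : ℝ)..((n + 1 : ℕ) : ℝ), (B2 x : ℂ) * (x : ℂ) ^ (-s - 2) := by
  have h := integral_step hs hn
  have e1 : Phi s n ((n + 1 : ℕ) : ℝ) = 1 / 6 * (-s * ((n + 1 : ℕ) : ℂ) ^ (-s - 1)) -
      ((n + 1 : ℕ) : ℂ) ^ (-s) + 2 * (((n + 1 : ℕ) : ℂ) ^ (1 - s) / (1 - s)) := by
    rw [Phi]
    simp only [ofReal_natCast]
    have : (((n + 1 : ℕ) : ℂ) - n) = 1 := by push_cast; ring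
    rw [this]
    ring
  have e2 : Phi s n n = 1 / 6 * (-s * (n : ℂ) ^ (-s - 1)) + (n : ℂ) ^ (-s) +
      2 * ((n : ℂ) ^ (1 - s) / (1 - s)) := by
    rw [Phi]
    simp only [ofReal_natCast, sub_self]
    ring
  rw [e1, e2] at h
  have hsum : ∑ k ∈ Finset.Icc 1 (n + 1), (k : ℂ) ^ (-s) =
      ∑ k ∈ Finset.Icc 1 n, (k : ℂ) ^ (-s) + ((n + 1 : ℕ) : ℂ) ^ (-s) := by
    rw [Finset.sum_Icc_succ_top (by omega)]
  rw [Qs, Qs, hsum]
  linear_combination (1 / 2 : ℂ) * h

theorem intervalIntegrable_B2 (s : ℂ) {a b : ℝ} (ha : 0 < a) (hb : 0 < b) :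
    IntervalIntegrable (fun x : ℝ => (B2 x : ℂ) * (x : ℂ) ^ (-s - 2)) volume a b := by
  have h1 : IntervalIntegrable (fun x : ℝ => (x : ℂ) ^ (-s - 2)) volume a b := by
    refine ContinuousOn.intervalIntegrable fun x hx => ContinuousAt.continuousWithinAt ?_
    have hx0 : 0 < x := by
      have := hx.1
      rcases le_total a b with h | h
      · rw [inf_eq_left.mpr h] at this; linarith
      · rw [inf_eq_right.mpr h] at this; linarith
    exact (hasDerivAt_cpow' (-s - 2) hx0).continuousAt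
  have h2 : AEStronglyMeasurable (fun x : ℝ => (B2 x : ℂ)) volume :=
    (measurable_ofReal.comp measurable_B2).aestronglyMeasurable
  have h3 : ∀ x : ℝ, ‖(B2 x : ℂ)‖ ≤ 1 := fun x => by
    rw [norm_real]
    exact abs_B2_le x
  exact ⟨Integrable.bdd_mul h1.1 h2.restrict (Eventually.of_forall h3),
    Integrable.bdd_mul h1.2 h2.restrict (Eventually.of_forall h3)⟩

theorem Qs_eq {s : ℂ} (hs : s ≠ 1) {N : ℕ} (hN : 1 ≤ N) {M : ℕ} (hM : N ≤ M) :
    Qs s M = Qs s N -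
      s * (s + 1) / 2 * ∫ x in (N : ℝ)..(M : ℝ), (B2 x : ℂ) * (x : ℂ) ^ (-s - 2) := by
  induction M, hM using Nat.le_induction with
  | base => simp
  | succ M hM ih =>
    have hN0 : (0 : ℝ) < N := by exact_mod_cast hN
    have hM0 : (0 : ℝ) < M := by exact_mod_cast (by omega : 0 < M)
    have hM1 : (0 : ℝ) < ((M + 1 : ℕ) : ℝ) := by positivity
    rw [Qs_succ hs (by omega : 1 ≤ M), ih, ← intervalIntegral.integral_add_adjacent_intervals
      (intervalIntegrable_B2 s hN0 hM0) (intervalIntegrable_B2 s hM0 hM1)]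
    ring

theorem integrableOn_B2 {s : ℂ} (hs : -1 < s.re) {N : ℕ} (hN : 1 ≤ N) :
    IntegrableOn (fun x : ℝ => (B2 x : ℂ) * (x : ℂ) ^ (-s - 2)) (Ioi (N : ℝ)) := by
  have hN0 : (0 : ℝ) < N := by exact_mod_cast hN
  have h1 : IntegrableOn (fun x : ℝ => (x : ℂ) ^ (-s - 2)) (Ioi (N : ℝ)) :=
    integrableOn_Ioi_cpow_of_lt (by simp; linarith) hN0
  exact Integrable.bdd_mul h1
    (measurable_ofReal.comp measurable_B2).aestronglyMeasurable
    (Eventually.of_forall fun x => by rw [norm_real]; exact abs_B2_le x)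

theorem tendsto_natCast_cpow {r : ℂ} (hr : r.re < 0) :
    Tendsto (fun M : ℕ => (M : ℂ) ^ r) atTop (𝓝 0) := by
  rw [tendsto_zero_iff_norm_tendsto_zero]
  have h1 : Tendsto (fun M : ℕ => (M : ℝ) ^ (-(-r.re))) atTop (𝓝 0) :=
    (tendsto_rpow_neg_atTop (by linarith : 0 < -r.re)).comp tendsto_natCast_atTop_atTop
  rw [neg_neg] at h1
  refine h1.congr' ?_
  filter_upwards [eventually_ge_atTop 1] with M hM
  rw [norm_natCast_cpow_of_pos (by omega)]

theorem sum_Icc_eq (f : ℕ → ℂ) (M : ℕ) :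
    ∑ k ∈ Finset.Icc 1 M, f k = ∑ k ∈ Finset.range M, f (k + 1) := by
  induction M with
  | zero => simp
  | succ M ih => rw [Finset.sum_Icc_succ_top (by omega), Finset.sum_range_succ, ih]

theorem tendsto_Qs {s : ℂ} (hs : 1 < s.re) : Tendsto (Qs s) atTop (𝓝 (riemannZeta s)) := by
  have h1 : Tendsto (fun M : ℕ => ∑ n ∈ Finset.Icc 1 M, (n : ℂ) ^ (-s)) atTop
      (𝓝 (riemannZeta s)) := by
    have hsum : Summable fun n : ℕ => ((n + 1 : ℕ) : ℂ) ^ (-s) := by
      have h := (Complex.summable_one_div_nat_cpow.mpr hs)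
      refine ((summable_nat_add_iff 1).mpr h).congr fun n => ?_
      rw [cpow_neg, one_div]
    have h := hsum.hasSum.tendsto_sum_nat
    have e : ∑' n : ℕ, ((n + 1 : ℕ) : ℂ) ^ (-s) = riemannZeta s := by
      rw [zeta_eq_tsum_one_div_nat_add_one_cpow hs]
      refine tsum_congr fun n => ?_
      rw [cpow_neg, one_div]
      push_cast
      rfl
    rw [e] at h
    exact h.congr fun M => (sum_Icc_eq (fun n => (n : ℂ) ^ (-s)) M).symm
  have h2 := (tendsto_natCast_cpow (r := 1 - s) (by simp; linarith)).div_const (1 - s)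
  have h3 := (tendsto_natCast_cpow (r := -s) (by simp; linarith)).div_const 2
  have h4 := (tendsto_natCast_cpow (r := -s - 1) (by simp; linarith)).const_mul (s / 12)
  have h := ((h1.sub h2).sub h3).add h4
  simp only [zero_div, sub_zero, mul_zero, add_zero] at h
  exact h

/-- Euler-Maclaurin for `re s > 1` -/
theorem zeta_em_of_one_lt {s : ℂ} (hs : 1 < s.re) {N : ℕ} (hN : 1 ≤ N) :
    riemannZeta s = Qs s N -
      s * (s + 1) / 2 * ∫ x in Ioi (N : ℝ), (B2 x : ℂ) * (x : ℂ) ^ (-s - 2) := by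
  have hs1 : s ≠ 1 := by
    rintro rfl
    rw [one_re] at hs
    exact lt_irrefl _ hs
  have h1 := intervalIntegral_tendsto_integral_Ioi (N : ℝ)
    (integrableOn_B2 (s := s) (by linarith) hN) tendsto_natCast_atTop_atTop
  have h2 : Tendsto (Qs s) atTop (𝓝 (Qs s N -
      s * (s + 1) / 2 * ∫ x in Ioi (N : ℝ), (B2 x : ℂ) * (x : ℂ) ^ (-s - 2))) := by
    refine (tendsto_const_nhds.sub (h1.const_mul _)).congr' ?_
    filter_upwards [eventually_ge_atTop N] with M hM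
    exact (Qs_eq hs1 hN hM).symm
  exact tendsto_nhds_unique (tendsto_Qs hs) h2

/-- the integral is a Mellin transform -/
theorem integral_eq_mellin (s : ℂ) {N : ℕ} (hN : 1 ≤ N) :
    ∫ x in Ioi (N : ℝ), (B2 x : ℂ) * (x : ℂ) ^ (-s - 2) =
      mellin (indicator (Ioi (N : ℝ)) fun x => (B2 x : ℂ)) (-s - 1) := by
  have hN0 : (0 : ℝ) < N := by exact_mod_cast hN
  rw [mellin]
  have e : ∀ x : ℝ, (x : ℂ) ^ (-s - 1 - 1) • indicator (Ioi (N : ℝ)) (fun x => (B2 x : ℂ)) x =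
      indicator (Ioi (N : ℝ)) (fun x : ℝ => (B2 x : ℂ) * (x : ℂ) ^ (-s - 2)) x := by
    intro x
    by_cases hx : x ∈ Ioi (N : ℝ)
    · rw [indicator_of_mem hx, indicator_of_mem hx, smul_eq_mul, mul_comm,
        show -s - 1 - 1 = -s - 2 by ring]
    · rw [indicator_of_notMem hx, indicator_of_notMem hx, smul_zero]
  simp only [e]
  rw [setIntegral_indicator measurableSet_Ioi, Ioi_inter_Ioi, sup_eq_right.mpr hN0.le]

theorem differentiableAt_integral {s : ℂ} (hs : -1 < s.re) {N : ℕ} (hN : 1 ≤ N) :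
    DifferentiableAt ℂ
      (fun s : ℂ => ∫ x in Ioi (N : ℝ), (B2 x : ℂ) * (x : ℂ) ^ (-s - 2)) s := by
  have hN0 : (0 : ℝ) < N := by exact_mod_cast hN
  have e : (fun s : ℂ => ∫ x in Ioi (N : ℝ), (B2 x : ℂ) * (x : ℂ) ^ (-s - 2)) =
      fun s : ℂ => mellin (indicator (Ioi (N : ℝ)) fun x => (B2 x : ℂ)) (-s - 1) :=
    funext fun s => integral_eq_mellin s hN
  rw [e]
  have hmeas : Measurable (indicator (Ioi (N : ℝ)) fun x => (B2 x : ℂ)) :=
    (measurable_ofReal.comp measurable_B2).indicator measurableSet_Ioi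
  have hbdd : ∀ x : ℝ, ‖indicator (Ioi (N : ℝ)) (fun x => (B2 x : ℂ)) x‖ ≤ 1 := by
    intro x
    refine (norm_indicator_le_norm_self _ _).trans ?_
    rw [norm_real]
    exact abs_B2_le x
  have hloc : LocallyIntegrableOn (indicator (Ioi (N : ℝ)) fun x => (B2 x : ℂ)) (Ioi 0) := by
    refine LocallyIntegrable.locallyIntegrableOn ?_ _
    intro x
    refine ⟨Icc (x - 1) (x + 1), Icc_mem_nhds (by linarith) (by linarith), ?_⟩
    exact Measure.integrableOn_of_bounded (M := 1) (by simp) hmeas.aestronglyMeasurable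
      (Eventually.of_forall hbdd)
  have h := mellin_differentiableAt_of_isBigO_rpow (a := 0) (b := -s.re - 2) (s := -s - 1) hloc
    ?_ (by simp; linarith) ?_ (by simp)
  · exact DifferentiableAt.comp (𝕜 := ℂ) s (f := fun s : ℂ => -s - 1) h (by fun_prop)
  · refine Asymptotics.IsBigO.of_bound 1 (Eventually.of_forall fun x => ?_)
    rw [neg_zero, Real.rpow_zero, norm_one, mul_one]
    exact hbdd x
  · refine Asymptotics.IsBigO.of_bound 1 ?_
    filter_upwards [Ioo_mem_nhdsGT hN0] with x hx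
    rw [indicator_of_notMem (by simp only [mem_Ioi, not_lt]; exact hx.2.le), norm_zero]
    positivity

/-- **Euler-Maclaurin for the Riemann zeta function, `re s > 0`** -/
theorem zeta_em {s : ℂ} (hs : 0 < s.re) (hs1 : s ≠ 1) {N : ℕ} (hN : 1 ≤ N) :
    riemannZeta s = Qs s N -
      s * (s + 1) / 2 * ∫ x in Ioi (N : ℝ), (B2 x : ℂ) * (x : ℂ) ^ (-s - 2) := by
  have hN0 : (N : ℂ) ≠ 0 := by exact_mod_cast (by omega : N ≠ 0)
  set F : ℂ → ℂ := fun s => (s - 1) * (∑ n ∈ Finset.Icc 1 N, (n : ℂ) ^ (-s) -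
    (N : ℂ) ^ (-s) / 2 + s / 12 * (N : ℂ) ^ (-s - 1) -
      s * (s + 1) / 2 * ∫ x in Ioi (N : ℝ), (B2 x : ℂ) * (x : ℂ) ^ (-s - 2)) +
    (N : ℂ) ^ (1 - s) with hF
  set U : Set ℂ := {s : ℂ | 0 < s.re} with hU
  have hUo : IsOpen U := isOpen_lt continuous_const continuous_re
  have hUc : IsPreconnected U := (convex_halfSpace_re_gt 0).isPreconnected
  have hFd : DifferentiableOn ℂ F U := by
    intro z hz
    have hz' : (0 : ℝ) < z.re := hz
    refine DifferentiableAt.differentiableWithinAt ?_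
    have hsum : DifferentiableAt ℂ (fun s : ℂ => ∑ n ∈ Finset.Icc 1 N, (n : ℂ) ^ (-s)) z := by
      refine DifferentiableAt.fun_sum fun n hn => ?_
      have hn0 : (n : ℂ) ≠ 0 := by
        have := (Finset.mem_Icc.mp hn).1
        exact_mod_cast (by omega : n ≠ 0)
      exact (differentiableAt_id.neg).const_cpow (Or.inl hn0)
    have h1 : DifferentiableAt ℂ (fun s : ℂ => (N : ℂ) ^ (-s)) z :=
      (differentiableAt_id.neg).const_cpow (Or.inl hN0)
    have h2 : DifferentiableAt ℂ (fun s : ℂ => (N : ℂ) ^ (-s - 1)) z :=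
      ((differentiableAt_id.neg).sub_const 1).const_cpow (Or.inl hN0)
    have h3 : DifferentiableAt ℂ (fun s : ℂ => (N : ℂ) ^ (1 - s)) z :=
      ((differentiableAt_const (1 : ℂ)).sub differentiableAt_id).const_cpow (Or.inl hN0)
    have h4 := differentiableAt_integral (s := z) (by linarith) hN
    exact ((differentiableAt_id.sub_const 1).mul (((hsum.sub (h1.div_const 2)).add
      ((differentiableAt_id.div_const 12).mul h2)).sub
        (((differentiableAt_id.mul (differentiableAt_id.add_const 1)).div_const 2).mul h4))).add h3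
  have hkey : EqOn F riemannZeta₁ U := by
    refine (hFd.analyticOnNhd hUo).eqOn_of_preconnected_of_eventuallyEq
      (differentiable_riemannZeta₁.differentiableOn.analyticOnNhd hUo) hUc
      (z₀ := 2) (by simp [hU]) ?_
    have hev : ∀ᶠ z : ℂ in 𝓝 2, 1 < z.re :=
      (isOpen_lt continuous_const continuous_re).mem_nhds (by simp)
    filter_upwards [hev] with z hz
    have hz1 : z ≠ 1 := by
      rintro rfl
      rw [one_re] at hz
      exact lt_irrefl _ hz
    have hz2 : z - 1 ≠ 0 := sub_ne_zero.mpr hz1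
    have hz3 : 1 - z ≠ 0 := sub_ne_zero.mpr hz1.symm
    have h1 := zeta_em_of_one_lt hz hN
    rw [riemannZeta_eq_inv_sub_mul hz1] at h1
    have h2 : riemannZeta₁ z = (z - 1) * (Qs z N -
      z * (z + 1) / 2 * ∫ x in Ioi (N : ℝ), (B2 x : ℂ) * (x : ℂ) ^ (-z - 2)) := by
      rw [← h1, mul_inv_cancel_left₀ hz2]
    rw [h2, hF, Qs]
    simp only
    have h3 : (N : ℂ) ^ (1 - z) = -((z - 1) * ((N : ℂ) ^ (1 - z) / (1 - z))) := by
      field_simp
      ring
    linear_combination h3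
  have h := hkey (show s ∈ U from hs)
  have hs2 : s - 1 ≠ 0 := sub_ne_zero.mpr hs1
  have hs3 : 1 - s ≠ 0 := sub_ne_zero.mpr hs1.symm
  rw [riemannZeta_eq_inv_sub_mul hs1, ← h, hF, Qs]
  simp only
  have h3 : (s - 1)⁻¹ * (N : ℂ) ^ (1 - s) = -((N : ℂ) ^ (1 - s) / (1 - s)) := by
    rw [← neg_sub 1 s, inv_neg]
    field_simp
  rw [mul_add, inv_mul_cancel_left₀ hs2]
  linear_combination h3

/-- **(A1)** -/
theorem emStmt : EmStmt := by
  intro t N hN
  have hre : (1 / 2 + t * I : ℂ).re = 1 / 2 := by simp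
  have h1 : (1 / 2 + t * I : ℂ) ≠ 1 := by
    intro h
    rw [h, one_re] at hre
    norm_num at hre
  have h := zeta_em (s := 1 / 2 + t * I) (by rw [hre]; norm_num) h1 hN
  rw [h, Qs]
  have e1 : (1 - (1 / 2 + t * I) : ℂ) = 1 / 2 - t * I := by ring
  have e2 : (-(1 / 2 + t * I) - 1 : ℂ) = -(3 / 2 + t * I) := by ring
  have e3 : (-(1 / 2 + t * I) - 2 : ℂ) = -(5 / 2 + t * I) := by ring
  have e4 : ((1 / 2 + t * I) + 1 : ℂ) = 3 / 2 + t * I := by ring
  have e5 : (N : ℂ) ^ (1 / 2 - t * I : ℂ) / (t * I - 1 / 2) =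
      -((N : ℂ) ^ (1 / 2 - t * I : ℂ) / (1 / 2 - t * I)) := by
    rw [← neg_sub (1 / 2 : ℂ) (t * I), div_neg]
  rw [e1, e2, e3, e4, e5]
  ring

end Fermat.Agent.Cor.HL

end
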