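import Fermat.Agent.Corollaries.ZetaK.HL.Defs

/-!
# The counting argument of Hardy and Littlewood

`[T, 2T]` is divided into intervals of length `2H`, `H` a large constant. If `X` has no zero in such
an interval `I`, then `H² ≤ F(t)` on the first half of `I`, `F = 2 |Ψ|² + 2 (T^{1/2} / κ²) |J|²`,
`Ψ(t) = ∫_t^{t+H} (ζ(1/2 + 2iu) - 1) du`, `J(t) = ∫_t^{t+H} e^{φu} X(u) du`; and `∫_T^{2T} F` is at most
`T H² / 16`.
-/

set_option autoImplicit false

noncomputable section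

namespace Fermat.Agent.Cor.HL

open Complex Real Filter Topology Set MeasureTheory

open Fermat.Agent.Cor.Hardy (X th X_eq_re norm_X continuous_X)

/-! ### The zeros -/

theorem line_ne_zero (u : ℝ) : (1 / 2 + 2 * (u : ℂ) * I) ≠ 0 := by
  intro h
  have := congrArg Complex.re h
  simp at this

theorem zeta_line_eq (u : ℝ) :
    riemannZeta (1 / 2 + 2 * (u : ℂ) * I) = X u / Gammaℝ (1 / 2 + 2 * (u : ℂ) * I) := by
  rw [X, riemannZeta_def_of_ne_zero (line_ne_zero u)]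

theorem X_eq (u : ℝ) :
    X u = Gammaℝ (1 / 2 + 2 * (u : ℂ) * I) * riemannZeta (1 / 2 + 2 * (u : ℂ) * I) := by
  have h : Gammaℝ (1 / 2 + 2 * (u : ℂ) * I) ≠ 0 := Gammaℝ_ne_zero_of_re_pos (by simp)
  rw [zeta_line_eq, mul_div_cancel₀ _ h]

theorem X_eq_zero_iff (u : ℝ) : X u = 0 ↔ riemannZeta (1 / 2 + 2 * (u : ℂ) * I) = 0 := by
  have h : Gammaℝ (1 / 2 + 2 * (u : ℂ) * I) ≠ 0 := Gammaℝ_ne_zero_of_re_pos (by simp)
  rw [zeta_line_eq, div_eq_zero_iff, or_iff_left h]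

/-- finitely many zeros in a bounded interval of the critical line -/
theorem finite_zeros (T : ℝ) :
    {t : ℝ | 0 < t ∧ t ≤ T ∧ riemannZeta (1 / 2 + t * I) = 0}.Finite := by
  by_contra hinf
  have hinf' : {t : ℝ | 0 < t ∧ t ≤ T ∧ riemannZeta (1 / 2 + t * I) = 0}.Infinite := hinf
  obtain ⟨t₀, -, ht₀⟩ := hinf'.exists_accPt_of_subset_isCompact (isCompact_Icc (a := 0) (b := T))
    fun t ht => ⟨ht.1.le, ht.2.1⟩
  have hA : AnalyticOnNhd ℂ riemannZeta {1}ᶜ := by
    refine DifferentiableOn.analyticOnNhd (fun s hs => ?_) isOpen_compl_singleton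
    exact (differentiableAt_riemannZeta hs).differentiableWithinAt
  have hconn : IsPreconnected ({1}ᶜ : Set ℂ) :=
    (isConnected_compl_singleton_of_one_lt_rank (by simp) 1).isPreconnected
  have hmem : (1 / 2 + (t₀ : ℂ) * I) ∈ ({1}ᶜ : Set ℂ) := by
    intro h
    have := congrArg Complex.re h
    simp at this
  have hfreq : ∃ᶠ z in 𝓝[≠] (1 / 2 + (t₀ : ℂ) * I), riemannZeta z = 0 := by
    have h1 : ∃ᶠ t : ℝ in 𝓝[≠] t₀, riemannZeta (1 / 2 + (t : ℂ) * I) = 0 := by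
      rw [accPt_iff_frequently_nhdsNE] at ht₀
      exact ht₀.mono fun t ht => ht.2.2
    have h2 : Tendsto (fun t : ℝ => (1 / 2 + (t : ℂ) * I)) (𝓝[≠] t₀)
        (𝓝[≠] (1 / 2 + (t₀ : ℂ) * I)) := by
      refine tendsto_nhdsWithin_of_tendsto_nhds_of_eventually_within _ ?_ ?_
      · have hc : Continuous fun t : ℝ => (1 / 2 + (t : ℂ) * I) := by fun_prop
        exact (hc.tendsto t₀).mono_left nhdsWithin_le_nhds
      · filter_upwards [self_mem_nhdsWithin] with t ht h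
        apply ht
        have := congrArg Complex.im h
        simpa using this
    exact h2.frequently h1
  have hz := hA.eqOn_zero_of_preconnected_of_frequently_eq_zero hconn hmem hfreq
  have h2 : riemannZeta 2 = 0 := hz (show (2 : ℂ) ∈ ({1}ᶜ : Set ℂ) by
    rw [mem_compl_singleton_iff]
    norm_num)
  exact riemannZeta_ne_zero_of_one_le_re (s := 2) (by norm_num) h2

/-! ### Constant sign -/

/-- the sign of a continuous function without zeros on an interval -/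
theorem sign_of_ne_zero' {f : ℝ → ℝ} (hf : Continuous f) {a b : ℝ} (hab : a < b)
    (h : ∀ y, a < y → y < b → f y ≠ 0) :
    ∃ σ : ℝ, (σ = 1 ∨ σ = -1) ∧ ∀ y, a < y → y < b → |f y| = σ * f y := by
  have hm : (a + b) / 2 ∈ Ioo a b := ⟨by linarith, by linarith⟩
  have hpre : IsPreconnected (Ioo a b) := isPreconnected_Ioo
  rcases lt_or_gt_of_ne (h _ hm.1 hm.2) with h0 | h0
  · refine ⟨-1, Or.inr rfl, fun y hy hy' => ?_⟩
    rw [abs_of_nonpos, neg_one_mul]
    by_contra hcon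
    obtain ⟨z, hz, hz0⟩ := hpre.intermediate_value hm (show y ∈ Ioo a b from ⟨hy, hy'⟩)
      hf.continuousOn (show (0 : ℝ) ∈ Icc (f ((a + b) / 2)) (f y) from ⟨h0.le, by linarith⟩)
    exact h z hz.1 hz.2 hz0
  · refine ⟨1, Or.inl rfl, fun y hy hy' => ?_⟩
    rw [abs_of_nonneg, one_mul]
    by_contra hcon
    obtain ⟨z, hz, hz0⟩ := hpre.intermediate_value (show y ∈ Ioo a b from ⟨hy, hy'⟩) hm
      hf.continuousOn (show (0 : ℝ) ∈ Icc (f y) (f ((a + b) / 2)) from ⟨by linarith, h0.le⟩)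
    exact h z hz.1 hz.2 hz0

/-- `X` has constant sign (zeros allowed) on `(a, b)` -/
def ConstSign (a b : ℝ) : Prop :=
  ∃ σ : ℝ, (σ = 1 ∨ σ = -1) ∧ ∀ u, a < u → u < b → |(X u).re| = σ * (X u).re

theorem ConstSign.mono {a b a' b' : ℝ} (h : ConstSign a b) (ha : a ≤ a') (hb : b' ≤ b) :
    ConstSign a' b' := by
  obtain ⟨σ, hσ, hs⟩ := h
  exact ⟨σ, hσ, fun u h1 h2 => hs u (ha.trans_lt h1) (h2.trans_le hb)⟩

theorem constSign_of_ne_zero {a b : ℝ} (hab : a < b) (h : ∀ u, a < u → u < b → X u ≠ 0) :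
    ConstSign a b :=
  sign_of_ne_zero' (f := fun u => (X u).re) (continuous_re.comp continuous_X) hab
    fun y h1 h2 h3 => h y h1 h2 (by
      have h4 : (X y).re = 0 := h3
      rw [X_eq_re, h4, ofReal_zero])

/-- `|∫ e^{φu} X| = ∫ e^{φu} |X|` on an interval without change of sign -/
theorem norm_integral_X {t H : ℝ} (hH : 0 < H) (φ : ℝ) (h : ConstSign t (t + H)) :
    ‖∫ u in t..(t + H), (Real.exp (φ * u) : ℂ) * X u‖ =
      ∫ u in t..(t + H), Real.exp (φ * u) * ‖X u‖ := by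
  obtain ⟨σ, hσ, hs⟩ := h
  have h1 : ∫ u in t..(t + H), (Real.exp (φ * u) : ℂ) * X u =
      ((∫ u in t..(t + H), Real.exp (φ * u) * (X u).re : ℝ) : ℂ) := by
    rw [← intervalIntegral.integral_ofReal]
    refine intervalIntegral.integral_congr fun u _ => ?_
    rw [X_eq_re u]
    push_cast
    rw [ofReal_re]
  have h2 : ∫ u in t..(t + H), Real.exp (φ * u) * ‖X u‖ =
      σ * ∫ u in t..(t + H), Real.exp (φ * u) * (X u).re := by
    rw [← intervalIntegral.integral_const_mul, intervalIntegral.integral_of_le (by linarith),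
      intervalIntegral.integral_of_le (by linarith), integral_Ioc_eq_integral_Ioo,
      integral_Ioc_eq_integral_Ioo]
    refine setIntegral_congr_fun measurableSet_Ioo fun u hu => ?_
    rw [norm_X, hs u hu.1 hu.2]
    ring
  have h3 : 0 ≤ ∫ u in t..(t + H), Real.exp (φ * u) * ‖X u‖ :=
    intervalIntegral.integral_nonneg (by linarith) fun u _ =>
      mul_nonneg (Real.exp_pos _).le (norm_nonneg _)
  rw [h1, Complex.norm_real, Real.norm_eq_abs]
  rw [h2] at h3 ⊢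
  rcases hσ with rfl | rfl
  · rw [one_mul] at h3 ⊢
    exact abs_of_nonneg h3
  · rw [neg_one_mul] at h3 ⊢
    exact abs_of_nonpos (by linarith)

/-! ### The lower bound -/

theorem norm_Gammaℝ_line (u : ℝ) : ‖Gammaℝ (1 / 2 + 2 * (u : ℂ) * I)‖ =
    π ^ (-(1 / 4) : ℝ) * ‖Complex.Gamma (1 / 4 + u * I)‖ := by
  rw [Gammaℝ_def, norm_mul, norm_cpow_eq_rpow_re_of_pos Real.pi_pos]
  congr 2
  · simp
    norm_num
  · congr 1
    ring

theorem continuous_zeta_line' :
    Continuous fun u : ℝ => riemannZeta (1 / 2 + 2 * (u : ℂ) * I) := by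
  rw [continuous_iff_continuousAt]
  intro u
  have h1 : (1 / 2 + 2 * (u : ℂ) * I) ≠ 1 := by
    intro h
    have := congrArg Complex.re h
    simp at this
  exact (differentiableAt_riemannZeta h1).continuousAt.comp
    (f := fun u : ℝ => (1 / 2 + 2 * (u : ℂ) * I)) (by fun_prop)

/-- the constant `κ` -/
def kap (c : ℝ) : ℝ := π ^ (-(1 / 4) : ℝ) * c * (3 : ℝ) ^ (-(1 / 4) : ℝ) * Real.exp (-6)

theorem kap_pos {c : ℝ} (hc : 0 < c) : 0 < kap c := by
  have := Real.pi_pos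
  unfold kap
  positivity

theorem lower_X {c : ℝ} (hc : 0 < c)
    (hG : ∀ y : ℝ, 1 ≤ y → c * y ^ (-(1 / 4) : ℝ) * Real.exp (-(π / 2 * y)) ≤
      ‖Complex.Gamma (1 / 4 + y * I)‖) {T φ u : ℝ} (hT : 1 ≤ T) (hφ : π / 2 - φ ≤ 2 / T)
    (hφ' : φ ≤ π / 2) (hu : T ≤ u) (hu' : u ≤ 3 * T) :
    kap c * T ^ (-(1 / 4) : ℝ) * ‖riemannZeta (1 / 2 + 2 * (u : ℂ) * I)‖ ≤
      Real.exp (φ * u) * ‖X u‖ := by
  have hpi := Real.pi_pos
  have hT0 : 0 < T := by linarith
  have hu0 : 0 < u := by linarith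
  rw [X_eq, norm_mul, norm_Gammaℝ_line]
  have h1 := hG u (by linarith)
  have h2 : (3 : ℝ) ^ (-(1 / 4) : ℝ) * T ^ (-(1 / 4) : ℝ) ≤ u ^ (-(1 / 4) : ℝ) := by
    rw [← Real.mul_rpow (by norm_num) hT0.le]
    exact Real.rpow_le_rpow_of_nonpos hu0 hu' (by norm_num)
  have h3 : Real.exp (-6) ≤ Real.exp (φ * u) * Real.exp (-(π / 2 * u)) := by
    rw [← Real.exp_add]
    refine Real.exp_le_exp.2 ?_
    have h4 : (π / 2 - φ) * u ≤ 2 / T * (3 * T) :=
      mul_le_mul hφ hu' hu0.le (by positivity)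
    have h5 : 2 / T * (3 * T) = 6 := by field_simp; norm_num
    rw [h5] at h4
    linarith
  have h6 : (3 : ℝ) ^ (-(1 / 4) : ℝ) * T ^ (-(1 / 4) : ℝ) * c * Real.exp (-6) ≤
      Real.exp (φ * u) * ‖Complex.Gamma (1 / 4 + u * I)‖ := by
    calc (3 : ℝ) ^ (-(1 / 4) : ℝ) * T ^ (-(1 / 4) : ℝ) * c * Real.exp (-6)
        ≤ u ^ (-(1 / 4) : ℝ) * c * (Real.exp (φ * u) * Real.exp (-(π / 2 * u))) := by
          refine mul_le_mul (mul_le_mul_of_nonneg_right h2 hc.le) h3 (Real.exp_pos _).le ?_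
          positivity
      _ = Real.exp (φ * u) * (c * u ^ (-(1 / 4) : ℝ) * Real.exp (-(π / 2 * u))) := by ring
      _ ≤ _ := mul_le_mul_of_nonneg_left h1 (Real.exp_pos _).le
  have h7 : 0 ≤ π ^ (-(1 / 4) : ℝ) * ‖riemannZeta (1 / 2 + 2 * (u : ℂ) * I)‖ := by positivity
  have h8 := mul_le_mul_of_nonneg_left h6 h7
  unfold kap
  linarith

/-- the two functions -/
def Psi (H t : ℝ) : ℂ := ∫ u in t..(t + H), (riemannZeta (1 / 2 + 2 * (u : ℂ) * I) - 1)

def Jf (φ H t : ℝ) : ℂ := ∫ u in t..(t + H), (Real.exp (φ * u) : ℂ) * X u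

/-- the pointwise bound -/
theorem pointwise {c : ℝ} (hc : 0 < c)
    (hG : ∀ y : ℝ, 1 ≤ y → c * y ^ (-(1 / 4) : ℝ) * Real.exp (-(π / 2 * y)) ≤
      ‖Complex.Gamma (1 / 4 + y * I)‖) {T φ t H : ℝ} (hT : 1 ≤ T) (hφ : π / 2 - φ ≤ 2 / T)
    (hφ' : φ ≤ π / 2) (hH : 0 < H) (ht : T ≤ t) (ht' : t + H ≤ 3 * T)
    (h : ConstSign t (t + H)) :
    H ^ 2 ≤ 2 * ‖Psi H t‖ ^ 2 + 2 * (T ^ (1 / 2 : ℝ) / kap c ^ 2) * ‖Jf φ H t‖ ^ 2 := by
  have hT0 : 0 < T := by linarith
  have hk := kap_pos hc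
  have hq : 0 < T ^ (-(1 / 4) : ℝ) := Real.rpow_pos_of_pos hT0 _
  have h1 : ‖Jf φ H t‖ = ∫ u in t..(t + H), Real.exp (φ * u) * ‖X u‖ := norm_integral_X hH φ h
  have h2 : kap c * T ^ (-(1 / 4) : ℝ) * ∫ u in t..(t + H),
      ‖riemannZeta (1 / 2 + 2 * (u : ℂ) * I)‖ ≤ ‖Jf φ H t‖ := by
    rw [h1, ← intervalIntegral.integral_const_mul]
    refine intervalIntegral.integral_mono_on (by linarith) ?_ ?_ fun u hu => ?_
    · exact (continuous_const.mul continuous_zeta_line'.norm).intervalIntegrable _ _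
    · refine Continuous.intervalIntegrable ?_ _ _
      exact (Real.continuous_exp.comp (continuous_const.mul continuous_id)).mul
        continuous_X.norm
    · exact lower_X hc hG hT hφ hφ' (ht.trans hu.1) (hu.2.trans ht')
  have h3 : ∫ u in t..(t + H), riemannZeta (1 / 2 + 2 * (u : ℂ) * I) = Psi H t + H := by
    rw [Psi, intervalIntegral.integral_sub (continuous_zeta_line'.intervalIntegrable _ _)
      (continuous_const.intervalIntegrable _ _), intervalIntegral.integral_const]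
    simp
  have h4 : H - ‖Psi H t‖ ≤ ∫ u in t..(t + H), ‖riemannZeta (1 / 2 + 2 * (u : ℂ) * I)‖ := by
    have h5 := intervalIntegral.norm_integral_le_integral_norm (f := fun u : ℝ =>
      riemannZeta (1 / 2 + 2 * (u : ℂ) * I)) (μ := volume) (show t ≤ t + H by linarith)
    rw [h3] at h5
    have h6 : H - ‖Psi H t‖ ≤ ‖Psi H t + H‖ := by
      have h7 := norm_sub_norm_le (H : ℂ) (-Psi H t)
      rw [norm_neg, sub_neg_eq_add, Complex.norm_of_nonneg hH.le, add_comm (H : ℂ)] at h7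
      exact h7
    exact h6.trans h5
  have h8 : H ≤ ‖Psi H t‖ + T ^ (1 / 4 : ℝ) / kap c * ‖Jf φ H t‖ := by
    have h9 := (mul_le_mul_of_nonneg_left h4 (mul_pos hk hq).le).trans h2
    have h10 : T ^ (1 / 4 : ℝ) / kap c * (kap c * T ^ (-(1 / 4) : ℝ) * (H - ‖Psi H t‖)) =
        H - ‖Psi H t‖ := by
      have h11 : T ^ (1 / 4 : ℝ) * T ^ (-(1 / 4) : ℝ) = 1 := by
        rw [← Real.rpow_add hT0]
        norm_num
      calc _ = (T ^ (1 / 4 : ℝ) * T ^ (-(1 / 4) : ℝ)) * (H - ‖Psi H t‖) := by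
            field_simp
        _ = _ := by rw [h11, one_mul]
    have h12 := mul_le_mul_of_nonneg_left h9
      (show 0 ≤ T ^ (1 / 4 : ℝ) / kap c by positivity)
    rw [h10] at h12
    linarith
  have h13 : (T ^ (1 / 4 : ℝ) / kap c * ‖Jf φ H t‖) ^ 2 =
      T ^ (1 / 2 : ℝ) / kap c ^ 2 * ‖Jf φ H t‖ ^ 2 := by
    rw [mul_pow, div_pow]
    congr 2
    rw [← Real.rpow_natCast, ← Real.rpow_mul hT0.le]
    norm_num
  have h14 := pow_le_pow_left₀ hH.le h8 2
  rw [mul_assoc, ← h13]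
  nlinarith [sq_nonneg (‖Psi H t‖ - T ^ (1 / 4 : ℝ) / kap c * ‖Jf φ H t‖)]

theorem continuous_Psi (H : ℝ) : Continuous (Psi H) := by
  have h1 : ∀ t : ℝ, Psi H t =
      ∫ v in (0 : ℝ)..H, (riemannZeta (1 / 2 + 2 * ((t + v : ℝ) : ℂ) * I) - 1) := by
    intro t
    rw [Psi, intervalIntegral.integral_comp_add_left
      (fun u : ℝ => riemannZeta (1 / 2 + 2 * (u : ℂ) * I) - 1) t, add_zero]
  have h2 : Psi H = fun t : ℝ =>
      ∫ v in (0 : ℝ)..H, (riemannZeta (1 / 2 + 2 * ((t + v : ℝ) : ℂ) * I) - 1) := funext h1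
  rw [h2]
  refine intervalIntegral.continuous_parametric_intervalIntegral_of_continuous' ?_ _ _
  exact (continuous_zeta_line'.comp (continuous_fst.add continuous_snd)).sub continuous_const

theorem continuous_Jf (φ H : ℝ) : Continuous (Jf φ H) := by
  have h0 : Continuous fun u : ℝ => (Real.exp (φ * u) : ℂ) * X u :=
    (continuous_ofReal.comp (Real.continuous_exp.comp (continuous_const.mul continuous_id))).mul
      continuous_X
  have h1 : ∀ t : ℝ, Jf φ H t =
      ∫ v in (0 : ℝ)..H, (Real.exp (φ * (t + v)) : ℂ) * X (t + v) := by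
    intro t
    rw [Jf, intervalIntegral.integral_comp_add_left
      (fun u : ℝ => (Real.exp (φ * u) : ℂ) * X u) t, add_zero]
  have h2 : Jf φ H = fun t : ℝ =>
      ∫ v in (0 : ℝ)..H, (Real.exp (φ * (t + v)) : ℂ) * X (t + v) := funext h1
  rw [h2]
  refine intervalIntegral.continuous_parametric_intervalIntegral_of_continuous' ?_ _ _
  exact h0.comp (continuous_fst.add continuous_snd)

/-- many intervals without zeros make the integral of `F` large -/
theorem card_bad_le {T H : ℝ} (hT : 0 < T) (hH : 0 < H) {M : ℕ} (hM : 2 * H * M ≤ T)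
    {F : ℝ → ℝ} (hF : Continuous F) (hF0 : ∀ t, 0 ≤ F t) {B : Finset ℕ}
    (hB : B ⊆ Finset.range M)
    (hb : ∀ j ∈ B, ∀ t, T + 2 * H * j ≤ t → t ≤ T + 2 * H * j + H → H ^ 2 ≤ F t) :
    (B.card : ℝ) * H ^ 3 ≤ ∫ t in T..(2 * T), F t := by
  have hi : ∀ a b : ℝ, IntervalIntegrable F volume a b := fun a b => hF.intervalIntegrable a b
  set a : ℕ → ℝ := fun j => T + 2 * H * j with ha
  have h1 : ∀ j ∈ B, H ^ 3 ≤ ∫ t in a j..a (j + 1), F t := by
    intro j hj
    have e : a (j + 1) = a j + H + H := by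
      simp only [ha]
      push_cast
      ring
    have h2 : ∫ t in a j..a (j + 1), F t =
        (∫ t in a j..(a j + H), F t) + ∫ t in (a j + H)..a (j + 1), F t :=
      (intervalIntegral.integral_add_adjacent_intervals (hi _ _) (hi _ _)).symm
    have h3 : 0 ≤ ∫ t in (a j + H)..a (j + 1), F t :=
      intervalIntegral.integral_nonneg (by rw [e]; linarith) fun t _ => hF0 t
    have h4 : ∫ _t in a j..(a j + H), H ^ 2 ≤ ∫ t in a j..(a j + H), F t :=
      intervalIntegral.integral_mono_on (by linarith) (continuous_const.intervalIntegrable _ _)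
        (hi _ _) fun t ht => hb j hj t ht.1 ht.2
    rw [intervalIntegral.integral_const, smul_eq_mul, add_sub_cancel_left] at h4
    rw [h2]
    have : H ^ 3 = H * H ^ 2 := by ring
    linarith
  have h5 : ∀ j, 0 ≤ ∫ t in a j..a (j + 1), F t := fun j =>
    intervalIntegral.integral_nonneg (by
      simp only [ha]
      push_cast
      nlinarith) fun t _ => hF0 t
  have h6 : ∑ j ∈ Finset.range M, ∫ t in a j..a (j + 1), F t = ∫ t in a 0..a M, F t :=
    intervalIntegral.sum_integral_adjacent_intervals fun j _ => hi _ _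
  have ha0 : a 0 = T := by simp [ha]
  have haM : a M ≤ 2 * T := by
    simp only [ha]
    linarith
  have haM' : T ≤ a M := by
    simp only [ha]
    have : 0 ≤ 2 * H * (M : ℝ) := by positivity
    linarith
  have h7 : ∫ t in T..a M, F t ≤ ∫ t in T..(2 * T), F t := by
    rw [← intervalIntegral.integral_add_adjacent_intervals (hi T (a M)) (hi (a M) (2 * T))]
    have : 0 ≤ ∫ t in (a M)..(2 * T), F t :=
      intervalIntegral.integral_nonneg haM fun t _ => hF0 t
    linarith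
  calc (B.card : ℝ) * H ^ 3 = ∑ _j ∈ B, H ^ 3 := by rw [Finset.sum_const, nsmul_eq_mul]
    _ ≤ ∑ j ∈ B, ∫ t in a j..a (j + 1), F t := Finset.sum_le_sum h1
    _ ≤ ∑ j ∈ Finset.range M, ∫ t in a j..a (j + 1), F t :=
        Finset.sum_le_sum_of_subset_of_nonneg hB fun j _ _ => h5 j
    _ = ∫ t in a 0..a M, F t := h6
    _ ≤ _ := by rw [ha0]; exact h7

/-- points in many disjoint intervals -/
theorem card_good_le {T H : ℝ} (hH : 0 < H) {G : Finset ℕ} {Z : Set ℝ} (hZ : Z.Finite)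
    (hg : ∀ j ∈ G, ∃ u, T + 2 * H * j < u ∧ u < T + 2 * H * (j + 1) ∧ 2 * u ∈ Z) :
    G.card ≤ Z.ncard := by
  classical
  choose! g hg using hg
  have hinj : Set.InjOn (fun j => 2 * g j) (G : Set ℕ) := by
    have key : ∀ i ∈ G, ∀ j ∈ G, i < j → g i < g j := by
      intro i hi j hj hij
      have h1 : ((i : ℝ) + 1) ≤ j := by exact_mod_cast hij
      have h2 : T + 2 * H * (i + 1) ≤ T + 2 * H * j := by nlinarith
      exact ((hg i hi).2.1.trans_le h2).trans (hg j hj).1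
    intro i hi j hj h
    have h' : g i = g j := by
      have : 2 * g i = 2 * g j := h
      linarith
    rcases lt_trichotomy i j with h1 | h1 | h1
    · exact absurd h' (key i hi j hj h1).ne
    · exact h1
    · exact absurd h'.symm (key j hj i hi h1).ne
  rw [← Finset.card_image_of_injOn hinj, ← Set.ncard_coe_finset]
  refine Set.ncard_le_ncard ?_ hZ
  intro t ht
  rw [Finset.mem_coe, Finset.mem_image] at ht
  obtain ⟨j, hj, rfl⟩ := ht
  exact (hg j hj).2.2

/-- the intervals are in `(T, 2T)` -/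
theorem interval_bound {T H : ℝ} (hT : 0 < T) (hH : 0 < H) {M : ℕ} (hM : 2 * H * M ≤ T)
    {j : ℕ} (hj : j ∈ Finset.range M) {u : ℝ} (h1 : T + 2 * H * j < u)
    (h2 : u < T + 2 * H * (j + 1)) : 0 < 2 * u ∧ 2 * u ≤ 4 * T := by
  have hjM : ((j : ℝ) + 1) ≤ M := by exact_mod_cast Finset.mem_range.1 hj
  have hj0 : (0 : ℝ) ≤ j := Nat.cast_nonneg j
  have h4 : 2 * H * ((j : ℝ) + 1) ≤ 2 * H * M := by nlinarith
  have h5 : 0 ≤ 2 * H * (j : ℝ) := by positivity
  exact ⟨by linarith, by linarith⟩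

/-- **many intervals in which `X` changes sign** -/
theorem core (hP : PsiStmt) (hG : GammaStmt) (hU : UpperStmt) :
    ∃ H : ℝ, 0 < H ∧ ∃ T₁ : ℝ, ∀ T : ℝ, T₁ ≤ T → 0 < T ∧ ∃ (M : ℕ) (G : Finset ℕ),
      2 * H * M ≤ T ∧ G ⊆ Finset.range M ∧ T / (4 * H) ≤ G.card ∧
      ∀ j ∈ G, ¬ ConstSign (T + 2 * H * j) (T + 2 * H * (j + 1)) := by
  classical
  obtain ⟨A, hA, hΨ⟩ := hP
  obtain ⟨c, hc, hΓ⟩ := hG
  obtain ⟨C, hC, hJ⟩ := hU
  have hk := kap_pos hc
  set K : ℝ := 1 / kap c ^ 2 with hK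
  have hK0 : 0 < K := by positivity
  set H : ℝ := 1 + 16 * A + 16 * K * C with hHdef
  have hH1 : 1 ≤ H := by
    have : 0 ≤ 16 * A + 16 * K * C := by positivity
    linarith
  have hH0 : 0 < H := by linarith
  have hHK : 2 * A + 2 * K * C * H ≤ H ^ 2 / 8 := by
    have h1 : 0 < K * C := by positivity
    have h2 : H ^ 2 = H * (1 + 16 * A + 16 * K * C) := by rw [← hHdef]; ring
    rw [h2]
    nlinarith
  obtain ⟨T₁, hΨ'⟩ := hΨ H hH1
  obtain ⟨c₀, hc₀, hJ'⟩ := hJ H hH1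
  refine ⟨H, hH0, max (max T₁ (1 / c₀)) (8 * H), fun T hTm => ?_⟩
  have hT1 : T₁ ≤ T := ((le_max_left _ _).trans (le_max_left _ _)).trans hTm
  have hT2 : 1 / c₀ ≤ T := ((le_max_right _ _).trans (le_max_left _ _)).trans hTm
  have hT3 : 8 * H ≤ T := (le_max_right _ _).trans hTm
  have hTone : 1 ≤ T := by linarith
  have hT0 : 0 < T := by linarith
  -- the angle
  set φ : ℝ := Real.arccos (1 / T) with hφ
  have hinv1 : 1 / T ≤ 1 := by rw [div_le_one hT0]; exact hTone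
  have hinv0 : 0 < 1 / T := by positivity
  have hcos : Real.cos φ = 1 / T := Real.cos_arccos (by linarith) hinv1
  have hφ0 : 0 ≤ φ := Real.arccos_nonneg _
  have hφ2 : φ < π / 2 := Real.arccos_lt_pi_div_two.2 hinv0
  have hφ3 : π / 2 - φ ≤ 2 / T := by
    have h1 : π / 2 - φ = Real.arcsin (1 / T) := by
      rw [hφ, Real.arccos_eq_pi_div_two_sub_arcsin]
      ring
    have h2 : 2 / π * Real.arcsin (1 / T) ≤ 1 / T := by
      have := Real.mul_le_sin (Real.arcsin_nonneg.2 hinv0.le) (Real.arcsin_le_pi_div_two _)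
      rwa [Real.sin_arcsin (by linarith) hinv1] at this
    have hpi := Real.pi_pos
    have hpi4 := Real.pi_le_four
    rw [h1]
    have h3 : Real.arcsin (1 / T) ≤ π / 2 * (1 / T) := by
      have h4 := mul_le_mul_of_nonneg_left h2 (show 0 ≤ π / 2 by positivity)
      have h5 : π / 2 * (2 / π * Real.arcsin (1 / T)) = Real.arcsin (1 / T) := by field_simp
      rwa [h5] at h4
    refine h3.trans ?_
    rw [mul_one_div]
    exact div_le_div_of_nonneg_right (by linarith) hT0.le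
  have hc0' : Real.cos φ ≤ c₀ := by
    rw [hcos, div_le_iff₀ hT0]
    rwa [div_le_iff₀ hc₀, mul_comm] at hT2
  obtain ⟨hJi, hJb⟩ := hJ' φ hφ0 hφ2 hc0'
  -- the integral of `F`
  set F : ℝ → ℝ := fun t => 2 * ‖Psi H t‖ ^ 2 + 2 * (T ^ (1 / 2 : ℝ) / kap c ^ 2) *
    ‖Jf φ H t‖ ^ 2 with hF
  have hc1 : Continuous fun t => ‖Psi H t‖ ^ 2 := (continuous_Psi H).norm.pow 2
  have hc2 : Continuous fun t => ‖Jf φ H t‖ ^ 2 := (continuous_Jf φ H).norm.pow 2
  have hFc : Continuous F := (continuous_const.mul hc1).add (continuous_const.mul hc2)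
  have hF0 : ∀ t, 0 ≤ F t := fun t => by
    simp only [hF]
    positivity
  have hFint : ∫ t in T..(2 * T), F t ≤ T * (2 * A + 2 * K * C * H) := by
    have h1 : ∫ t in T..(2 * T), F t = 2 * (∫ t in T..(2 * T), ‖Psi H t‖ ^ 2) +
        2 * (T ^ (1 / 2 : ℝ) / kap c ^ 2) * ∫ t in T..(2 * T), ‖Jf φ H t‖ ^ 2 := by
      have e1 : Continuous fun t => 2 * ‖Psi H t‖ ^ 2 := continuous_const.mul hc1
      have e2 : Continuous fun t => 2 * (T ^ (1 / 2 : ℝ) / kap c ^ 2) * ‖Jf φ H t‖ ^ 2 :=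
        continuous_const.mul hc2
      rw [hF, intervalIntegral.integral_add (e1.intervalIntegrable _ _)
        (e2.intervalIntegrable _ _),
        intervalIntegral.integral_const_mul, intervalIntegral.integral_const_mul]
    have h2 : ∫ t in T..(2 * T), ‖Psi H t‖ ^ 2 ≤ A * T := hΨ' T hT1
    have h3 : ∫ t in T..(2 * T), ‖Jf φ H t‖ ^ 2 ≤ C * H * T ^ (1 / 2 : ℝ) := by
      have h4 : ∫ t in T..(2 * T), ‖Jf φ H t‖ ^ 2 ≤ ∫ t : ℝ, ‖Jf φ H t‖ ^ 2 := by
        rw [intervalIntegral.integral_of_le (by linarith)]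
        exact setIntegral_le_integral hJi (Eventually.of_forall fun t => sq_nonneg _)
      have h5 : (Real.cos φ) ^ (-(1 / 2) : ℝ) = T ^ (1 / 2 : ℝ) := by
        rw [hcos, one_div, Real.inv_rpow hT0.le, Real.rpow_neg hT0.le, inv_inv]
      rw [h5] at hJb
      exact h4.trans hJb
    have h6 : T ^ (1 / 2 : ℝ) * T ^ (1 / 2 : ℝ) = T := by
      rw [← Real.rpow_add hT0]
      norm_num
    have h7 : 0 ≤ 2 * (T ^ (1 / 2 : ℝ) / kap c ^ 2) := by positivity
    have h8 := mul_le_mul_of_nonneg_left h3 h7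
    have h9 : 2 * (T ^ (1 / 2 : ℝ) / kap c ^ 2) * (C * H * T ^ (1 / 2 : ℝ)) =
        2 * K * C * H * T := by
      rw [hK]
      calc _ = 2 * (1 / kap c ^ 2) * C * H * (T ^ (1 / 2 : ℝ) * T ^ (1 / 2 : ℝ)) := by ring
        _ = _ := by rw [h6]
    rw [h9] at h8
    rw [h1]
    linarith
  -- the intervals
  set M : ℕ := ⌊T / (2 * H)⌋₊ with hMdef
  have hM1 : 2 * H * M ≤ T := by
    have h1 : (M : ℝ) ≤ T / (2 * H) := Nat.floor_le (by positivity)
    rw [le_div_iff₀ (by positivity)] at h1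
    linarith
  have hM2 : T / (2 * H) - 1 < M := Nat.sub_one_lt_floor _
  set Bd : Finset ℕ := (Finset.range M).filter fun j =>
    ConstSign (T + 2 * H * j) (T + 2 * H * (j + 1)) with hBd
  set Gd : Finset ℕ := (Finset.range M).filter fun j =>
    ¬ ConstSign (T + 2 * H * j) (T + 2 * H * (j + 1)) with hGd
  have hcard : Bd.card + Gd.card = M := by
    rw [hBd, hGd, Finset.card_filter_add_card_filter_not, Finset.card_range]
  have hbad : (Bd.card : ℝ) * H ^ 3 ≤ ∫ t in T..(2 * T), F t := by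
    refine card_bad_le hT0 hH0 hM1 hFc hF0 (Finset.filter_subset _ _) fun j hj t ht ht' => ?_
    have hj' := (Finset.mem_filter.1 hj)
    have hjM : ((j : ℝ) + 1) ≤ M := by exact_mod_cast Finset.mem_range.1 hj'.1
    have h4 : 2 * H * ((j : ℝ) + 1) ≤ 2 * H * M := by nlinarith
    have h5 : 0 ≤ 2 * H * (j : ℝ) := by positivity
    exact pointwise hc hΓ hTone hφ3 hφ2.le hH0 (by linarith) (by linarith)
      (hj'.2.mono (by linarith) (by linarith))
  refine ⟨hT0, M, Gd, hM1, Finset.filter_subset _ _, ?_, fun j hj => (Finset.mem_filter.1 hj).2⟩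
  have h1 : (Bd.card : ℝ) * H ^ 3 ≤ T * (H ^ 2 / 8) :=
    (hbad.trans hFint).trans (mul_le_mul_of_nonneg_left hHK hT0.le)
  have h2 : (Bd.card : ℝ) ≤ T / (8 * H) := by
    rw [le_div_iff₀ (by positivity)]
    have h3 : 0 < H ^ 2 := by positivity
    have h4 : (Bd.card : ℝ) * (8 * H) * H ^ 2 ≤ T * H ^ 2 := by nlinarith
    exact le_of_mul_le_mul_right h4 h3
  have h3 : (Gd.card : ℝ) = M - Bd.card := by
    have : (Bd.card : ℝ) + Gd.card = M := by exact_mod_cast hcard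
    linarith
  rw [h3]
  have h5 : 1 ≤ T / (8 * H) := by
    rw [le_div_iff₀ (by positivity)]
    linarith
  have h6 : T / (2 * H) = 4 * (T / (8 * H)) := by field_simp; norm_num
  have h7 : T / (4 * H) = 2 * (T / (8 * H)) := by field_simp; norm_num
  rw [h7]
  rw [h6] at hM2
  linarith

/-- (E): **the theorem of Hardy and Littlewood** from its three analytic inputs -/
theorem mainStmt (hP : PsiStmt) (hG : GammaStmt) (hU : UpperStmt) : MainStmt := by
  obtain ⟨H, hH, T₁, hcore⟩ := core hP hG hU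
  refine ⟨1 / (16 * H), by positivity, 4 * T₁, fun T' hT' => ⟨finite_zeros T', ?_⟩⟩
  set T : ℝ := T' / 4 with hTdef
  have hT'eq : T' = 4 * T := by rw [hTdef]; ring
  obtain ⟨hT0, M, G, hM, hG', hcard, hG2⟩ := hcore T (by rw [hTdef]; linarith)
  have hgood : G.card ≤
      {t : ℝ | 0 < t ∧ t ≤ 4 * T ∧ riemannZeta (1 / 2 + t * I) = 0}.ncard := by
    refine card_good_le (T := T) hH (finite_zeros (4 * T)) fun j hj => ?_
    by_contra hcon
    push Not at hcon
    refine hG2 j hj (constSign_of_ne_zero (by nlinarith) fun u h1 h2 h3 => hcon u h1 h2 ?_)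
    obtain ⟨h4, h5⟩ := interval_bound hT0 hH hM (hG' hj) h1 h2
    refine ⟨h4, h5, ?_⟩
    rw [X_eq_zero_iff] at h3
    push_cast
    exact h3
  have h4 : (G.card : ℝ) ≤
      ({t : ℝ | 0 < t ∧ t ≤ 4 * T ∧ riemannZeta (1 / 2 + t * I) = 0}.ncard : ℝ) := by
    exact_mod_cast hgood
  rw [hT'eq]
  refine le_trans ?_ h4
  refine le_trans (le_of_eq ?_) hcard
  field_simp
  norm_num

end Fermat.Agent.Cor.HL

end
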