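import Fermat.Agent.Corollaries.ZetaK.HL.Defs

/-!
# A lower bound for `|Γ(1/4 + iy)|`

No Stirling formula: `|Γ(x + iy)| / Γ(x)` is logarithmically concave in `x`, by Gauss' product; with
the functional equation and the reflection formula this gives `|Γ(1/4 + iy)| ≥ c y^{-1/4} e^{-πy/2}`.
-/

set_option autoImplicit false

noncomputable section

namespace Fermat.Agent.Cor.HL

open Complex Real Filter Topology Set MeasureTheory

/-- the denominators of Gauss' product -/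
def Dn (s : ℂ) (n : ℕ) : ℝ := ∏ j ∈ Finset.range (n + 1), ‖s + j‖

theorem norm_GammaSeq (s : ℂ) {n : ℕ} (hn : 0 < n) :
    ‖Complex.GammaSeq s n‖ = (n : ℝ) ^ s.re * n.factorial / Dn s n := by
  have hn' : (0 : ℝ) < n := by exact_mod_cast hn
  rw [Complex.GammaSeq, norm_div, norm_mul, norm_prod, Dn, ← ofReal_natCast n,
    norm_cpow_eq_rpow_re_of_pos hn', Complex.norm_natCast]

/-- the inequality for one factor -/
theorem factor_le {a y : ℝ} (ha : 1 / 2 < a) :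
    ‖((a : ℂ) + y * I)‖ ^ 2 * (‖((a - 1 / 2 : ℝ) : ℂ)‖ * ‖((a + 1 / 2 : ℝ) : ℂ)‖) ≤
      ‖(((a - 1 / 2 : ℝ) : ℂ) + y * I)‖ * ‖(((a + 1 / 2 : ℝ) : ℂ) + y * I)‖ * ‖(a : ℂ)‖ ^ 2 := by
  have h1 : ∀ x : ℝ, ‖((x : ℂ) + y * I)‖ = √(x ^ 2 + y ^ 2) := fun x => Complex.norm_add_mul_I x y
  have h2 : ∀ x : ℝ, 0 < x → ‖(x : ℂ)‖ = x := fun x hx => by
    rw [Complex.norm_real, Real.norm_eq_abs, abs_of_pos hx]
  rw [h1, h1, h1, h2 _ (by linarith), h2 _ (by linarith), h2 _ (by linarith),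
    Real.sq_sqrt (by positivity)]
  refine le_of_sq_le_sq ?_ (by positivity)
  rw [mul_pow (√_ * √_), mul_pow (√_), Real.sq_sqrt (by positivity), Real.sq_sqrt (by positivity)]
  have hb : (a - 1 / 2) ^ 2 * (a + 1 / 2) ^ 2 ≤ a ^ 4 := by nlinarith [sq_nonneg a]
  have hc : 0 ≤ (a - 1 / 2) ^ 2 * (a + 1 / 2) ^ 2 := by positivity
  have hd : (a - 1 / 2) ^ 2 + (a + 1 / 2) ^ 2 = 2 * a ^ 2 + 1 / 2 := by ring
  set p := (a - 1 / 2) ^ 2 with hp
  set q := (a + 1 / 2) ^ 2 with hq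
  set u := y ^ 2 with hu
  have hu0 : 0 ≤ u := sq_nonneg y
  have e : (p + u) * (q + u) * (a ^ 2) ^ 2 - ((a ^ 2 + u) * ((a - 1 / 2) * (a + 1 / 2))) ^ 2 =
      u * ((p + q) * a ^ 4 - 2 * a ^ 2 * (p * q)) + u ^ 2 * (a ^ 4 - p * q) := by
    rw [hp, hq]
    ring
  have h3 : 0 ≤ (p + q) * a ^ 4 - 2 * a ^ 2 * (p * q) := by
    rw [hd]
    have : 2 * a ^ 2 * (p * q) ≤ 2 * a ^ 2 * a ^ 4 := mul_le_mul_of_nonneg_left hb (by positivity)
    have : 0 ≤ a ^ 4 := by positivity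
    nlinarith
  have h4 : 0 ≤ u ^ 2 * (a ^ 4 - p * q) := mul_nonneg (sq_nonneg _) (by linarith)
  have h5 := mul_nonneg hu0 h3
  linarith

theorem Dn_pos {s : ℂ} (hs : 0 < s.re) (n : ℕ) : 0 < Dn s n := by
  refine Finset.prod_pos fun j _ => norm_pos_iff.2 fun h => ?_
  have h1 := congrArg Complex.re h
  rw [add_re, natCast_re, zero_re] at h1
  have : (0 : ℝ) ≤ j := Nat.cast_nonneg j
  linarith

theorem Dn_le (y : ℝ) (n : ℕ) :
    Dn (5 / 4 + y * I) n ^ 2 * (Dn (3 / 4) n * Dn (7 / 4) n) ≤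
      Dn (3 / 4 + y * I) n * Dn (7 / 4 + y * I) n * Dn (5 / 4) n ^ 2 := by
  unfold Dn
  rw [← Finset.prod_pow, ← Finset.prod_mul_distrib, ← Finset.prod_mul_distrib,
    ← Finset.prod_mul_distrib, ← Finset.prod_pow, ← Finset.prod_mul_distrib]
  refine Finset.prod_le_prod (fun j _ => by positivity) fun j _ => ?_
  have hj : (0 : ℝ) ≤ j := Nat.cast_nonneg j
  have h := factor_le (a := 5 / 4 + j) (y := y) (by linarith)
  have e1 : (((5 / 4 + j : ℝ) : ℂ) + y * I) = 5 / 4 + y * I + j := by push_cast; ring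
  have e2 : ((5 / 4 + j - 1 / 2 : ℝ) : ℂ) = 3 / 4 + j := by push_cast; ring
  have e3 : ((5 / 4 + j + 1 / 2 : ℝ) : ℂ) = 7 / 4 + j := by push_cast; ring
  have e4 : ((5 / 4 + j : ℝ) : ℂ) = 5 / 4 + j := by push_cast; ring
  rw [e1, e2, e3, e4] at h
  have e5 : (3 / 4 + (j : ℂ) + y * I) = 3 / 4 + y * I + j := by ring
  have e6 : (7 / 4 + (j : ℂ) + y * I) = 7 / 4 + y * I + j := by ring
  rw [e5, e6] at h
  exact h

/-- the Gamma function -/
theorem Gamma_le (y : ℝ) :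
    ‖Complex.Gamma (3 / 4 + y * I)‖ * ‖Complex.Gamma (7 / 4 + y * I)‖ *
      ‖Complex.Gamma (5 / 4)‖ ^ 2 ≤ ‖Complex.Gamma (5 / 4 + y * I)‖ ^ 2 *
        (‖Complex.Gamma (3 / 4)‖ * ‖Complex.Gamma (7 / 4)‖) := by
  have ht : ∀ s : ℂ, Tendsto (fun n => ‖Complex.GammaSeq s n‖) atTop (𝓝 ‖Complex.Gamma s‖) :=
    fun s => (Complex.GammaSeq_tendsto_Gamma s).norm
  refine le_of_tendsto_of_tendsto
    (((ht (3 / 4 + y * I)).mul (ht (7 / 4 + y * I))).mul ((ht (5 / 4)).pow 2))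
    (((ht (5 / 4 + y * I)).pow 2).mul ((ht (3 / 4)).mul (ht (7 / 4)))) ?_
  filter_upwards [eventually_gt_atTop 0] with n hn
  have hn' : (0 : ℝ) < n := by exact_mod_cast hn
  rw [norm_GammaSeq _ hn, norm_GammaSeq _ hn, norm_GammaSeq _ hn, norm_GammaSeq _ hn,
    norm_GammaSeq _ hn, norm_GammaSeq _ hn]
  have r3 : ((3 / 4 + y * I : ℂ)).re = 3 / 4 := by simp
  have r5 : ((5 / 4 + y * I : ℂ)).re = 5 / 4 := by simp
  have r7 : ((7 / 4 + y * I : ℂ)).re = 7 / 4 := by simp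
  have r3' : ((3 / 4 : ℂ)).re = 3 / 4 := by norm_num
  have r5' : ((5 / 4 : ℂ)).re = 5 / 4 := by norm_num
  have r7' : ((7 / 4 : ℂ)).re = 7 / 4 := by norm_num
  have p1 := Dn_pos (s := 3 / 4 + y * I) (by rw [r3]; norm_num) n
  have p2 := Dn_pos (s := 5 / 4 + y * I) (by rw [r5]; norm_num) n
  have p3 := Dn_pos (s := 7 / 4 + y * I) (by rw [r7]; norm_num) n
  have p4 := Dn_pos (s := 3 / 4) (by rw [r3']; norm_num) n
  have p5 := Dn_pos (s := 5 / 4) (by rw [r5']; norm_num) n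
  have p6 := Dn_pos (s := 7 / 4) (by rw [r7']; norm_num) n
  rw [r3, r5, r7, r3', r5', r7']
  have key := Dn_le y n
  set N3 : ℝ := (n : ℝ) ^ (3 / 4 : ℝ) * n.factorial
  set N5 : ℝ := (n : ℝ) ^ (5 / 4 : ℝ) * n.factorial
  set N7 : ℝ := (n : ℝ) ^ (7 / 4 : ℝ) * n.factorial
  have hN3 : 0 < N3 := by positivity
  have hN5 : 0 < N5 := by positivity
  have hN7 : 0 < N7 := by positivity
  have e1 : N3 / Dn (3 / 4 + y * I) n * (N7 / Dn (7 / 4 + y * I) n) * (N5 / Dn (5 / 4) n) ^ 2 =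
      N3 * N7 * N5 ^ 2 / (Dn (3 / 4 + y * I) n * Dn (7 / 4 + y * I) n * Dn (5 / 4) n ^ 2) := by
    rw [div_pow, div_mul_div_comm, div_mul_div_comm]
  have e2 : (N5 / Dn (5 / 4 + y * I) n) ^ 2 * (N3 / Dn (3 / 4) n * (N7 / Dn (7 / 4) n)) =
      N3 * N7 * N5 ^ 2 / (Dn (5 / 4 + y * I) n ^ 2 * (Dn (3 / 4) n * Dn (7 / 4) n)) := by
    rw [div_pow, div_mul_div_comm, div_mul_div_comm]
    ring
  rw [e1, e2]
  exact div_le_div_of_nonneg_left (by positivity) (by positivity) key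

/-- the sine -/
theorem norm_sin_le (z : ℂ) (hz : 0 ≤ z.im) : ‖Complex.sin z‖ ≤ Real.exp z.im := by
  rw [Complex.sin, norm_div, norm_mul, norm_I, mul_one, Complex.norm_ofNat]
  have h1 : ‖cexp (-z * I) - cexp (z * I)‖ ≤ Real.exp z.im + Real.exp (-z.im) := by
    refine (norm_sub_le _ _).trans ?_
    rw [Complex.norm_exp, Complex.norm_exp]
    simp
  have h2 : Real.exp (-z.im) ≤ Real.exp z.im := Real.exp_le_exp.2 (by linarith)
  rw [div_le_iff₀ (by norm_num)]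
  linarith

/-- (C) -/
theorem gammaStmt : GammaStmt := by
  have hpi := Real.pi_pos
  have hg : ∀ x : ℝ, 0 < x → 0 < ‖Complex.Gamma (x : ℂ)‖ := fun x hx =>
    norm_pos_iff.2 (Complex.Gamma_ne_zero_of_re_pos (by rwa [ofReal_re]))
  have g3 : 0 < ‖Complex.Gamma (3 / 4)‖ := by
    have := hg (3 / 4) (by norm_num)
    push_cast at this
    exact this
  have g5 : 0 < ‖Complex.Gamma (5 / 4)‖ := by
    have := hg (5 / 4) (by norm_num)
    push_cast at this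
    exact this
  have g7 : 0 < ‖Complex.Gamma (7 / 4)‖ := by
    have := hg (7 / 4) (by norm_num)
    push_cast at this
    exact this
  set κ : ℝ := ‖Complex.Gamma (5 / 4)‖ ^ 2 /
    (‖Complex.Gamma (3 / 4)‖ * ‖Complex.Gamma (7 / 4)‖) with hκ
  have hκ0 : 0 < κ := by positivity
  refine ⟨(κ * π ^ 2 / 2) ^ (1 / 4 : ℝ), by positivity, fun y hy => ?_⟩
  have hy0 : 0 < y := by linarith
  set G1 := ‖Complex.Gamma (1 / 4 + y * I)‖ with hG1
  set G3 := ‖Complex.Gamma (3 / 4 + y * I)‖ with hG3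
  have hne1 : (1 / 4 + y * I : ℂ) ≠ 0 := fun h => by
    have := congrArg Complex.re h
    simp at this
  have hne3 : (3 / 4 + y * I : ℂ) ≠ 0 := fun h => by
    have := congrArg Complex.re h
    simp at this
  have hG1p : 0 < G1 := norm_pos_iff.2 (Complex.Gamma_ne_zero_of_re_pos (by simp))
  have hG3p : 0 < G3 := norm_pos_iff.2 (Complex.Gamma_ne_zero_of_re_pos (by simp))
  have h5 : ‖Complex.Gamma (5 / 4 + y * I)‖ = ‖(1 / 4 + y * I : ℂ)‖ * G1 := by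
    rw [hG1, ← norm_mul, ← Complex.Gamma_add_one _ hne1]
    congr 2
    ring
  have h7 : ‖Complex.Gamma (7 / 4 + y * I)‖ = ‖(3 / 4 + y * I : ℂ)‖ * G3 := by
    rw [hG3, ← norm_mul, ← Complex.Gamma_add_one _ hne3]
    congr 2
    ring
  have n1 : ‖(1 / 4 + y * I : ℂ)‖ ^ 2 ≤ 2 * y ^ 2 := by
    have h := Complex.norm_add_mul_I (1 / 4) y
    push_cast at h
    rw [h, Real.sq_sqrt (by positivity)]
    nlinarith
  have n3 : y ≤ ‖(3 / 4 + y * I : ℂ)‖ := by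
    have h := Complex.abs_im_le_norm (3 / 4 + y * I : ℂ)
    have e : ((3 / 4 + y * I : ℂ)).im = y := by simp
    rw [e, abs_of_pos hy0] at h
    exact h
  -- reflection
  have hrefl : π * Real.exp (-(π * y)) ≤ G1 * G3 := by
    have h := Complex.Gamma_mul_Gamma_one_sub (1 / 4 + y * I)
    have e : (1 - (1 / 4 + y * I) : ℂ) = (starRingEnd ℂ) (3 / 4 + y * I) := by
      simp only [map_add, map_mul, map_div₀, map_ofNat, conj_ofReal, conj_I]
      ring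
    rw [e, Complex.Gamma_conj] at h
    have h1 := congrArg norm h
    rw [norm_mul, RCLike.norm_conj, norm_div, Complex.norm_of_nonneg hpi.le] at h1
    have him : ((π : ℂ) * (1 / 4 + y * I)).im = π * y := by simp
    have h2 := norm_sin_le ((π : ℂ) * (1 / 4 + y * I)) (by rw [him]; positivity)
    rw [him] at h2
    rw [hG1, hG3, h1, Real.exp_neg, ← div_eq_mul_inv]
    have h3 : 0 < ‖Complex.sin ((π : ℂ) * (1 / 4 + y * I))‖ := by
      rcases (norm_nonneg (Complex.sin ((π : ℂ) * (1 / 4 + y * I)))).eq_or_lt' with h4 | h4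
      · exfalso
        rw [h4, div_zero] at h1
        exact (mul_pos hG1p hG3p).ne' h1
      · exact h4
    exact div_le_div_of_nonneg_left hpi.le h3 h2
  have key := Gamma_le y
  rw [h5, h7] at key
  -- the fourth power
  have k1 : κ * (G3 ^ 2 * y) ≤ 2 * y ^ 2 * G1 ^ 2 := by
    have k2 : G3 * (‖(3 / 4 + y * I : ℂ)‖ * G3) * κ ≤ (‖(1 / 4 + y * I : ℂ)‖ * G1) ^ 2 := by
      rw [hκ, mul_div_assoc', div_le_iff₀ (by positivity)]
      exact key
    have k3 : κ * (G3 ^ 2 * y) ≤ G3 * (‖(3 / 4 + y * I : ℂ)‖ * G3) * κ := by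
      have : G3 ^ 2 * y ≤ G3 ^ 2 * ‖(3 / 4 + y * I : ℂ)‖ :=
        mul_le_mul_of_nonneg_left n3 (sq_nonneg _)
      nlinarith
    have k4 : (‖(1 / 4 + y * I : ℂ)‖ * G1) ^ 2 ≤ 2 * y ^ 2 * G1 ^ 2 := by
      rw [mul_pow]
      exact mul_le_mul_of_nonneg_right n1 (sq_nonneg _)
    exact (k3.trans k2).trans k4
  have k5 : κ * π ^ 2 / 2 * (y⁻¹ * Real.exp (-(2 * π * y))) ≤ G1 ^ 4 := by
    have k6 : (π * Real.exp (-(π * y))) ^ 2 ≤ (G1 * G3) ^ 2 :=
      pow_le_pow_left₀ (by positivity) hrefl 2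
    have k7 : (Real.exp (-(π * y))) ^ 2 = Real.exp (-(2 * π * y)) := by
      rw [← Real.exp_nat_mul]
      congr 1
      push_cast
      ring
    rw [mul_pow, k7, mul_pow] at k6
    have k8 : κ * (π ^ 2 * Real.exp (-(2 * π * y))) * y ≤ 2 * y ^ 2 * G1 ^ 4 := by
      calc κ * (π ^ 2 * Real.exp (-(2 * π * y))) * y ≤ κ * (G1 ^ 2 * G3 ^ 2) * y := by
            refine mul_le_mul_of_nonneg_right (mul_le_mul_of_nonneg_left k6 hκ0.le) hy0.le
        _ = (κ * (G3 ^ 2 * y)) * G1 ^ 2 := by ring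
        _ ≤ (2 * y ^ 2 * G1 ^ 2) * G1 ^ 2 := mul_le_mul_of_nonneg_right k1 (sq_nonneg _)
        _ = _ := by ring
    have k9 : κ * π ^ 2 / 2 * (y⁻¹ * Real.exp (-(2 * π * y))) =
        κ * (π ^ 2 * Real.exp (-(2 * π * y))) * y / (2 * y ^ 2) := by
      field_simp
    rw [k9, div_le_iff₀ (by positivity)]
    linarith
  have hL : 0 ≤ (κ * π ^ 2 / 2) ^ (1 / 4 : ℝ) * y ^ (-(1 / 4) : ℝ) * Real.exp (-(π / 2 * y)) := by
    positivity
  rw [← pow_le_pow_iff_left₀ hL hG1p.le (n := 4) (by norm_num)]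
  refine le_trans (le_of_eq ?_) k5
  rw [mul_pow, mul_pow, ← Real.rpow_natCast, ← Real.rpow_mul (by positivity),
    ← Real.rpow_natCast (y ^ (-(1 / 4) : ℝ)), ← Real.rpow_mul hy0.le, ← Real.exp_nat_mul]
  have e1 : (1 / 4 : ℝ) * ((4 : ℕ) : ℝ) = 1 := by norm_num
  have e2 : (-(1 / 4) : ℝ) * ((4 : ℕ) : ℝ) = -1 := by norm_num
  have e3 : ((4 : ℕ) : ℝ) * (-(π / 2 * y)) = -(2 * π * y) := by
    push_cast
    ring
  rw [e1, e2, e3, Real.rpow_one, Real.rpow_neg_one]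
  ring

end Fermat.Agent.Cor.HL

end
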