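import Fermat.Agent.Corollaries.ZetaK.HL.Defs

/-!
# The mean square of `∫_t^{t+H} (ζ(1/2 + 2iu) - 1) du`

By the approximate formula with `N = ⌈2T⌉` terms the integral is `P(t) - P(t + H) + O(H / √N)`,
`P(t) = ∑ n^{-1/2 - 2it} / (2i log n)`, and the mean squares of Dirichlet polynomials are known.
-/

set_option autoImplicit false

noncomputable section

namespace Fermat.Agent.Cor.HL

open Complex Real Filter Topology Set MeasureTheory

/-- the coefficients (`0` for `n = 1`) -/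
def cP (n : ℕ) : ℂ := (n : ℂ) ^ (-(1 / 2 : ℂ)) / (2 * I * (Real.log n : ℂ))

theorem cP_one : cP 1 = 0 := by
  have h : Real.log ((1 : ℕ) : ℝ) = 0 := by rw [Nat.cast_one, Real.log_one]
  rw [cP, h, ofReal_zero, mul_zero, div_zero]

theorem norm_cP_sq {n : ℕ} (hn : 2 ≤ n) : ‖cP n‖ ^ 2 = 1 / 4 * (1 / ((n : ℝ) * Real.log n ^ 2)) := by
  have hn0 : (0 : ℝ) < n := by exact_mod_cast (by omega : 0 < n)
  have hl : 0 < Real.log n := Real.log_pos (by exact_mod_cast (by omega : 1 < n))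
  have h1 : ‖(n : ℂ) ^ (-(1 / 2 : ℂ))‖ = (n : ℝ) ^ (-(1 / 2) : ℝ) := by
    have h2 : (n : ℂ) = ((n : ℝ) : ℂ) := (ofReal_natCast n).symm
    rw [h2, norm_cpow_eq_rpow_re_of_pos hn0]
    norm_num
  have h3 : ((n : ℝ) ^ (-(1 / 2) : ℝ)) ^ 2 = 1 / n := by
    rw [← Real.rpow_natCast, ← Real.rpow_mul hn0.le]
    norm_num
    exact Real.rpow_neg_one _
  rw [cP, norm_div, norm_mul, norm_mul, h1, norm_I, Complex.norm_of_nonneg hl.le, div_pow, h3,
    Complex.norm_ofNat]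
  field_simp
  norm_num

/-- one term -/
theorem integral_term {n : ℕ} (hn : 2 ≤ n) (t s : ℝ) :
    ∫ u in t..s, (n : ℂ) ^ (-(1 / 2 + 2 * (u : ℂ) * I)) =
      cP n * ((n : ℂ) ^ (-(2 * (t : ℂ) * I)) - (n : ℂ) ^ (-(2 * (s : ℂ) * I))) := by
  have hn0 : (n : ℂ) ≠ 0 := Nat.cast_ne_zero.2 (by omega)
  have hl : 0 < Real.log n := Real.log_pos (by exact_mod_cast (by omega : 1 < n))
  have hlc : (Real.log n : ℂ) ≠ 0 := ofReal_ne_zero.2 hl.ne'
  have h1 : ∀ u : ℝ, (n : ℂ) ^ (-(2 * (u : ℂ) * I)) = cexp (-(2 * I * (Real.log n : ℂ)) * u) := by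
    intro u
    rw [cpow_def_of_ne_zero hn0, Complex.natCast_log]
    congr 1
    ring
  have h2 : ∀ u : ℝ, (n : ℂ) ^ (-(1 / 2 + 2 * (u : ℂ) * I)) =
      (n : ℂ) ^ (-(1 / 2 : ℂ)) * cexp (-(2 * I * (Real.log n : ℂ)) * u) := by
    intro u
    rw [← h1, ← cpow_add _ _ hn0]
    congr 1
    ring
  have h0 : -(2 * I * (Real.log n : ℂ)) ≠ 0 :=
    neg_ne_zero.2 (mul_ne_zero (mul_ne_zero two_ne_zero I_ne_zero) hlc)
  simp only [h2]
  rw [intervalIntegral.integral_const_mul, integral_exp_mul_complex h0, h1, h1, cP]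
  field_simp
  ring

theorem continuous_pow_term {n : ℕ} (hn : 1 ≤ n) :
    Continuous fun u : ℝ => (n : ℂ) ^ (-(1 / 2 + 2 * (u : ℂ) * I)) := by
  have hn0 : (n : ℂ) ≠ 0 := Nat.cast_ne_zero.2 (by omega)
  refine Continuous.const_cpow ?_ (Or.inl hn0)
  fun_prop

theorem continuous_pow_term' {n : ℕ} (hn : 1 ≤ n) :
    Continuous fun u : ℝ => (n : ℂ) ^ (-(2 * (u : ℂ) * I)) := by
  have hn0 : (n : ℂ) ≠ 0 := Nat.cast_ne_zero.2 (by omega)
  refine Continuous.const_cpow ?_ (Or.inl hn0)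
  fun_prop

/-- the sum -/
theorem integral_sum {N : ℕ} (hN : 1 ≤ N) (t s : ℝ) :
    ∫ u in t..s, (∑ n ∈ Finset.Icc 1 N, (n : ℂ) ^ (-(1 / 2 + 2 * (u : ℂ) * I)) - 1) =
      ∑ n ∈ Finset.Icc 1 N, cP n * (n : ℂ) ^ (-(2 * (t : ℂ) * I)) -
      ∑ n ∈ Finset.Icc 1 N, cP n * (n : ℂ) ^ (-(2 * (s : ℂ) * I)) := by
  have h1 : ∀ u : ℝ, ∑ n ∈ Finset.Icc 1 N, (n : ℂ) ^ (-(1 / 2 + 2 * (u : ℂ) * I)) - 1 =
      ∑ n ∈ Finset.Ioc 1 N, (n : ℂ) ^ (-(1 / 2 + 2 * (u : ℂ) * I)) := by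
    intro u
    rw [← Finset.add_sum_Ioc_eq_sum_Icc hN, Nat.cast_one, one_cpow, add_sub_cancel_left]
  have h2 : ∀ t : ℝ, ∑ n ∈ Finset.Icc 1 N, cP n * (n : ℂ) ^ (-(2 * (t : ℂ) * I)) =
      ∑ n ∈ Finset.Ioc 1 N, cP n * (n : ℂ) ^ (-(2 * (t : ℂ) * I)) := by
    intro t
    rw [← Finset.add_sum_Ioc_eq_sum_Icc hN, cP_one, zero_mul, zero_add]
  simp only [h1]
  rw [h2, h2, intervalIntegral.integral_finset_sum fun n hn =>
    (continuous_pow_term (Finset.mem_Ioc.1 hn).1.le).intervalIntegrable _ _,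
    ← Finset.sum_sub_distrib]
  refine Finset.sum_congr rfl fun n hn => ?_
  rw [integral_term (Finset.mem_Ioc.1 hn).1, mul_sub]

theorem continuous_zeta_line : Continuous fun u : ℝ => riemannZeta (1 / 2 + 2 * (u : ℂ) * I) := by
  rw [continuous_iff_continuousAt]
  intro u
  have h1 : (1 / 2 + 2 * (u : ℂ) * I) ≠ 1 := by
    intro h
    have := congrArg Complex.re h
    simp at this
  exact (differentiableAt_riemannZeta h1).continuousAt.comp
    (f := fun u : ℝ => (1 / 2 + 2 * (u : ℂ) * I)) (by fun_prop)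

/-- (B3) -/
theorem psiStmt (hA : ApproxStmt) (hM : MeanStmt) (hL : LogStmt) : PsiStmt := by
  obtain ⟨A₁, hA₁, happ⟩ := hA
  obtain ⟨A₂, hA₂, hmean⟩ := hM
  obtain ⟨B, hB⟩ := hL
  have hB0 : 0 ≤ B := by
    have := hB 0
    rwa [Finset.Icc_eq_empty (by omega), Finset.sum_empty] at this
  refine ⟨3 * (2 * (A₂ * (B / 4)) + A₁ ^ 2), by positivity, fun H hH => ⟨H ^ 2, fun T hT => ?_⟩⟩
  have hTH : H ≤ T := by nlinarith
  have hT1 : 1 ≤ T := hH.trans hTH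
  set N : ℕ := ⌈2 * T⌉₊ with hNdef
  have hN1 : 2 * T ≤ N := Nat.le_ceil _
  have hN2 : (N : ℝ) ≤ 4 * T := by
    have := Nat.ceil_lt_add_one (show 0 ≤ 2 * T by linarith)
    linarith
  have hN0 : (0 : ℝ) < N := by linarith
  have hN : 1 ≤ N := by
    have : (0 : ℝ) < (N : ℝ) := hN0
    exact_mod_cast this
  -- the polynomials
  set P : ℝ → ℂ := fun t => ∑ n ∈ Finset.Icc 1 N, cP n * (n : ℂ) ^ (-(2 * (t : ℂ) * I)) with hP
  set a' : ℕ → ℂ := fun n => cP n * (n : ℂ) ^ (-(2 * (H : ℂ) * I)) with ha'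
  set P' : ℝ → ℂ := fun t => ∑ n ∈ Finset.Icc 1 N, a' n * (n : ℂ) ^ (-(2 * (t : ℂ) * I)) with hP'
  have hPP' : ∀ t : ℝ, P (t + H) = P' t := by
    intro t
    simp only [hP, hP', ha']
    refine Finset.sum_congr rfl fun n hn => ?_
    have hn0 : (n : ℂ) ≠ 0 := Nat.cast_ne_zero.2 (by have := (Finset.mem_Icc.1 hn).1; omega)
    rw [mul_assoc (cP n), ← cpow_add _ _ hn0]
    congr 2
    push_cast
    ring
  have hcP : Continuous P := continuous_finset_sum _ fun n hn => continuous_const.mul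
    (continuous_pow_term' (Finset.mem_Icc.1 hn).1)
  have hcP' : Continuous P' := continuous_finset_sum _ fun n hn => continuous_const.mul
    (continuous_pow_term' (Finset.mem_Icc.1 hn).1)
  -- the coefficients
  have hcoef : ∑ n ∈ Finset.Icc 1 N, ‖cP n‖ ^ 2 ≤ B / 4 := by
    rw [← Finset.add_sum_Ioc_eq_sum_Icc hN, cP_one, norm_zero]
    have h1 : ∀ n ∈ Finset.Ioc 1 N, ‖cP n‖ ^ 2 = 1 / 4 * (1 / ((n : ℝ) * Real.log n ^ 2)) :=
      fun n hn => norm_cP_sq (Finset.mem_Ioc.1 hn).1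
    rw [Finset.sum_congr rfl h1, ← Finset.mul_sum]
    have h2 : Finset.Ioc 1 N = Finset.Icc 2 N := by
      ext n
      rw [Finset.mem_Ioc, Finset.mem_Icc]
      rfl
    rw [h2]
    have := hB N
    linarith
  have hcoef' : ∑ n ∈ Finset.Icc 1 N, ‖a' n‖ ^ 2 = ∑ n ∈ Finset.Icc 1 N, ‖cP n‖ ^ 2 := by
    refine Finset.sum_congr rfl fun n hn => ?_
    have hn0 : (0 : ℝ) < n := by
      have := (Finset.mem_Icc.1 hn).1
      exact_mod_cast this
    have h1 : ‖(n : ℂ) ^ (-(2 * (H : ℂ) * I))‖ = 1 := by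
      rw [← ofReal_natCast, norm_cpow_eq_rpow_re_of_pos hn0]
      simp
    rw [ha']
    simp only
    rw [norm_mul, h1, mul_one]
  have hm1 : ∫ t in T..(2 * T), ‖P t‖ ^ 2 ≤ A₂ * T * (B / 4) :=
    (hmean T N cP hT1 hN2).trans (mul_le_mul_of_nonneg_left hcoef (by positivity))
  have hm2 : ∫ t in T..(2 * T), ‖P' t‖ ^ 2 ≤ A₂ * T * (B / 4) := by
    refine (hmean T N a' hT1 hN2).trans ?_
    rw [hcoef']
    exact mul_le_mul_of_nonneg_left hcoef (by positivity)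
  -- the pointwise bound
  set E : ℝ := A₁ / √N * H with hE
  have hsq : 0 < √(N : ℝ) := Real.sqrt_pos.2 hN0
  have hpt : ∀ t ∈ Icc T (2 * T), ‖∫ u in t..(t + H), (riemannZeta (1 / 2 + 2 * u * I) - 1)‖ ^ 2 ≤
      3 * (‖P t‖ ^ 2 + ‖P' t‖ ^ 2 + E ^ 2) := by
    intro t ht
    have hcS : Continuous fun u : ℝ =>
        ∑ n ∈ Finset.Icc 1 N, (n : ℂ) ^ (-(1 / 2 + 2 * (u : ℂ) * I)) - 1 :=
      (continuous_finset_sum _ fun n hn => continuous_pow_term (Finset.mem_Icc.1 hn).1).sub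
        continuous_const
    have hcZ : Continuous fun u : ℝ => riemannZeta (1 / 2 + 2 * (u : ℂ) * I) -
        ∑ n ∈ Finset.Icc 1 N, (n : ℂ) ^ (-(1 / 2 + 2 * (u : ℂ) * I)) :=
      continuous_zeta_line.sub
        (continuous_finset_sum _ fun n hn => continuous_pow_term (Finset.mem_Icc.1 hn).1)
    have h1 : ∫ u in t..(t + H), (riemannZeta (1 / 2 + 2 * u * I) - 1) =
        P t - P' t + ∫ u in t..(t + H), (riemannZeta (1 / 2 + 2 * (u : ℂ) * I) -
          ∑ n ∈ Finset.Icc 1 N, (n : ℂ) ^ (-(1 / 2 + 2 * (u : ℂ) * I))) := by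
      rw [← hPP' t, hP]
      simp only
      rw [← integral_sum hN t (t + H), ← intervalIntegral.integral_add
        (hcS.intervalIntegrable _ _) (hcZ.intervalIntegrable _ _)]
      refine intervalIntegral.integral_congr fun u _ => ?_
      ring
    have h2 : ‖∫ u in t..(t + H), (riemannZeta (1 / 2 + 2 * (u : ℂ) * I) -
        ∑ n ∈ Finset.Icc 1 N, (n : ℂ) ^ (-(1 / 2 + 2 * (u : ℂ) * I)))‖ ≤ E := by
      have h3 := intervalIntegral.norm_integral_le_of_norm_le_const (a := t) (b := t + H)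
        (C := A₁ / √N) (f := fun u : ℝ => riemannZeta (1 / 2 + 2 * (u : ℂ) * I) -
          ∑ n ∈ Finset.Icc 1 N, (n : ℂ) ^ (-(1 / 2 + 2 * (u : ℂ) * I))) ?_
      · rw [add_sub_cancel_left, abs_of_nonneg (by linarith)] at h3
        exact h3
      · intro u hu
        rw [uIoc_of_le (by linarith)] at hu
        have h4 := happ (2 * u) N hN (by linarith [hu.1, ht.1]) (by linarith [hu.2, ht.2])
        push_cast at h4
        exact h4
    rw [h1]
    have h5 : ‖P t - P' t + ∫ u in t..(t + H), (riemannZeta (1 / 2 + 2 * (u : ℂ) * I) -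
        ∑ n ∈ Finset.Icc 1 N, (n : ℂ) ^ (-(1 / 2 + 2 * (u : ℂ) * I)))‖ ≤
        ‖P t‖ + ‖P' t‖ + E :=
      (norm_add_le _ _).trans (add_le_add (norm_sub_le _ _) h2)
    have h6 := pow_le_pow_left₀ (norm_nonneg _) h5 2
    refine h6.trans ?_
    nlinarith [sq_nonneg (‖P t‖ - ‖P' t‖), sq_nonneg (‖P t‖ - E), sq_nonneg (‖P' t‖ - E)]
  -- integration
  have hcL : Continuous fun t : ℝ =>
      ‖∫ u in t..(t + H), (riemannZeta (1 / 2 + 2 * u * I) - 1)‖ ^ 2 := by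
    have h1 : ∀ t : ℝ, ∫ u in t..(t + H), (riemannZeta (1 / 2 + 2 * u * I) - 1) =
        ∫ v in (0 : ℝ)..H, (riemannZeta (1 / 2 + 2 * ((t + v : ℝ) : ℂ) * I) - 1) := by
      intro t
      rw [intervalIntegral.integral_comp_add_left
        (fun u : ℝ => riemannZeta (1 / 2 + 2 * (u : ℂ) * I) - 1) t, add_zero]
    simp only [h1]
    refine (Continuous.norm ?_).pow 2
    refine intervalIntegral.continuous_parametric_intervalIntegral_of_continuous' ?_ _ _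
    exact (continuous_zeta_line.comp (continuous_fst.add continuous_snd)).sub continuous_const
  have hcR : Continuous fun t : ℝ => 3 * (‖P t‖ ^ 2 + ‖P' t‖ ^ 2 + E ^ 2) := by
    fun_prop
  have h7 : ∫ t in T..(2 * T), ‖∫ u in t..(t + H), (riemannZeta (1 / 2 + 2 * u * I) - 1)‖ ^ 2 ≤
      ∫ t in T..(2 * T), 3 * (‖P t‖ ^ 2 + ‖P' t‖ ^ 2 + E ^ 2) :=
    intervalIntegral.integral_mono_on (by linarith) (hcL.intervalIntegrable _ _)
      (hcR.intervalIntegrable _ _) hpt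
  refine h7.trans ?_
  have hc1 : Continuous fun t => ‖P t‖ ^ 2 := by fun_prop
  have hc2 : Continuous fun t => ‖P' t‖ ^ 2 := by fun_prop
  have hc3 : Continuous fun t => ‖P t‖ ^ 2 + ‖P' t‖ ^ 2 := by fun_prop
  have hc4 : Continuous fun _ : ℝ => E ^ 2 := continuous_const
  rw [intervalIntegral.integral_const_mul, intervalIntegral.integral_add
    (hc3.intervalIntegrable _ _) (hc4.intervalIntegrable _ _), intervalIntegral.integral_add
    (hc1.intervalIntegrable _ _) (hc2.intervalIntegrable _ _),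
    intervalIntegral.integral_const, smul_eq_mul]
  have h8 : E ^ 2 ≤ A₁ ^ 2 := by
    rw [hE, mul_pow, div_pow, Real.sq_sqrt hN0.le, div_mul_eq_mul_div, div_le_iff₀ hN0]
    have h9 : H ^ 2 ≤ N := by linarith
    exact mul_le_mul_of_nonneg_left h9 (sq_nonneg _)
  have h10 : (2 * T - T) * E ^ 2 ≤ T * A₁ ^ 2 := by
    have : 2 * T - T = T := by ring
    rw [this]
    exact mul_le_mul_of_nonneg_left h8 (by linarith)
  calc 3 * ((∫ t in T..(2 * T), ‖P t‖ ^ 2) + (∫ t in T..(2 * T), ‖P' t‖ ^ 2) +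
        (2 * T - T) * E ^ 2) ≤ 3 * (A₂ * T * (B / 4) + A₂ * T * (B / 4) + T * A₁ ^ 2) := by
        linarith
    _ = _ := by ring

end Fermat.Agent.Cor.HL

end
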