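import Fermat.Agent.Corollaries.ZetaK.HL.ThetaSq

/-!
# The mean square of `∫_t^{t+H} e^{φ u} X u du`
-/

set_option autoImplicit false

noncomputable section

namespace Fermat.Agent.Cor.HL

open Complex Real Filter Topology Set MeasureTheory ComplexConjugate FourierTransform

open Fermat.Agent.Cor.Hardy (X th inversion integrable_exp_X continuous_X X_conj)

/-- **Plancherel's theorem** for continuous integrable functions with integrable Fourier
transform -/
theorem plancherel {f : ℝ → ℂ} (hc : Continuous f) (hf : Integrable f) (hF : Integrable (𝓕 f)) :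
    ∫ x : ℝ, ‖f x‖ ^ 2 = ∫ w : ℝ, ‖𝓕 f w‖ ^ 2 := by
  have h := VectorFourier.integral_sesq_fourierIntegral_eq_neg_flip (innerSL ℂ (E := ℂ))
    (L := innerₗ ℝ) Real.continuous_fourierChar continuous_inner hf hF
  have h2 : ∀ x : ℝ, VectorFourier.fourierIntegral 𝐞 volume (-(innerₗ ℝ).flip) (𝓕 f) x = f x := by
    intro x
    have h3 := congrFun (hc.fourierInv_fourier_eq hf hF) x
    rw [flip_innerₗ]
    exact h3
  apply Complex.ofRealLI.injective
  have e1 : ∀ z : ℂ, innerSL ℂ z z = ((‖z‖ ^ 2 : ℝ) : ℂ) := by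
    intro z
    rw [innerSL_apply_apply, inner_self_eq_norm_sq_to_K]
    push_cast
    rfl
  have h4 : ∫ w : ℝ, (innerSL ℂ (𝓕 f w)) (𝓕 f w) = ∫ x : ℝ, (innerSL ℂ (f x)) (f x) := by
    refine Eq.trans h (integral_congr_ae (Eventually.of_forall fun x => ?_))
    simp only
    rw [h2 x]
  simp only [e1] at h4
  change ((∫ x : ℝ, ‖f x‖ ^ 2 : ℝ) : ℂ) = ((∫ w : ℝ, ‖𝓕 f w‖ ^ 2 : ℝ) : ℂ)
  rw [← integral_complex_ofReal, ← integral_complex_ofReal]
  exact h4.symm

section

variable {g : ℝ → ℂ}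

theorem integrable_shift (hg : Integrable g) (hc : Continuous g) (H : ℝ) :
    Integrable (fun p : ℝ × ℝ => g (p.1 + p.2)) (volume.prod (volume.restrict (Ioc 0 H))) := by
  rw [integrable_prod_iff' (by
    exact (hc.comp (continuous_fst.add continuous_snd)).aestronglyMeasurable)]
  refine ⟨Eventually.of_forall fun h => hg.comp_add_right h, ?_⟩
  have e : (fun h : ℝ => ∫ t : ℝ, ‖g (t + h)‖) = fun _ => ∫ t : ℝ, ‖g t‖ := by
    funext h
    exact integral_add_right_eq_self (fun t => ‖g t‖) h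
  simp only
  rw [e]
  exact integrable_const _

theorem interval_eq (g : ℝ → ℂ) (t : ℝ) {H : ℝ} (hH : 0 ≤ H) :
    ∫ u in t..(t + H), g u = ∫ h in Ioc 0 H, g (t + h) := by
  rw [← intervalIntegral.integral_of_le hH, intervalIntegral.integral_comp_add_left]
  simp

theorem integrable_interval (hg : Integrable g) (hc : Continuous g) {H : ℝ} (hH : 0 ≤ H) :
    Integrable fun t : ℝ => ∫ u in t..(t + H), g u := by
  have h := (integrable_shift hg hc H).integral_prod_left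
  refine h.congr (Eventually.of_forall fun t => ?_)
  exact (interval_eq g t hH).symm

theorem continuous_interval (hc : Continuous g) (H : ℝ) :
    Continuous fun t : ℝ => ∫ u in t..(t + H), g u := by
  have e : (fun t : ℝ => ∫ u in t..(t + H), g u) =
      fun t => (∫ u in (0 : ℝ)..(t + H), g u) - ∫ u in (0 : ℝ)..t, g u := by
    funext t
    rw [intervalIntegral.integral_interval_sub_left (hc.intervalIntegrable _ _)
      (hc.intervalIntegrable _ _)]
  rw [e]
  have h1 : Continuous fun t : ℝ => ∫ u in (0 : ℝ)..t, g u :=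
    intervalIntegral.continuous_primitive (fun a b => hc.intervalIntegrable a b) 0
  exact (h1.comp (by fun_prop : Continuous fun t : ℝ => t + H)).sub h1

/-- the Fourier transform of `t ↦ ∫_t^{t+H} g` -/
theorem fourier_interval (hg : Integrable g) (hc : Continuous g) {H : ℝ} (hH : 0 ≤ H) (w : ℝ) :
    𝓕 (fun t : ℝ => ∫ u in t..(t + H), g u) w =
      (∫ h in Ioc (0 : ℝ) H, cexp ((2 * π * h * w : ℝ) * I)) * 𝓕 g w := by
  rw [Real.fourier_real_eq_integral_exp_smul, Real.fourier_real_eq_integral_exp_smul]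
  have e1 : ∀ t : ℝ, cexp ((-2 * π * t * w : ℝ) * I) • ∫ u in t..(t + H), g u =
      ∫ h in Ioc 0 H, cexp ((-2 * π * t * w : ℝ) * I) * g (t + h) := by
    intro t
    rw [interval_eq g t hH, smul_eq_mul, integral_const_mul]
  simp only [e1]
  have hint : Integrable (Function.uncurry fun t h : ℝ =>
      cexp ((-2 * π * t * w : ℝ) * I) * g (t + h)) (volume.prod (volume.restrict (Ioc 0 H))) := by
    refine (integrable_shift hg hc H).norm.mono' ?_ (Eventually.of_forall fun p => ?_)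
    · refine Continuous.aestronglyMeasurable ?_
      have : Continuous fun p : ℝ × ℝ => cexp ((-2 * π * p.1 * w : ℝ) * I) * g (p.1 + p.2) :=
        Continuous.mul (by fun_prop) (hc.comp (by fun_prop))
      exact this
    · simp only [Function.uncurry]
      rw [norm_mul, norm_exp_ofReal_mul_I, one_mul]
  rw [integral_integral_swap hint, ← integral_mul_const]
  refine integral_congr_ae (Eventually.of_forall fun h => ?_)
  simp only
  have e2 : ∀ t : ℝ, cexp ((-2 * π * t * w : ℝ) * I) * g (t + h) =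
      cexp ((2 * π * h * w : ℝ) * I) *
        (fun t : ℝ => cexp ((-2 * π * t * w : ℝ) * I) • g t) (t + h) := by
    intro t
    simp only [smul_eq_mul]
    rw [← mul_assoc, ← Complex.exp_add]
    congr 2
    push_cast
    ring
  simp only [e2]
  rw [integral_const_mul, integral_add_right_eq_self
    (fun t : ℝ => cexp ((-2 * π * t * w : ℝ) * I) • g t) h]

theorem norm_kernel_sq_le {H : ℝ} (hH : 0 ≤ H) (w : ℝ) :
    ‖∫ h in Ioc (0 : ℝ) H, cexp ((2 * π * h * w : ℝ) * I)‖ ^ 2 ≤ 5 * wt H (2 * π * w) := by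
  set k := ∫ h in Ioc (0 : ℝ) H, cexp ((2 * π * h * w : ℝ) * I) with hk
  set a : ℝ := 2 * π * w with ha
  have h1 : ‖k‖ ≤ H := by
    refine (norm_setIntegral_le_of_norm_le_const (C := 1) (by simp) fun h _ => ?_).trans ?_
    · rw [norm_exp_ofReal_mul_I]
    · simp [hH, Measure.real]
  have h2 : ‖k‖ * |a| ≤ 2 := by
    rcases eq_or_ne a 0 with h0 | h0
    · rw [h0]; simp
    · have hI : (a * I : ℂ) ≠ 0 := by simp [h0]
      have e : k = (cexp (a * I * H) - cexp (a * I * ((0 : ℝ) : ℂ))) / (a * I) := by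
        rw [hk, ← intervalIntegral.integral_of_le hH, ← integral_exp_mul_complex hI]
        refine intervalIntegral.integral_congr fun h _ => ?_
        congr 1
        rw [ha]
        push_cast
        ring
      rw [e, norm_div, norm_mul, norm_I, mul_one, norm_real, Real.norm_eq_abs, div_mul_cancel₀ _
        (abs_pos.mpr h0).ne']
      refine (norm_sub_le _ _).trans ?_
      have e1 : (a * I * H : ℂ) = ((a * H : ℝ) : ℂ) * I := by push_cast; ring
      rw [e1, norm_exp_ofReal_mul_I, ofReal_zero, mul_zero, Complex.exp_zero, norm_one]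
      norm_num
  rw [wt, mul_div_assoc', le_div_iff₀ (wt_den_pos H a)]
  have h3 : 0 ≤ ‖k‖ := norm_nonneg k
  have h4 : ‖k‖ ^ 2 ≤ H ^ 2 := by gcongr
  have h5 : ‖k‖ ^ 2 * a ^ 2 ≤ 4 := by
    have : ‖k‖ ^ 2 * a ^ 2 = (‖k‖ * |a|) ^ 2 := by rw [mul_pow ‖k‖ |a| 2, sq_abs]
    rw [this]
    nlinarith [mul_nonneg h3 (abs_nonneg a)]
  have h6 : ‖k‖ ^ 2 * a ^ 2 * H ^ 2 ≤ 4 * H ^ 2 := by gcongr
  nlinarith

end

/-- `e^{φ u} X u` -/
def GG (φ : ℝ) (u : ℝ) : ℂ := (Real.exp (φ * u) : ℂ) * X u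

theorem continuous_GG (φ : ℝ) : Continuous (GG φ) := by
  unfold GG
  exact Continuous.mul (by fun_prop) continuous_X

theorem integrable_GG {φ : ℝ} (h1 : -(π / 2) < φ) (h2 : φ < π / 2) : Integrable (GG φ) :=
  integrable_exp_X h1 h2

theorem conj_GG (φ u : ℝ) : conj (GG φ u) = GG φ u := by
  rw [GG, map_mul, conj_ofReal, X_conj]

def RR (φ v : ℝ) : ℂ :=
  th (cexp (φ * I) * (Real.exp v : ℂ)) - 1 - cexp (-(φ / 2 * I)) * ((Real.exp (-(v / 2)) : ℝ) : ℂ)

theorem norm_fourier_GG {φ : ℝ} (h1 : -(π / 2) < φ) (h2 : φ < π / 2) (w : ℝ) :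
    ‖𝓕 (GG φ) w‖ = π * Real.exp (2 * π * w / 4) * ‖RR φ (2 * π * w)‖ := by
  have hpi := Real.pi_pos
  set v : ℝ := 2 * π * w with hv
  have h := inversion h1 h2 (Real.exp_pos v)
  have e1 : ∀ y : ℝ, ((Real.exp v : ℝ) : ℂ) ^ (-(((1 / 4 : ℝ) : ℂ) + y * I)) •
      (2 * cexp (-(φ / 4 * I)) * (Real.exp (φ * y) : ℂ) * X y) =
      (2 * cexp (-(φ / 4 * I)) * ((Real.exp (-(v / 4)) : ℝ) : ℂ)) *
        (cexp ((-2 * π * y * w : ℝ) * I) • GG φ y) := by
    intro y
    have e : ((Real.exp v : ℝ) : ℂ) ^ (-(((1 / 4 : ℝ) : ℂ) + y * I)) =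
        ((Real.exp (-(v / 4)) : ℝ) : ℂ) * cexp ((-2 * π * y * w : ℝ) * I) := by
      rw [cpow_def_of_ne_zero (by exact_mod_cast (Real.exp_pos v).ne'),
        ← ofReal_log (Real.exp_pos v).le, Real.log_exp, ofReal_exp, ← Complex.exp_add]
      congr 1
      rw [hv]
      push_cast
      ring
    rw [e, GG, smul_eq_mul, smul_eq_mul]
    ring
  simp only [e1] at h
  rw [integral_const_mul, ← Real.fourier_real_eq_integral_exp_smul] at h
  have e2 : ((Real.exp v) ^ (-(1 / 2) : ℝ)) = Real.exp (-(v / 2)) := by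
    rw [← Real.exp_mul]
    congr 1
    ring
  rw [e2] at h
  have h3 : ‖cexp (-(φ / 4 * I))‖ = 1 := by
    have := Fermat.Agent.Cor.Hardy.norm_exp_I (φ / 4)
    push_cast at this
    exact this
  have h4 := congrArg norm h
  rw [norm_smul, norm_mul, norm_mul, norm_mul, h3, Complex.norm_ofNat, Real.norm_eq_abs,
    abs_of_pos (by positivity), norm_real, Real.norm_eq_abs, abs_of_pos (Real.exp_pos _)] at h4
  change _ = ‖RR φ v‖ at h4
  rw [← h4]
  have h5 : Real.exp (v / 4) * Real.exp (-(v / 4)) = 1 := by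
    rw [← Real.exp_add]
    simp
  have h6 : π * Real.exp (v / 4) * (1 / (2 * π) * (2 * 1 * Real.exp (-(v / 4)) * ‖𝓕 (GG φ) w‖)) =
      (Real.exp (v / 4) * Real.exp (-(v / 4))) * ‖𝓕 (GG φ) w‖ := by
    field_simp
  rw [h6, h5, one_mul]

theorem fourier_GG_neg (φ w : ℝ) : ‖𝓕 (GG φ) (-w)‖ = ‖𝓕 (GG φ) w‖ := by
  rw [Real.fourier_real_eq_integral_exp_smul, Real.fourier_real_eq_integral_exp_smul,
    ← RCLike.norm_conj (∫ v : ℝ, cexp ((-2 * π * v * w : ℝ) * I) • GG φ v), ← integral_conj]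
  congr 1
  refine integral_congr_ae (Eventually.of_forall fun y => ?_)
  simp only [smul_eq_mul, map_mul, conj_GG]
  congr 1
  rw [← exp_conj, map_mul, conj_I, conj_ofReal]
  congr 1
  push_cast
  ring

theorem norm_S_sq_le {φ : ℝ} (hc : 0 < Real.cos φ) (v : ℝ) :
    ‖(th (cexp (φ * I) * (Real.exp v : ℂ)) - 1) / 2‖ ^ 2 ≤ 1 / Real.cos φ * Real.exp (-v) :=
  le_of_tendsto ((tendsto_SN hc v).norm.pow 2) (Eventually.of_forall fun N => norm_SN_le hc N v)

theorem norm_RR_sq_le (φ v : ℝ) :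
    ‖RR φ v‖ ^ 2 ≤ 8 * ‖(th (cexp (φ * I) * (Real.exp v : ℂ)) - 1) / 2‖ ^ 2 +
      2 * Real.exp (-v) := by
  have h4 : ‖cexp (-(φ / 2 * I))‖ = 1 := by
    have := Fermat.Agent.Cor.Hardy.norm_exp_I (φ / 2)
    push_cast at this
    exact this
  set S := (th (cexp (φ * I) * (Real.exp v : ℂ)) - 1) / 2 with hS
  have h1 : ‖RR φ v‖ ≤ 2 * ‖S‖ + Real.exp (-(v / 2)) := by
    have e : RR φ v = 2 * S - cexp (-(φ / 2 * I)) * ((Real.exp (-(v / 2)) : ℝ) : ℂ) := by
      rw [RR, hS]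
      ring
    rw [e]
    refine (norm_sub_le _ _).trans ?_
    rw [norm_mul, norm_mul, h4, one_mul, Complex.norm_ofNat, norm_real, Real.norm_eq_abs,
      abs_of_pos (Real.exp_pos _)]
  have h2 : Real.exp (-(v / 2)) ^ 2 = Real.exp (-v) := by
    rw [← Real.exp_nat_mul]
    congr 1
    push_cast
    ring
  rw [← h2]
  have h3 : 0 ≤ ‖RR φ v‖ := norm_nonneg _
  have h5 : ‖RR φ v‖ ^ 2 ≤ (2 * ‖S‖ + Real.exp (-(v / 2))) ^ 2 := by gcongr
  nlinarith [sq_nonneg (2 * ‖S‖ - Real.exp (-(v / 2)))]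

theorem norm_fourier_GG_sq_le {φ : ℝ} (h1 : -(π / 2) < φ) (h2 : φ < π / 2) (v : ℝ) :
    ‖𝓕 (GG φ) (v / (2 * π))‖ ^ 2 ≤
      π ^ 2 * (8 * (Real.exp (v / 2) * ‖(th (cexp (φ * I) * (Real.exp v : ℂ)) - 1) / 2‖ ^ 2) +
        2 * Real.exp (-(v / 2))) := by
  have hpi := Real.pi_pos
  have e : 2 * π * (v / (2 * π)) = v := by field_simp
  rw [norm_fourier_GG h1 h2, e, mul_pow, mul_pow, ← Real.exp_nat_mul,
    show ((2 : ℕ) : ℝ) * (v / 4) = v / 2 by push_cast; ring]
  have h3 : Real.exp (v / 2) * Real.exp (-v) = Real.exp (-(v / 2)) := by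
    rw [← Real.exp_add]
    congr 1
    ring
  calc π ^ 2 * Real.exp (v / 2) * ‖RR φ v‖ ^ 2
      ≤ π ^ 2 * Real.exp (v / 2) *
        (8 * ‖(th (cexp (φ * I) * (Real.exp v : ℂ)) - 1) / 2‖ ^ 2 + 2 * Real.exp (-v)) := by
        gcongr
        exact norm_RR_sq_le φ v
    _ = π ^ 2 * (8 * (Real.exp (v / 2) * ‖(th (cexp (φ * I) * (Real.exp v : ℂ)) - 1) / 2‖ ^ 2) +
        2 * (Real.exp (v / 2) * Real.exp (-v))) := by ring
    _ = _ := by rw [h3]

/-- exponential decay of the Fourier transform -/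
theorem norm_fourier_GG_sq_decay {φ : ℝ} (h1 : -(π / 2) < φ) (h2 : φ < π / 2) (w : ℝ) :
    ‖𝓕 (GG φ) w‖ ^ 2 ≤ π ^ 2 * (8 / Real.cos φ + 2) * Real.exp (-π * |w|) := by
  have hpi := Real.pi_pos
  have hc : 0 < Real.cos φ := Real.cos_pos_of_mem_Ioo ⟨h1, h2⟩
  have hpos : ∀ w : ℝ, 0 ≤ w →
      ‖𝓕 (GG φ) w‖ ^ 2 ≤ π ^ 2 * (8 / Real.cos φ + 2) * Real.exp (-π * w) := by
    intro w hw
    have h := norm_fourier_GG_sq_le h1 h2 (2 * π * w)
    rw [show 2 * π * w / (2 * π) = w by field_simp] at h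
    refine h.trans ?_
    have h3 := norm_S_sq_le hc (2 * π * w)
    have e1 : Real.exp (2 * π * w / 2) * (1 / Real.cos φ * Real.exp (-(2 * π * w))) =
        1 / Real.cos φ * Real.exp (-π * w) := by
      rw [mul_left_comm, ← Real.exp_add]
      congr 2
      ring
    have e2 : Real.exp (-(2 * π * w / 2)) = Real.exp (-π * w) := by
      congr 1
      ring
    rw [e2]
    calc _ ≤ π ^ 2 * (8 * (Real.exp (2 * π * w / 2) *
          (1 / Real.cos φ * Real.exp (-(2 * π * w)))) + 2 * Real.exp (-π * w)) := by gcongr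
      _ = _ := by
        rw [e1]
        ring
  rcases le_total 0 w with hw | hw
  · rw [abs_of_nonneg hw]
    exact hpos w hw
  · rw [abs_of_nonpos hw, ← fourier_GG_neg]
    exact hpos (-w) (by linarith)

theorem continuous_fourier_GG {φ : ℝ} (h1 : -(π / 2) < φ) (h2 : φ < π / 2) :
    Continuous (𝓕 (GG φ)) :=
  VectorFourier.fourierIntegral_continuous Real.continuous_fourierChar
    (by exact continuous_inner) (integrable_GG h1 h2)

theorem integrable_fourier_GG {φ : ℝ} (h1 : -(π / 2) < φ) (h2 : φ < π / 2) :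
    Integrable (𝓕 (GG φ)) := by
  have hpi := Real.pi_pos
  have hc : 0 < Real.cos φ := Real.cos_pos_of_mem_Ioo ⟨h1, h2⟩
  set C : ℝ := π ^ 2 * (8 / Real.cos φ + 2) with hC
  have hC0 : 0 < C := by positivity
  refine ((Fermat.Agent.Cor.Hardy.integrable_exp_abs (b := π / 2) (by positivity)).const_mul
    √C).mono' (continuous_fourier_GG h1 h2).aestronglyMeasurable (Eventually.of_forall fun w => ?_)
  have h := norm_fourier_GG_sq_decay h1 h2 w
  have e : (√C * Real.exp (-(π / 2) * |w|)) ^ 2 = C * Real.exp (-π * |w|) := by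
    rw [mul_pow, Real.sq_sqrt hC0.le, ← Real.exp_nat_mul]
    congr 2
    push_cast
    ring
  rw [← hC, ← e] at h
  exact (sq_le_sq₀ (norm_nonneg _) (by positivity)).mp h

/-- the integral -/
def II (φ H t : ℝ) : ℂ := ∫ u in t..(t + H), GG φ u

theorem norm_fourier_II_sq_le {φ : ℝ} (h1 : -(π / 2) < φ) (h2 : φ < π / 2) {H : ℝ} (hH : 0 ≤ H)
    (w : ℝ) : ‖𝓕 (II φ H) w‖ ^ 2 ≤ 5 * wt H (2 * π * w) * ‖𝓕 (GG φ) w‖ ^ 2 := by
  have h := fourier_interval (integrable_GG h1 h2) (continuous_GG φ) hH w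
  change 𝓕 (II φ H) w = _ at h
  rw [h, norm_mul, mul_pow]
  gcongr
  exact norm_kernel_sq_le hH w

theorem integrable_fourier_II {φ : ℝ} (h1 : -(π / 2) < φ) (h2 : φ < π / 2) {H : ℝ} (hH : 0 ≤ H) :
    Integrable (𝓕 (II φ H)) := by
  have hcont : Continuous (𝓕 (II φ H)) :=
    VectorFourier.fourierIntegral_continuous Real.continuous_fourierChar
      (by exact continuous_inner) (integrable_interval (integrable_GG h1 h2) (continuous_GG φ) hH)
  refine ((integrable_fourier_GG h1 h2).norm.const_mul (3 * H)).mono' hcont.aestronglyMeasurable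
    (Eventually.of_forall fun w => ?_)
  have h := norm_fourier_II_sq_le h1 h2 hH w
  have h3 : 5 * wt H (2 * π * w) * ‖𝓕 (GG φ) w‖ ^ 2 ≤ (3 * H * ‖𝓕 (GG φ) w‖) ^ 2 := by
    rw [mul_pow]
    gcongr
    have := wt_le H (2 * π * w)
    nlinarith [sq_nonneg H]
  exact (sq_le_sq₀ (norm_nonneg _) (by positivity)).mp (h.trans h3)

theorem integral_II_sq_le {φ : ℝ} (h1 : -(π / 2) < φ) (h2 : φ < π / 2) {H : ℝ} (hH : 0 < H)
    (hint : IntegrableOn (fun v => wt H v * Real.exp (v / 2) *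
      ‖(th (cexp (φ * I) * (Real.exp v : ℂ)) - 1) / 2‖ ^ 2) (Ioi 0)) :
    ∫ t : ℝ, ‖II φ H t‖ ^ 2 ≤ 5 * π * (8 * (∫ v in Ioi (0 : ℝ), wt H v * Real.exp (v / 2) *
      ‖(th (cexp (φ * I) * (Real.exp v : ℂ)) - 1) / 2‖ ^ 2) + H * π) := by
  have hpi := Real.pi_pos
  have hc : 0 < Real.cos φ := Real.cos_pos_of_mem_Ioo ⟨h1, h2⟩
  have hI1 : Integrable (II φ H) :=
    integrable_interval (integrable_GG h1 h2) (continuous_GG φ) hH.le
  have hI2 : Continuous (II φ H) := continuous_interval (continuous_GG φ) H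
  rw [plancherel hI2 hI1 (integrable_fourier_II h1 h2 hH.le)]
  set D : ℝ → ℝ := fun v => 5 * wt H v * ‖𝓕 (GG φ) (v / (2 * π))‖ ^ 2 with hD
  have hwt_abs : ∀ v, wt H |v| = wt H v := fun v => by rw [wt, wt, sq_abs]
  have hDabs : ∀ v, D |v| = D v := by
    intro v
    rcases abs_cases v with ⟨h, _⟩ | ⟨h, _⟩
    · rw [h]
    · rw [h, hD]
      simp only
      rw [← h, hwt_abs, h, neg_div, fourier_GG_neg]
  have hcontD : Continuous D := by
    have h3 : Continuous fun v : ℝ => 𝓕 (GG φ) (v / (2 * π)) :=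
      (continuous_fourier_GG h1 h2).comp (by fun_prop)
    exact ((continuous_const.mul (continuous_wt H)).mul (h3.norm.pow 2))
  have hDw : ∀ w : ℝ, D (2 * π * w) = 5 * wt H (2 * π * w) * ‖𝓕 (GG φ) w‖ ^ 2 := by
    intro w
    simp only [hD]
    rw [show 2 * π * w / (2 * π) = w by field_simp]
  have hintw : Integrable fun w : ℝ => D (2 * π * w) := by
    have h3 := (Fermat.Agent.Cor.Hardy.integrable_exp_abs (b := π) hpi).const_mul
      (5 * H ^ 2 * (π ^ 2 * (8 / Real.cos φ + 2)))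
    refine h3.mono' (hcontD.comp (by fun_prop)).aestronglyMeasurable
      (Eventually.of_forall fun w => ?_)
    have h4 := norm_fourier_GG_sq_decay h1 h2 w
    have h5 := wt_nonneg H (2 * π * w)
    rw [hDw, Real.norm_eq_abs, abs_of_nonneg (by positivity)]
    calc 5 * wt H (2 * π * w) * ‖𝓕 (GG φ) w‖ ^ 2
        ≤ 5 * H ^ 2 * (π ^ 2 * (8 / Real.cos φ + 2) * Real.exp (-π * |w|)) := by
          gcongr
          exact wt_le H _
      _ = _ := by ring
  have hI3 : Integrable fun w : ℝ => ‖𝓕 (II φ H) w‖ ^ 2 := by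
    have hcont : Continuous (𝓕 (II φ H)) :=
      VectorFourier.fourierIntegral_continuous Real.continuous_fourierChar
        (by exact continuous_inner) hI1
    refine hintw.mono' (hcont.norm.pow 2).aestronglyMeasurable (Eventually.of_forall fun w => ?_)
    rw [Real.norm_eq_abs, abs_of_nonneg (by positivity), hDw]
    exact norm_fourier_II_sq_le h1 h2 hH.le w
  have hstep1 : ∫ w : ℝ, ‖𝓕 (II φ H) w‖ ^ 2 ≤ ∫ w : ℝ, D (2 * π * w) := by
    refine integral_mono hI3 hintw fun w => ?_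
    simp only
    rw [hDw]
    exact norm_fourier_II_sq_le h1 h2 hH.le w
  have hstep2 : ∫ w : ℝ, D (2 * π * w) = (1 / π) * ∫ v in Ioi (0 : ℝ), D v := by
    rw [MeasureTheory.Measure.integral_comp_mul_left D (2 * π),
      ← integral_congr_ae (Eventually.of_forall hDabs), integral_comp_abs, smul_eq_mul,
      abs_of_pos (by positivity)]
    field_simp
  have hstep3 : ∫ v in Ioi (0 : ℝ), D v ≤ ∫ v in Ioi (0 : ℝ), (40 * π ^ 2 * (wt H v *
      Real.exp (v / 2) * ‖(th (cexp (φ * I) * (Real.exp v : ℂ)) - 1) / 2‖ ^ 2) +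
      10 * π ^ 2 * wt H v) := by
    have hi2 : IntegrableOn (fun v => 40 * π ^ 2 * (wt H v *
      Real.exp (v / 2) * ‖(th (cexp (φ * I) * (Real.exp v : ℂ)) - 1) / 2‖ ^ 2) +
      10 * π ^ 2 * wt H v) (Ioi 0) := (hint.const_mul _).add ((integrable_wt hH).1.const_mul _)
    refine integral_mono_of_nonneg ?_ hi2 ?_
    · refine Eventually.of_forall fun v => ?_
      have := wt_nonneg H v
      simp only [hD, Pi.zero_apply]
      positivity
    · refine (ae_restrict_iff' measurableSet_Ioi).mpr (Eventually.of_forall fun v hv => ?_)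
      have hv0 : (0 : ℝ) < v := hv
      have h3 := norm_fourier_GG_sq_le h1 h2 v
      have h4 := wt_nonneg H v
      have h5 : Real.exp (-(v / 2)) ≤ 1 := Real.exp_le_one_iff.mpr (by linarith)
      simp only [hD]
      calc 5 * wt H v * ‖𝓕 (GG φ) (v / (2 * π))‖ ^ 2
          ≤ 5 * wt H v * (π ^ 2 * (8 * (Real.exp (v / 2) *
            ‖(th (cexp (φ * I) * (Real.exp v : ℂ)) - 1) / 2‖ ^ 2) + 2 * 1)) := by
            gcongr
            refine h3.trans ?_
            gcongr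
        _ = _ := by ring
  have hi1 : IntegrableOn (fun v => 40 * π ^ 2 * (wt H v *
      Real.exp (v / 2) * ‖(th (cexp (φ * I) * (Real.exp v : ℂ)) - 1) / 2‖ ^ 2)) (Ioi 0) :=
    hint.const_mul _
  have hi2 : IntegrableOn (fun v => 10 * π ^ 2 * wt H v) (Ioi 0) :=
    (integrable_wt hH).1.const_mul _
  rw [integral_add hi1 hi2, integral_const_mul, integral_const_mul, (integrable_wt hH).2] at hstep3
  calc ∫ w : ℝ, ‖𝓕 (II φ H) w‖ ^ 2 ≤ (1 / π) * ∫ v in Ioi (0 : ℝ), D v := hstep2 ▸ hstep1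
    _ ≤ (1 / π) * (40 * π ^ 2 * (∫ v in Ioi (0 : ℝ), wt H v * Real.exp (v / 2) *
      ‖(th (cexp (φ * I) * (Real.exp v : ℂ)) - 1) / 2‖ ^ 2) + 10 * π ^ 2 * (H * (π / 2))) := by
        gcongr
    _ = _ := by
        field_simp
        ring

/-- **(D)** -/
theorem upperStmt : UpperStmt := by
  have hpi := Real.pi_pos
  set Z : ℝ := (∑' k : ℤ, Fk k) * (1 + ∑' m : ℕ, ((m : ℝ) + 1) ^ (-(3 / 2) : ℝ)) with hZ
  have hZ0 : 0 ≤ Z := by
    have h1 : 0 ≤ ∑' k : ℤ, Fk k := tsum_nonneg Fk_nonneg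
    have h2 : 0 ≤ ∑' m : ℕ, ((m : ℝ) + 1) ^ (-(3 / 2) : ℝ) := tsum_nonneg fun m => by positivity
    positivity
  refine ⟨5 * π * (5 * π + 16), by positivity, fun H hH => ?_⟩
  have hH0 : 0 < H := by linarith
  set q₀ : ℝ := min (1 / 2) (1 / (H * (Z + 1))) with hq₀
  have hq₀0 : 0 < q₀ := lt_min (by norm_num) (by positivity)
  refine ⟨q₀ ^ 4, by positivity, fun φ hφ0 hφ2 hcos => ?_⟩
  have h1 : -(π / 2) < φ := by linarith
  have hc : 0 < Real.cos φ := Real.cos_pos_of_mem_Ioo ⟨h1, hφ2⟩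
  set q : ℝ := √√(Real.cos φ) with hq
  have hq0 : 0 < q := by positivity
  have hq2 : q ^ 2 = √(Real.cos φ) := Real.sq_sqrt (Real.sqrt_nonneg _)
  have hq4 : Real.cos φ = q ^ 4 := by
    rw [show q ^ 4 = (q ^ 2) ^ 2 by ring, hq2, Real.sq_sqrt hc.le]
  have hqle : q ≤ q₀ := by
    rw [hq4] at hcos
    exact le_of_pow_le_pow_left₀ (by norm_num) hq₀0.le hcos
  have hqhalf : q ≤ 1 / 2 := hqle.trans (min_le_left _ _)
  have hqH : q * (H * (Z + 1)) ≤ 1 := by
    have := hqle.trans (min_le_right _ _)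
    rwa [le_div_iff₀ (by positivity)] at this
  have hs : 1 / 3 ≤ Real.sin φ := by
    have hs0 : 0 ≤ Real.sin φ := Real.sin_nonneg_of_nonneg_of_le_pi hφ0 (by linarith)
    have h3 := Real.sin_sq_add_cos_sq φ
    have h4 : Real.cos φ ≤ 1 / 2 := by
      rw [hq4]
      calc q ^ 4 ≤ (1 / 2) ^ 4 := by gcongr
        _ ≤ 1 / 2 := by norm_num
    nlinarith
  obtain ⟨hint, hle⟩ := integral_th_le (H := H) (φ := φ) hH0 hq0 hq4 hs
  have hI1 : Integrable (II φ H) :=
    integrable_interval (integrable_GG h1 hφ2) (continuous_GG φ) hH0.le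
  have hI2 : Continuous (II φ H) := continuous_interval (continuous_GG φ) H
  constructor
  · change Integrable fun t => ‖II φ H t‖ ^ 2
    refine (hI1.norm.const_mul (∫ u : ℝ, ‖GG φ u‖)).mono' (hI2.norm.pow 2).aestronglyMeasurable
      (Eventually.of_forall fun t => ?_)
    rw [Real.norm_eq_abs, abs_of_nonneg (by positivity), sq]
    gcongr
    rw [II, intervalIntegral.integral_of_le (by linarith)]
    refine (norm_integral_le_integral_norm _).trans ?_
    exact setIntegral_le_integral (integrable_GG h1 hφ2).norm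
      (Eventually.of_forall fun _ => norm_nonneg _)
  · change ∫ t, ‖II φ H t‖ ^ 2 ≤ _
    have hpow : (Real.cos φ) ^ (-(1 / 2) : ℝ) = 1 / q ^ 2 := by
      rw [hq2, Real.rpow_neg hc.le, ← Real.sqrt_eq_rpow, one_div]
    rw [hpow]
    refine (integral_II_sq_le h1 hφ2 hH0 hint).trans ?_
    have h3 : 2 * H ^ 2 * ((∑' k : ℤ, Fk k) *
        ((1 + ∑' m : ℕ, ((m : ℝ) + 1) ^ (-(3 / 2) : ℝ)) / q)) ≤ 2 * H * (1 / q ^ 2) := by
      have e : 2 * H ^ 2 * ((∑' k : ℤ, Fk k) *
        ((1 + ∑' m : ℕ, ((m : ℝ) + 1) ^ (-(3 / 2) : ℝ)) / q)) = 2 * H * (q * (H * Z)) * (1 / q ^ 2) := by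
        rw [hZ]
        field_simp
      rw [e]
      have h4 : q * (H * Z) ≤ 1 := by
        have : 0 ≤ q * H := by positivity
        nlinarith
      calc 2 * H * (q * (H * Z)) * (1 / q ^ 2) ≤ 2 * H * 1 * (1 / q ^ 2) := by gcongr
        _ = _ := by ring
    have h5 : 1 ≤ 1 / q ^ 2 := by
      rw [le_div_iff₀ (by positivity)]
      nlinarith
    have h6 : H * π ≤ H * π * (1 / q ^ 2) := le_mul_of_one_le_right (by positivity) h5
    calc _ ≤ 5 * π * (8 * (H * (π / 2) * (1 / q ^ 2) + 2 * H * (1 / q ^ 2)) +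
          H * π * (1 / q ^ 2)) := by
          gcongr
          exact hle.trans (add_le_add le_rfl h3)
      _ = _ := by ring

end Fermat.Agent.Cor.HL

end
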