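import Fermat.Agent.Corollaries.ZetaK.HL.Em
import Fermat.Agent.Corollaries.ZetaK.HL.Osc
import Fermat.Agent.Corollaries.ZetaK.HL.Approx
import Fermat.Agent.Corollaries.ZetaK.HL.Mean
import Fermat.Agent.Corollaries.ZetaK.HL.Psi
import Fermat.Agent.Corollaries.ZetaK.HL.GammaLow
import Fermat.Agent.Corollaries.ZetaK.HL.Upper
import Fermat.Agent.Corollaries.ZetaK.HL.Final

/-!
# The theorem of Hardy and Littlewood (1921)

A positive multiple of `T` of the zeros of the Riemann zeta function lie on the critical line up to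
height `T`.
-/

set_option autoImplicit false

noncomputable section

namespace Fermat.Agent.Cor.HL

open Complex

/-- **Hardy and Littlewood (1921)**: `N₀(T) ≥ c T`: there is a constant `c > 0` such that for all
large `T` the Riemann zeta function has at least `c T` zeros `1/2 + i t` with `0 < t ≤ T` (the set of
these zeros is finite, so `ncard` counts them). -/
theorem hardy_littlewood : ∃ c : ℝ, 0 < c ∧ ∃ T₀ : ℝ, ∀ T : ℝ, T₀ ≤ T →
    {t : ℝ | 0 < t ∧ t ≤ T ∧ riemannZeta (1 / 2 + t * I) = 0}.Finite ∧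
    c * T ≤ ({t : ℝ | 0 < t ∧ t ≤ T ∧ riemannZeta (1 / 2 + t * I) = 0}.ncard : ℝ) :=
  mainStmt (psiStmt (approxStmt emStmt oscStmt) meanStmt logStmt) gammaStmt upperStmt

end Fermat.Agent.Cor.HL

end
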