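import Fermat.Agent.Corollaries.ZetaK.HL.Final

/-!
# The theorem of Hardy and Littlewood for the zeros of odd order

The counting argument gives intervals in which `X` changes sign; between two points at which a real
analytic function has different signs there is a zero of odd order.
-/

set_option autoImplicit false

noncomputable section

namespace Fermat.Agent.Cor.HL

open Complex Real Filter Topology Set MeasureTheory

open Fermat.Agent.Cor.Hardy (X th X_eq_re X_conj norm_X continuous_X)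

theorem analyticOnNhd_zeta : AnalyticOnNhd ℂ riemannZeta {1}ᶜ := by
  refine DifferentiableOn.analyticOnNhd (fun s hs => ?_) isOpen_compl_singleton
  exact (differentiableAt_riemannZeta hs).differentiableWithinAt

/-- the zeta function is not zero in a neighbourhood of a point -/
theorem order_ne_top {s : ℂ} (hs : s ≠ 1) : analyticOrderAt riemannZeta s ≠ ⊤ := by
  intro h
  rw [analyticOrderAt_eq_top] at h
  have hconn : IsPreconnected ({1}ᶜ : Set ℂ) :=
    (isConnected_compl_singleton_of_one_lt_rank (by simp) 1).isPreconnected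
  have hz := analyticOnNhd_zeta.eqOn_zero_of_preconnected_of_eventuallyEq_zero hconn
    (show s ∈ ({1}ᶜ : Set ℂ) from hs) h
  have h2 : riemannZeta 2 = 0 := hz (show (2 : ℂ) ∈ ({1}ᶜ : Set ℂ) by
    rw [mem_compl_singleton_iff]
    norm_num)
  exact riemannZeta_ne_zero_of_one_le_re (s := 2) (by norm_num) h2

theorem continuousAt_Gammaℝ {s : ℂ} (hs : 0 < s.re) : ContinuousAt Gammaℝ s := by
  have h1 : (Gammaℝ s)⁻¹ ≠ 0 := inv_ne_zero (Gammaℝ_ne_zero_of_re_pos hs)
  have h2 := (differentiable_Gammaℝ_inv s).continuousAt.inv₀ h1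
  have h3 : (fun s => (Gammaℝ s)⁻¹)⁻¹ = Gammaℝ := funext fun z => by
    rw [Pi.inv_apply, inv_inv]
  rwa [h3] at h2

/-- near a point of even order the sign of `X` is constant -/
theorem sign_of_even {v : ℝ} (h : ¬ Odd (analyticOrderNatAt riemannZeta (1 / 2 + 2 * v * I))) :
    (∀ᶠ u in 𝓝[≠] v, 0 < (X u).re) ∨ ∀ᶠ u in 𝓝[≠] v, (X u).re < 0 := by
  have hs1 : (1 / 2 + 2 * (v : ℂ) * I) ≠ 1 := by
    intro h
    have := congrArg Complex.re h
    simp at this
  have heven := Nat.not_odd_iff_even.1 h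
  set n := analyticOrderNatAt riemannZeta (1 / 2 + 2 * v * I) with hn
  have han : AnalyticAt ℂ riemannZeta (1 / 2 + 2 * v * I) := analyticOnNhd_zeta _ hs1
  obtain ⟨g, hg, hg0, hgz⟩ := han.analyticOrderAt_ne_top.1 (order_ne_top hs1)
  rw [← hn] at hgz
  have hl : Continuous fun u : ℝ => (1 / 2 + 2 * (u : ℂ) * I) := by fun_prop
  set k : ℝ → ℂ := fun u => (2 * I) ^ n * (Gammaℝ (1 / 2 + 2 * (u : ℂ) * I) *
    g (1 / 2 + 2 * (u : ℂ) * I)) with hk
  have hkc : ContinuousAt k v := by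
    refine continuousAt_const.mul (ContinuousAt.mul ?_ ?_)
    · exact (continuousAt_Gammaℝ (by simp)).comp (f := fun u : ℝ => (1 / 2 + 2 * (u : ℂ) * I))
        hl.continuousAt
    · exact hg.continuousAt.comp (f := fun u : ℝ => (1 / 2 + 2 * (u : ℂ) * I)) hl.continuousAt
  have hk0 : k v ≠ 0 := mul_ne_zero (pow_ne_zero _ (mul_ne_zero two_ne_zero I_ne_zero))
    (mul_ne_zero (Gammaℝ_ne_zero_of_re_pos (by simp)) hg0)
  have hX : ∀ᶠ u in 𝓝 v, X u = (((u - v) ^ n : ℝ) : ℂ) * k u := by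
    have h1 : ∀ᶠ u : ℝ in 𝓝 v, riemannZeta (1 / 2 + 2 * (u : ℂ) * I) =
        ((1 / 2 + 2 * (u : ℂ) * I) - (1 / 2 + 2 * (v : ℂ) * I)) ^ n •
          g (1 / 2 + 2 * (u : ℂ) * I) := (hl.tendsto v).eventually hgz
    filter_upwards [h1] with u hu
    rw [X_eq, hu, hk]
    simp only [smul_eq_mul]
    have e : (1 / 2 + 2 * (u : ℂ) * I) - (1 / 2 + 2 * (v : ℂ) * I) = ((u - v : ℝ) : ℂ) * (2 * I) := by
      push_cast
      ring
    rw [e, mul_pow]
    push_cast
    ring
  have hne : ∀ᶠ u in 𝓝[≠] v, u ≠ v := self_mem_nhdsWithin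
  have hX' : ∀ᶠ u in 𝓝[≠] v, X u = (((u - v) ^ n : ℝ) : ℂ) * k u :=
    hX.filter_mono nhdsWithin_le_nhds
  -- `k v` is real
  have him : (k v).im = 0 := by
    have h1 : Tendsto (fun u => (k u).im) (𝓝[≠] v) (𝓝 (k v).im) :=
      (continuous_im.continuousAt.comp hkc).tendsto.mono_left nhdsWithin_le_nhds
    have h2 : (fun u => (k u).im) =ᶠ[𝓝[≠] v] fun _ => 0 := by
      filter_upwards [hX', hne] with u hu huv
      have h3 : (X u).im = 0 := conj_eq_iff_im.1 (X_conj u)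
      rw [hu, im_ofReal_mul] at h3
      exact (mul_eq_zero.1 h3).resolve_left (pow_ne_zero _ (sub_ne_zero.2 huv))
    exact tendsto_nhds_unique (h1.congr' h2) tendsto_const_nhds
  have hre : (k v).re ≠ 0 := fun h0 => hk0 (Complex.ext h0 him)
  have hkre : Tendsto (fun u => (k u).re) (𝓝[≠] v) (𝓝 (k v).re) :=
    (continuous_re.continuousAt.comp hkc).tendsto.mono_left nhdsWithin_le_nhds
  rcases lt_or_gt_of_ne hre with h0 | h0
  · right
    filter_upwards [hX', hne, hkre.eventually_lt_const h0] with u hu huv h3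
    rw [hu, re_ofReal_mul]
    exact mul_neg_of_pos_of_neg (heven.pow_pos (sub_ne_zero.2 huv)) h3
  · left
    filter_upwards [hX', hne, hkre.eventually_const_lt h0] with u hu huv h3
    rw [hu, re_ofReal_mul]
    exact mul_pos (heven.pow_pos (sub_ne_zero.2 huv)) h3

theorem isOpen_punctured {p : ℝ → Prop} : IsOpen {v : ℝ | ∀ᶠ u in 𝓝[≠] v, p u} := by
  rw [isOpen_iff_mem_nhds]
  intro v hv
  have hv' : ∀ᶠ u in 𝓝[≠] v, p u := hv
  have h1 : ∀ᶠ y in 𝓝[≠] v, ∀ᶠ x in 𝓝 y, p x :=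
    (eventually_nhdsWithin_eventually_nhds_iff_of_isOpen isOpen_compl_singleton).2 hv'
  have h2 : ∀ᶠ y in 𝓝 v, y ∈ ({v}ᶜ : Set ℝ) → ∀ᶠ x in 𝓝 y, p x :=
    eventually_nhdsWithin_iff.1 h1
  filter_upwards [h2] with y hy
  by_cases hyv : y = v
  · rw [hyv]
    exact hv
  · exact (hy hyv).filter_mono nhdsWithin_le_nhds

/-- without zeros of odd order there is no change of sign -/
theorem constSign_of_even {a b : ℝ} (hab : a < b)
    (h : ∀ v, a < v → v < b → ¬ Odd (analyticOrderNatAt riemannZeta (1 / 2 + 2 * v * I))) :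
    ConstSign a b := by
  have hc : Continuous fun u => (X u).re := continuous_re.comp continuous_X
  set P : Set ℝ := {v : ℝ | ∀ᶠ u in 𝓝[≠] v, 0 < (X u).re} with hP
  set Q : Set ℝ := {v : ℝ | ∀ᶠ u in 𝓝[≠] v, (X u).re < 0} with hQ
  have hd : Disjoint P Q := by
    rw [Set.disjoint_left]
    intro v h1 h2
    have h1' : ∀ᶠ u in 𝓝[≠] v, 0 < (X u).re := h1
    have h2' : ∀ᶠ u in 𝓝[≠] v, (X u).re < 0 := h2
    obtain ⟨u, hu1, hu2⟩ := (h1'.and h2').exists
    linarith
  have hsub : Ioo a b ⊆ P ∪ Q := fun v hv => sign_of_even (h v hv.1 hv.2)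
  rcases IsPreconnected.subset_or_subset isOpen_punctured isOpen_punctured hd hsub
    isPreconnected_Ioo with h1 | h1
  · refine ⟨1, Or.inl rfl, fun u hu hu' => ?_⟩
    have h2 : ∀ᶠ y in 𝓝[≠] u, 0 < (X y).re := h1 ⟨hu, hu'⟩
    have h3 : 0 ≤ (X u).re := ge_of_tendsto (hc.continuousAt.tendsto.mono_left
      nhdsWithin_le_nhds) (h2.mono fun y hy => hy.le)
    rw [abs_of_nonneg h3, one_mul]
  · refine ⟨-1, Or.inr rfl, fun u hu hu' => ?_⟩
    have h2 : ∀ᶠ y in 𝓝[≠] u, (X y).re < 0 := h1 ⟨hu, hu'⟩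
    have h3 : (X u).re ≤ 0 := le_of_tendsto (hc.continuousAt.tendsto.mono_left
      nhdsWithin_le_nhds) (h2.mono fun y hy => hy.le)
    rw [abs_of_nonpos h3, neg_one_mul]

/-- a point of odd order is a zero -/
theorem zero_of_odd {s : ℂ} (h : Odd (analyticOrderNatAt riemannZeta s)) : riemannZeta s = 0 := by
  have h1 : analyticOrderAt riemannZeta s ≠ 0 := by
    intro h0
    rw [analyticOrderNatAt, h0, ENat.toNat_zero] at h
    exact absurd h (by decide)
  exact (analyticOrderAt_ne_zero.1 h1).2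

/-- **The theorem of Hardy and Littlewood, for the zeros of odd order** -/
def OddStmt : Prop := ∃ c : ℝ, 0 < c ∧ ∃ T₀ : ℝ, ∀ T : ℝ, T₀ ≤ T →
  {t : ℝ | 0 < t ∧ t ≤ T ∧ Odd (analyticOrderNatAt riemannZeta (1 / 2 + t * I))}.Finite ∧
  c * T ≤ ({t : ℝ | 0 < t ∧ t ≤ T ∧
    Odd (analyticOrderNatAt riemannZeta (1 / 2 + t * I))}.ncard : ℝ)

theorem oddStmt (hP : PsiStmt) (hG : GammaStmt) (hU : UpperStmt) : OddStmt := by
  have hfin : ∀ T : ℝ, {t : ℝ | 0 < t ∧ t ≤ T ∧
      Odd (analyticOrderNatAt riemannZeta (1 / 2 + t * I))}.Finite := fun T =>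
    (finite_zeros T).subset fun t ht => ⟨ht.1, ht.2.1, zero_of_odd ht.2.2⟩
  obtain ⟨H, hH, T₁, hcore⟩ := core hP hG hU
  refine ⟨1 / (16 * H), by positivity, 4 * T₁, fun T' hT' => ⟨hfin T', ?_⟩⟩
  set T : ℝ := T' / 4 with hTdef
  have hT'eq : T' = 4 * T := by rw [hTdef]; ring
  obtain ⟨hT0, M, G, hM, hG', hcard, hG2⟩ := hcore T (by rw [hTdef]; linarith)
  have hgood : G.card ≤ {t : ℝ | 0 < t ∧ t ≤ 4 * T ∧
      Odd (analyticOrderNatAt riemannZeta (1 / 2 + t * I))}.ncard := by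
    refine card_good_le (T := T) hH (hfin (4 * T)) fun j hj => ?_
    by_contra hcon
    push Not at hcon
    refine hG2 j hj (constSign_of_even (by nlinarith) fun u h1 h2 h3 => hcon u h1 h2 ?_)
    obtain ⟨h4, h5⟩ := interval_bound hT0 hH hM (hG' hj) h1 h2
    refine ⟨h4, h5, ?_⟩
    push_cast
    exact h3
  have h4 : (G.card : ℝ) ≤ ({t : ℝ | 0 < t ∧ t ≤ 4 * T ∧
      Odd (analyticOrderNatAt riemannZeta (1 / 2 + t * I))}.ncard : ℝ) := by
    exact_mod_cast hgood
  rw [hT'eq]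
  refine le_trans ?_ h4
  refine le_trans (le_of_eq ?_) hcard
  field_simp
  norm_num

end Fermat.Agent.Cor.HL

end
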