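import Fermat.Agent.Corollaries.ZetaK.HL.Main
import Fermat.Agent.Corollaries.ZetaK.HL.Odd

/-!
# The theorem of Hardy and Littlewood for the zeros of odd order, unconditional

A positive multiple of `T` of the zeros of the Riemann zeta function of ODD order (so in particular of
the simple ones and the triple ones together) lie on the critical line up to height `T`.
-/

set_option autoImplicit false

noncomputable section

namespace Fermat.Agent.Cor.HL

open Complex

/-- **Hardy and Littlewood (1921), for the zeros of odd order**: there is a constant `c > 0` such that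
for all large `T` the Riemann zeta function has at least `c T` distinct zeros `1/2 + i t` of odd order
with `0 < t ≤ T`. -/
theorem hardy_littlewood_odd : ∃ c : ℝ, 0 < c ∧ ∃ T₀ : ℝ, ∀ T : ℝ, T₀ ≤ T →
    {t : ℝ | 0 < t ∧ t ≤ T ∧ Odd (analyticOrderNatAt riemannZeta (1 / 2 + t * I))}.Finite ∧
    c * T ≤ ({t : ℝ | 0 < t ∧ t ≤ T ∧
      Odd (analyticOrderNatAt riemannZeta (1 / 2 + t * I))}.ncard : ℝ) :=
  oddStmt (psiStmt (approxStmt emStmt oscStmt) meanStmt logStmt) gammaStmt upperStmt

end Fermat.Agent.Cor.HL

end
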