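import Fermat.Agent.Corollaries.ZetaK.HL.Defs

/-!
# The first derivative test for `e^{-i λ e^v}`
-/

set_option autoImplicit false

noncomputable section

namespace Fermat.Agent.Cor.HL

open Complex Real Filter Topology Set MeasureTheory

/-- the weight `H² / (1 + H² v²)` -/
def wt (H v : ℝ) : ℝ := H ^ 2 / (1 + H ^ 2 * v ^ 2)

theorem wt_den_pos (H v : ℝ) : 0 < 1 + H ^ 2 * v ^ 2 := by positivity

theorem wt_nonneg (H v : ℝ) : 0 ≤ wt H v := by
  rw [wt]; positivity

theorem wt_le (H v : ℝ) : wt H v ≤ H ^ 2 := by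
  rw [wt, div_le_iff₀ (wt_den_pos H v)]
  nlinarith [sq_nonneg (H * v), sq_nonneg H, mul_nonneg (sq_nonneg H) (sq_nonneg (H * v))]

theorem continuous_wt (H : ℝ) : Continuous (wt H) := by
  unfold wt
  exact continuous_const.div (by fun_prop) fun v => (wt_den_pos H v).ne'

theorem hasDerivAt_wt (H v : ℝ) :
    HasDerivAt (wt H) (-(H ^ 2 * (2 * H ^ 2 * v)) / (1 + H ^ 2 * v ^ 2) ^ 2) v := by
  have h1 : HasDerivAt (fun v : ℝ => 1 + H ^ 2 * v ^ 2) (2 * H ^ 2 * v) v := by
    have h := ((hasDerivAt_pow 2 v).const_mul (H ^ 2)).const_add 1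
    refine h.congr_deriv ?_
    norm_num
    ring
  have h2 := (hasDerivAt_const v (H ^ 2)).div h1 (wt_den_pos H v).ne'
  refine h2.congr_deriv ?_
  rw [zero_mul, zero_sub]

/-- the amplitude -/
def amp (H b v : ℝ) : ℝ := Real.exp (-(v / 2) - b * Real.exp v) * wt H v

theorem amp_nonneg (H b v : ℝ) : 0 ≤ amp H b v := mul_nonneg (Real.exp_pos _).le (wt_nonneg H v)

def amp' (H b v : ℝ) : ℝ :=
  Real.exp (-(v / 2) - b * Real.exp v) * (-(1 / 2) - b * Real.exp v) * wt H v +
    Real.exp (-(v / 2) - b * Real.exp v) * (-(H ^ 2 * (2 * H ^ 2 * v)) / (1 + H ^ 2 * v ^ 2) ^ 2)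

theorem hasDerivAt_amp (H b v : ℝ) : HasDerivAt (amp H b) (amp' H b v) v := by
  have h1 : HasDerivAt (fun v : ℝ => -(v / 2) - b * Real.exp v) (-(1 / 2) - b * Real.exp v) v := by
    have h := ((hasDerivAt_id v).div_const 2).neg.sub ((Real.hasDerivAt_exp v).const_mul b)
    exact h
  exact h1.exp.mul (hasDerivAt_wt H v)

theorem amp'_nonpos {H b v : ℝ} (hb : 0 ≤ b) (hv : 0 ≤ v) : amp' H b v ≤ 0 := by
  have h1 := (Real.exp_pos (-(v / 2) - b * Real.exp v)).le
  have h2 := (Real.exp_pos v).le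
  have h3 := wt_nonneg H v
  have h4 : 0 ≤ H ^ 2 * (2 * H ^ 2 * v) / (1 + H ^ 2 * v ^ 2) ^ 2 := by positivity
  have h5 : 0 ≤ b * Real.exp v := mul_nonneg hb h2
  rw [amp', neg_div]
  have h6 : 0 ≤ Real.exp (-(v / 2) - b * Real.exp v) * (1 / 2 + b * Real.exp v) * wt H v := by
    positivity
  have h7 : 0 ≤ Real.exp (-(v / 2) - b * Real.exp v) *
    (H ^ 2 * (2 * H ^ 2 * v) / (1 + H ^ 2 * v ^ 2) ^ 2) := by positivity
  linarith

theorem amp_le {H b v : ℝ} (hb : 0 ≤ b) : amp H b v ≤ H ^ 2 * Real.exp (-(1 / 2) * v) := by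
  rw [amp]
  have h1 : Real.exp (-(v / 2) - b * Real.exp v) ≤ Real.exp (-(1 / 2) * v) := by
    refine Real.exp_le_exp.mpr ?_
    have := mul_nonneg hb (Real.exp_pos v).le
    linarith
  calc _ ≤ Real.exp (-(1 / 2) * v) * H ^ 2 := by
        gcongr
        · exact wt_nonneg H v
        · exact wt_le H v
    _ = _ := mul_comm _ _

theorem tendsto_amp {H b : ℝ} (hb : 0 ≤ b) : Tendsto (amp H b) atTop (𝓝 0) := by
  refine squeeze_zero (fun v => amp_nonneg H b v) (fun v => amp_le hb) ?_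
  have h1 : Tendsto (fun v : ℝ => -(1 / 2) * v) atTop atBot :=
    tendsto_id.const_mul_atTop_of_neg (by norm_num)
  have h2 := (Real.tendsto_exp_atBot.comp h1).const_mul (H ^ 2)
  simp only [mul_zero] at h2
  exact h2

theorem integrableOn_amp' {H b : ℝ} (hb : 0 ≤ b) : IntegrableOn (amp' H b) (Ioi 0) :=
  integrableOn_Ioi_deriv_of_nonpos' (fun v _ => hasDerivAt_amp H b v)
    (fun _ hv => amp'_nonpos hb (le_of_lt hv)) (tendsto_amp hb)

theorem integral_amp' {H b : ℝ} (hb : 0 ≤ b) : ∫ v in Ioi 0, amp' H b v = -amp H b 0 := by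
  rw [integral_Ioi_of_hasDerivAt_of_nonpos' (fun v _ => hasDerivAt_amp H b v)
    (fun _ hv => amp'_nonpos hb (le_of_lt hv)) (tendsto_amp hb), zero_sub]

theorem integrableOn_amp_exp {H b : ℝ} (hb : 0 < b) :
    IntegrableOn (fun v => amp H b v * Real.exp v) (Ioi 0) := by
  have h1 : IntegrableOn (fun v : ℝ => H ^ 2 * Real.exp (-1 - Real.log b) *
      Real.exp (-(1 / 2) * v)) (Ioi 0) :=
    (integrableOn_exp_mul_Ioi (by norm_num) 0).const_mul _
  refine h1.mono' ?_ (Eventually.of_forall fun v => ?_)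
  · have : Continuous fun v => amp H b v * Real.exp v := by
      unfold amp
      exact ((Real.continuous_exp.comp (by fun_prop)).mul (continuous_wt H)).mul Real.continuous_exp
    exact this.aestronglyMeasurable
  · rw [Real.norm_eq_abs, abs_of_nonneg (mul_nonneg (amp_nonneg H b v) (Real.exp_pos v).le), amp]
    have h2 : Real.log (b * Real.exp v) ≤ b * Real.exp v - 1 :=
      Real.log_le_sub_one_of_pos (by positivity)
    rw [Real.log_mul hb.ne' (Real.exp_pos v).ne', Real.log_exp] at h2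
    have h3 : Real.exp (-(v / 2) - b * Real.exp v) * Real.exp v ≤
        Real.exp (-1 - Real.log b) * Real.exp (-(1 / 2) * v) := by
      rw [← Real.exp_add, ← Real.exp_add]
      exact Real.exp_le_exp.mpr (by linarith)
    calc Real.exp (-(v / 2) - b * Real.exp v) * wt H v * Real.exp v
        = wt H v * (Real.exp (-(v / 2) - b * Real.exp v) * Real.exp v) := by ring
      _ ≤ H ^ 2 * (Real.exp (-1 - Real.log b) * Real.exp (-(1 / 2) * v)) :=
          mul_le_mul (wt_le H v) h3 (by positivity) (sq_nonneg H)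
      _ = _ := by ring

/-- **first derivative test** -/
theorem norm_integral_amp_le {H b lam : ℝ} (hb : 0 < b) (hl : lam ≠ 0) :
    ‖∫ v in Ioi (0 : ℝ), ((amp H b v * Real.exp v : ℝ) : ℂ) * cexp (-(lam * Real.exp v * I))‖ ≤
      2 * (H ^ 2 * Real.exp (-b)) / |lam| := by
  have hlI : (-(lam * I) : ℂ) ≠ 0 := by
    simp [hl]
  set U : ℝ → ℂ := fun v => (amp H b v : ℂ) * (cexp (-(lam * Real.exp v * I)) / (-(lam * I))) with hU
  have hE : ∀ v : ℝ, HasDerivAt (fun v : ℝ => cexp (-(lam * Real.exp v * I)))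
      (cexp (-(lam * Real.exp v * I)) * (-(lam * Real.exp v * I))) v := by
    intro v
    have h1 : HasDerivAt (fun v : ℝ => ((Real.exp v : ℝ) : ℂ)) ((Real.exp v : ℝ) : ℂ) v :=
      (Real.hasDerivAt_exp v).ofReal_comp
    have h2 : HasDerivAt (fun v : ℝ => -(lam * (Real.exp v : ℂ) * I)) (-(lam * (Real.exp v : ℂ) * I)) v :=
      ((h1.const_mul (lam : ℂ)).mul_const I).neg
    exact h2.cexp
  have hd : ∀ v ∈ Ici (0 : ℝ), HasDerivAt U
      ((amp' H b v : ℂ) * (cexp (-(lam * Real.exp v * I)) / (-(lam * I))) +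
        ((amp H b v * Real.exp v : ℝ) : ℂ) * cexp (-(lam * Real.exp v * I))) v := by
    intro v _
    have h := (hasDerivAt_amp H b v).ofReal_comp.mul ((hE v).div_const (-(lam * I)))
    refine h.congr_deriv ?_
    have e : cexp (-(lam * Real.exp v * I)) * (-(lam * Real.exp v * I)) / (-(lam * I)) =
        (Real.exp v : ℂ) * cexp (-(lam * Real.exp v * I)) := by
      rw [div_eq_iff hlI]
      ring
    rw [e, ofReal_mul]
    ring
  have hnE : ∀ v : ℝ, ‖cexp (-(lam * Real.exp v * I))‖ = 1 := by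
    intro v
    rw [show (-(lam * Real.exp v * I) : ℂ) = ((-(lam * Real.exp v) : ℝ) : ℂ) * I by push_cast; ring]
    exact norm_exp_ofReal_mul_I _
  have hnI : ‖(-(lam * I) : ℂ)‖ = |lam| := by
    rw [norm_neg, norm_mul, norm_I, mul_one, norm_real, Real.norm_eq_abs]
  have hl0 : 0 < |lam| := abs_pos.mpr hl
  have hint1 : IntegrableOn (fun v => (amp' H b v : ℂ) *
      (cexp (-(lam * Real.exp v * I)) / (-(lam * I)))) (Ioi 0) := by
    have h := ((integrableOn_amp' (H := H) hb.le).norm.mul_const (1 / |lam|))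
    refine h.mono' ?_ (Eventually.of_forall fun v => ?_)
    · refine AEStronglyMeasurable.mul ?_ ?_
      · exact continuous_ofReal.comp_aestronglyMeasurable (integrableOn_amp' (H := H) hb.le).1
      · exact Continuous.aestronglyMeasurable (by fun_prop)
    · rw [norm_mul, norm_div, hnE, hnI, norm_real]
  have hint2 : IntegrableOn (fun v => ((amp H b v * Real.exp v : ℝ) : ℂ) *
      cexp (-(lam * Real.exp v * I))) (Ioi 0) := by
    refine (integrableOn_amp_exp (H := H) hb).norm.mono' ?_ (Eventually.of_forall fun v => ?_)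
    · refine AEStronglyMeasurable.mul ?_ ?_
      · exact continuous_ofReal.comp_aestronglyMeasurable (integrableOn_amp_exp (H := H) hb).1
      · exact Continuous.aestronglyMeasurable (by fun_prop)
    · rw [norm_mul, hnE, mul_one, norm_real]
  have htend : Tendsto U atTop (𝓝 0) := by
    rw [tendsto_zero_iff_norm_tendsto_zero]
    have h := (tendsto_amp (H := H) hb.le).mul_const (1 / |lam|)
    rw [zero_mul] at h
    refine h.congr fun v => ?_
    rw [hU]
    simp only
    rw [norm_mul, norm_div, hnE, hnI, norm_real, Real.norm_eq_abs, abs_of_nonneg (amp_nonneg H b v)]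
  have hI := integral_Ioi_of_hasDerivAt_of_tendsto' hd (hint1.add hint2) htend
  rw [integral_add hint1 hint2, zero_sub] at hI
  have hI' : ∫ v in Ioi (0 : ℝ), ((amp H b v * Real.exp v : ℝ) : ℂ) * cexp (-(lam * Real.exp v * I)) =
      -U 0 - ∫ v in Ioi (0 : ℝ), (amp' H b v : ℂ) * (cexp (-(lam * Real.exp v * I)) / (-(lam * I))) := by
    rw [← hI]; ring
  have ha0 : amp H b 0 = H ^ 2 * Real.exp (-b) := by
    rw [amp, wt]
    simp [mul_comm]
  have hU0 : ‖U 0‖ = H ^ 2 * Real.exp (-b) / |lam| := by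
    rw [hU]
    simp only
    rw [norm_mul, norm_div, hnE, hnI, norm_real, Real.norm_eq_abs, abs_of_nonneg (amp_nonneg H b 0),
      ha0]
    ring
  have hrest : ‖∫ v in Ioi (0 : ℝ), (amp' H b v : ℂ) *
      (cexp (-(lam * Real.exp v * I)) / (-(lam * I)))‖ ≤ H ^ 2 * Real.exp (-b) / |lam| := by
    have h1 : ∫ v in Ioi (0 : ℝ), -amp' H b v * (1 / |lam|) = H ^ 2 * Real.exp (-b) / |lam| := by
      rw [integral_mul_const, integral_neg, integral_amp' hb.le, ha0]
      ring
    rw [← h1]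
    refine norm_integral_le_of_norm_le (((integrableOn_amp' (H := H) hb.le).neg).mul_const _) ?_
    refine (ae_restrict_iff' measurableSet_Ioi).mpr (Eventually.of_forall fun v hv => ?_)
    rw [norm_mul, norm_div, hnE, hnI, norm_real, Real.norm_eq_abs,
      abs_of_nonpos (amp'_nonpos hb.le (le_of_lt hv))]
  rw [hI']
  refine (norm_sub_le _ _).trans ?_
  rw [norm_neg, hU0]
  calc _ ≤ H ^ 2 * Real.exp (-b) / |lam| + H ^ 2 * Real.exp (-b) / |lam| := by gcongr
    _ = _ := by ring

end Fermat.Agent.Cor.HL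

end
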