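import Fermat.Agent.Corollaries.ZetaK.HL.OscExp

/-!
# The mean square of the theta function with the weight `H² / (1 + H² v²)`
-/

set_option autoImplicit false

noncomputable section

namespace Fermat.Agent.Cor.HL

open Complex Real Filter Topology Set MeasureTheory ComplexConjugate

open Fermat.Agent.Cor.Hardy (X th hasSum_th)

/-- the terms of the theta function -/
def tm (φ : ℝ) (n : ℕ) (v : ℝ) : ℂ :=
  cexp (-(π * ((n : ℂ) + 1) ^ 2 * (cexp (φ * I) * (Real.exp v : ℂ))))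

def bb (φ : ℝ) (m n : ℕ) : ℝ := π * (((m : ℝ) + 1) ^ 2 + ((n : ℝ) + 1) ^ 2) * Real.cos φ

def ll (φ : ℝ) (m n : ℕ) : ℝ := π * (((m : ℝ) + 1) ^ 2 - ((n : ℝ) + 1) ^ 2) * Real.sin φ

theorem bb_pos {φ : ℝ} (hc : 0 < Real.cos φ) (m n : ℕ) : 0 < bb φ m n := by
  unfold bb
  positivity

theorem exp_phi (φ : ℝ) : cexp (φ * I) = (Real.cos φ : ℂ) + (Real.sin φ : ℂ) * I := by
  rw [exp_mul_I, ofReal_cos, ofReal_sin]

theorem tm_mul_conj (φ : ℝ) (m n : ℕ) (v : ℝ) :
    tm φ m v * conj (tm φ n v) =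
      (Real.exp (-(bb φ m n * Real.exp v)) : ℂ) * cexp (-(ll φ m n * Real.exp v * I)) := by
  unfold tm
  generalize Real.exp v = E
  rw [← exp_conj, ← Complex.exp_add, ofReal_exp, ← Complex.exp_add, exp_phi]
  congr 1
  simp only [map_neg, map_mul, map_pow, map_add, conj_ofReal, conj_I, map_one, map_natCast]
  rw [bb, ll]
  push_cast
  ring

theorem norm_tm (φ : ℝ) (n : ℕ) (v : ℝ) :
    ‖tm φ n v‖ = Real.exp (-(π * Real.cos φ * Real.exp v) * ((n : ℝ) + 1) ^ 2) := by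
  rw [tm, Complex.norm_exp]
  congr 1
  rw [exp_phi]
  have e : (-(π * ((n : ℂ) + 1) ^ 2 * (((Real.cos φ : ℂ) + (Real.sin φ : ℂ) * I) * (Real.exp v : ℂ)))) =
      ((-(π * Real.cos φ * Real.exp v) * ((n : ℝ) + 1) ^ 2 : ℝ) : ℂ) +
        ((-(π * Real.sin φ * Real.exp v) * ((n : ℝ) + 1) ^ 2 : ℝ) : ℂ) * I := by
    push_cast
    ring
  rw [e, add_re, re_ofReal_mul, I_re, mul_zero, add_zero, ofReal_re]

/-- Gaussian sums are at most Gaussian integrals -/
theorem sum_gauss_le {a : ℝ} (ha : 0 < a) (N : ℕ) :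
    ∑ m ∈ Finset.range N, Real.exp (-a * ((m : ℝ) + 1) ^ 2) ≤ √(π / a) / 2 := by
  have h1 : AntitoneOn (fun x : ℝ => Real.exp (-a * x ^ 2)) (Icc (0 : ℝ) (0 + (N : ℕ))) := by
    intro x hx y hy hxy
    refine Real.exp_le_exp.mpr ?_
    have h2 : x ^ 2 ≤ y ^ 2 := by
      have := hx.1
      nlinarith
    nlinarith
  have h2 := h1.sum_le_integral
  simp only [zero_add] at h2
  have h3 : ∫ x in (0 : ℝ)..N, Real.exp (-a * x ^ 2) ≤ √(π / a) / 2 := by
    rw [← integral_gaussian_Ioi a, intervalIntegral.integral_of_le (Nat.cast_nonneg N)]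
    exact setIntegral_mono_set (integrableOn_Ioi_exp_neg_mul_sq_iff.mpr ha)
      (Eventually.of_forall fun _ => (Real.exp_pos _).le)
      (Eventually.of_forall Ioc_subset_Ioi_self)
  refine le_trans (le_of_eq ?_) (h2.trans h3)
  refine Finset.sum_congr rfl fun m _ => ?_
  push_cast
  rfl

theorem integrable_wt {H : ℝ} (hH : 0 < H) : IntegrableOn (wt H) (Ioi 0) ∧
    ∫ v in Ioi (0 : ℝ), wt H v = H * (π / 2) := by
  have e : ∀ v : ℝ, wt H v = H ^ 2 * (fun x : ℝ => (1 + x ^ 2)⁻¹) (H * v) := by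
    intro v
    simp only
    rw [wt, mul_pow, div_eq_mul_inv]
  have h1 : IntegrableOn (fun v : ℝ => (fun x : ℝ => (1 + x ^ 2)⁻¹) (H * v)) (Ioi 0) := by
    exact (integrable_inv_one_add_sq.comp_mul_left' hH.ne').integrableOn
  constructor
  · have h2 : IntegrableOn (fun v : ℝ => H ^ 2 * (fun x : ℝ => (1 + x ^ 2)⁻¹) (H * v)) (Ioi 0) :=
      h1.const_mul _
    exact h2.congr_fun (fun v _ => (e v).symm) measurableSet_Ioi
  · rw [setIntegral_congr_fun measurableSet_Ioi (fun v _ => e v), integral_const_mul,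
      integral_comp_mul_left_Ioi (fun x : ℝ => (1 + x ^ 2)⁻¹) 0 hH, mul_zero,
      integral_Ioi_inv_one_add_sq, Real.arctan_zero, sub_zero, smul_eq_mul]
    field_simp

/-- the (finite) sums -/
def SN (φ : ℝ) (N : ℕ) (v : ℝ) : ℂ := ∑ n ∈ Finset.range N, tm φ n v

def term (H φ : ℝ) (m n : ℕ) (v : ℝ) : ℂ :=
  ((amp H (bb φ m n) v * Real.exp v : ℝ) : ℂ) * cexp (-(ll φ m n * Real.exp v * I))

theorem term_eq (H φ : ℝ) (m n : ℕ) (v : ℝ) :
    term H φ m n v = ((wt H v * Real.exp (v / 2) : ℝ) : ℂ) * (tm φ m v * conj (tm φ n v)) := by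
  have h1 : Real.exp (-(v / 2) - bb φ m n * Real.exp v) * Real.exp v =
      Real.exp (v / 2) * Real.exp (-(bb φ m n * Real.exp v)) := by
    rw [← Real.exp_add, ← Real.exp_add]
    congr 1
    ring
  have h2 : amp H (bb φ m n) v * Real.exp v =
      wt H v * Real.exp (v / 2) * Real.exp (-(bb φ m n * Real.exp v)) := by
    rw [amp]
    linear_combination wt H v * h1
  rw [term, tm_mul_conj, h2, ofReal_mul (wt H v * Real.exp (v / 2)), mul_assoc]

theorem sq_SN (H φ : ℝ) (N : ℕ) (v : ℝ) :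
    ((wt H v * Real.exp (v / 2) * ‖SN φ N v‖ ^ 2 : ℝ) : ℂ) =
      ∑ m ∈ Finset.range N, ∑ n ∈ Finset.range N, term H φ m n v := by
  have h1 : ((‖SN φ N v‖ ^ 2 : ℝ) : ℂ) = SN φ N v * conj (SN φ N v) := by
    rw [mul_conj, normSq_eq_norm_sq]
  rw [ofReal_mul, h1, SN, map_sum, Finset.sum_mul_sum, Finset.mul_sum]
  refine Finset.sum_congr rfl fun m _ => ?_
  rw [Finset.mul_sum]
  exact Finset.sum_congr rfl fun n _ => (term_eq H φ m n v).symm

theorem integrableOn_term (H : ℝ) {φ : ℝ} (hc : 0 < Real.cos φ) (m n : ℕ) :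
    IntegrableOn (term H φ m n) (Ioi 0) := by
  have hb := bb_pos hc m n
  refine (integrableOn_amp_exp (H := H) hb).norm.mono' ?_ (Eventually.of_forall fun v => ?_)
  · refine AEStronglyMeasurable.mul ?_ ?_
    · exact continuous_ofReal.comp_aestronglyMeasurable (integrableOn_amp_exp (H := H) hb).1
    · exact Continuous.aestronglyMeasurable (by fun_prop)
  · rw [term, norm_mul, norm_real]
    rw [show (-(ll φ m n * Real.exp v * I) : ℂ) = ((-(ll φ m n * Real.exp v) : ℝ) : ℂ) * I by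
      push_cast; ring, norm_exp_ofReal_mul_I, mul_one]

/-- the exponents in the off-diagonal terms -/
theorem rpow_mul_rpow_le {a b M : ℝ} (ha : 0 < a) (hb : 0 < b) (haM : a ≤ M) (hbM : b ≤ M) :
    a ^ (1 / 4 : ℝ) * b ^ (3 / 4 : ℝ) ≤ M := by
  have hM : 0 < M := ha.trans_le haM
  calc a ^ (1 / 4 : ℝ) * b ^ (3 / 4 : ℝ) ≤ M ^ (1 / 4 : ℝ) * M ^ (3 / 4 : ℝ) := by gcongr
    _ = M := by
      rw [← Real.rpow_add hM]
      norm_num

/-- `|k|^{-5/4}` -/
def Fk (k : ℤ) : ℝ := |(k : ℝ)| ^ (-(5 / 4) : ℝ)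

theorem Fk_nonneg (k : ℤ) : 0 ≤ Fk k := by unfold Fk; positivity

theorem summable_Fk : Summable Fk := Real.summable_abs_int_rpow (by norm_num)

/-- `M^{-3/4} e^{-π M² c}`, `M = m + 1` -/
def Em (c : ℝ) (m : ℕ) : ℝ :=
  ((m : ℝ) + 1) ^ (-(3 / 4) : ℝ) * Real.exp (-(π * c) * ((m : ℝ) + 1) ^ 2)

theorem Em_nonneg (c : ℝ) (m : ℕ) : 0 ≤ Em c m := by unfold Em; positivity

theorem norm_integral_term_le {H φ : ℝ} (hc : 0 < Real.cos φ) (hs : 1 / 3 ≤ Real.sin φ) {m n : ℕ}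
    (hmn : m ≠ n) :
    ‖∫ v in Ioi (0 : ℝ), term H φ m n v‖ ≤
      2 * H ^ 2 * (Em (Real.cos φ) m * Fk ((m : ℤ) - n)) := by
  have hpi := Real.pi_gt_three
  set d : ℝ := |(m : ℝ) - n| with hd
  have hd0 : 0 < d := by
    rw [hd, abs_pos, sub_ne_zero]
    exact_mod_cast hmn
  set M : ℝ := (m : ℝ) + 1 with hM
  set K : ℝ := (n : ℝ) + 1 with hK
  have hM0 : 0 < M := by positivity
  have hK0 : 0 < K := by positivity
  have hdMK : d ≤ M + K := by
    rw [hd, abs_le]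
    constructor <;> rw [hM, hK] <;> [have := (Nat.cast_nonneg m : (0:ℝ) ≤ m);
      have := (Nat.cast_nonneg n : (0:ℝ) ≤ n)] <;>
      [have h2 := (Nat.cast_nonneg n : (0:ℝ) ≤ n); have h2 := (Nat.cast_nonneg m : (0:ℝ) ≤ m)] <;>
      linarith
  have hll : |ll φ m n| = π * (d * (M + K)) * Real.sin φ := by
    rw [ll, abs_mul, abs_mul, abs_of_pos Real.pi_pos, abs_of_pos (show 0 < Real.sin φ by linarith)]
    congr 2
    rw [show ((m : ℝ) + 1) ^ 2 - ((n : ℝ) + 1) ^ 2 = ((m : ℝ) - n) * (M + K) by rw [hM, hK]; ring,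
      abs_mul, abs_of_pos (show 0 < M + K by positivity)]
  have hlow : d ^ (5 / 4 : ℝ) * M ^ (3 / 4 : ℝ) ≤ |ll φ m n| := by
    have h1 := rpow_mul_rpow_le hd0 hM0 hdMK (show M ≤ M + K by linarith)
    have h2 : d ^ (5 / 4 : ℝ) = d * d ^ (1 / 4 : ℝ) := by
      rw [show (5 / 4 : ℝ) = 1 + 1 / 4 by norm_num, Real.rpow_add hd0, Real.rpow_one]
    rw [hll, h2]
    have h3 : 1 ≤ π * Real.sin φ := by nlinarith
    calc d * d ^ (1 / 4 : ℝ) * M ^ (3 / 4 : ℝ) = d * (d ^ (1 / 4 : ℝ) * M ^ (3 / 4 : ℝ)) := by ring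
      _ ≤ d * (M + K) := by gcongr
      _ = 1 * (d * (M + K)) := by ring
      _ ≤ (π * Real.sin φ) * (d * (M + K)) := by gcongr
      _ = _ := by ring
  have hl0 : 0 < |ll φ m n| := lt_of_lt_of_le (by positivity) hlow
  have h1 := norm_integral_amp_le (H := H) (bb_pos hc m n) (abs_pos.mp hl0)
  refine h1.trans ?_
  have hE : Real.exp (-(bb φ m n)) ≤ Real.exp (-(π * Real.cos φ) * M ^ 2) := by
    refine Real.exp_le_exp.mpr ?_
    rw [bb]
    have : 0 ≤ π * Real.cos φ * K ^ 2 := by positivity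
    rw [hM, hK] at *
    nlinarith
  have hF : Fk ((m : ℤ) - n) = d ^ (-(5 / 4) : ℝ) := by
    rw [Fk, hd]
    push_cast
    rfl
  rw [Em, hF]
  have h2 : 2 * (H ^ 2 * Real.exp (-(bb φ m n))) / |ll φ m n| ≤
      2 * (H ^ 2 * Real.exp (-(π * Real.cos φ) * M ^ 2)) / (d ^ (5 / 4 : ℝ) * M ^ (3 / 4 : ℝ)) := by
    gcongr
  refine h2.trans (le_of_eq ?_)
  rw [Real.rpow_neg hd0.le, Real.rpow_neg hM0.le]
  have hd1 : d ^ (5 / 4 : ℝ) ≠ 0 := by positivity
  have hM1 : M ^ (3 / 4 : ℝ) ≠ 0 := by positivity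
  field_simp
  rw [hM]

theorem sum_Fk_le (N : ℕ) (m : ℕ) :
    ∑ n ∈ Finset.range N, Fk ((m : ℤ) - n) ≤ ∑' k : ℤ, Fk k := by
  have hinj : Set.InjOn (fun n : ℕ => (m : ℤ) - n) (Finset.range N : Set ℕ) := by
    intro a _ b _ hab
    simp only at hab
    omega
  rw [← Finset.sum_image (f := Fk) (g := fun n : ℕ => (m : ℤ) - n) hinj]
  exact summable_Fk.sum_le_tsum _ fun k _ => Fk_nonneg k

theorem summable_three_half : Summable fun m : ℕ => ((m : ℝ) + 1) ^ (-(3 / 2) : ℝ) := by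
  have h : Summable fun m : ℕ => (m : ℝ) ^ (-(3 / 2) : ℝ) :=
    Real.summable_nat_rpow.mpr (by norm_num)
  have h2 := (summable_nat_add_iff 1).mpr h
  refine h2.congr fun m => ?_
  push_cast
  rfl

theorem sum_Em_le {q : ℝ} (hq : 0 < q) (N : ℕ) :
    ∑ m ∈ Finset.range N, Em (q ^ 4) m ≤
      (1 + ∑' m : ℕ, ((m : ℝ) + 1) ^ (-(3 / 2) : ℝ)) / q := by
  have hpi := Real.pi_pos
  have hterm : ∀ m : ℕ, Em (q ^ 4) m ≤ q * Real.exp (-(π * q ^ 4) * ((m : ℝ) + 1) ^ 2) +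
      ((m : ℝ) + 1) ^ (-(3 / 2) : ℝ) / q := by
    intro m
    set M : ℝ := (m : ℝ) + 1 with hM
    have hM0 : 0 < M := by positivity
    rw [Em]
    set x : ℝ := Real.exp (-(π * q ^ 4) * M ^ 2) with hx
    have hx0 : 0 < x := Real.exp_pos _
    have hx1 : x ≤ 1 := by
      rw [hx]
      refine Real.exp_le_one_iff.mpr ?_
      have : 0 ≤ π * q ^ 4 * M ^ 2 := by positivity
      linarith
    set y : ℝ := M ^ (-(3 / 4) : ℝ) with hy
    have hy0 : 0 < y := by positivity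
    have hy2 : M ^ (-(3 / 2) : ℝ) = y ^ 2 := by
      rw [hy, ← Real.rpow_natCast, ← Real.rpow_mul hM0.le]
      norm_num
    rw [hy2]
    have h1 : q * (y * x) ≤ q * (q * x + y ^ 2 / q) := by
      have e : q * (q * x + y ^ 2 / q) = q ^ 2 * x + y ^ 2 := by
        field_simp
      rw [e]
      have h2 : (q * x) ^ 2 ≤ q ^ 2 * x := by
        have : x ^ 2 ≤ x := by nlinarith
        nlinarith [sq_nonneg q]
      nlinarith [sq_nonneg (q * x - y), sq_nonneg (q * x + y), sq_nonneg y, sq_nonneg (q*x)]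
    exact le_of_mul_le_mul_left h1 hq
  refine (Finset.sum_le_sum fun m _ => hterm m).trans ?_
  rw [Finset.sum_add_distrib, ← Finset.mul_sum, ← Finset.sum_div]
  have h1 := sum_gauss_le (a := π * q ^ 4) (by positivity) N
  have h2 : √(π / (π * q ^ 4)) = 1 / q ^ 2 := by
    rw [show π / (π * q ^ 4) = (1 / q ^ 2) ^ 2 by field_simp]
    exact Real.sqrt_sq (by positivity)
  rw [h2] at h1
  have h3 : ∑ m ∈ Finset.range N, ((m : ℝ) + 1) ^ (-(3 / 2) : ℝ) ≤
      ∑' m : ℕ, ((m : ℝ) + 1) ^ (-(3 / 2) : ℝ) :=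
    summable_three_half.sum_le_tsum _ fun m _ => by positivity
  calc _ ≤ q * (1 / q ^ 2 / 2) + (∑' m : ℕ, ((m : ℝ) + 1) ^ (-(3 / 2) : ℝ)) / q := by gcongr
    _ = (1 / 2 + ∑' m : ℕ, ((m : ℝ) + 1) ^ (-(3 / 2) : ℝ)) / q := by field_simp
    _ ≤ _ := by gcongr; norm_num

theorem term_self_re (H φ : ℝ) (m : ℕ) (v : ℝ) :
    term H φ m m v = ((amp H (bb φ m m) v * Real.exp v : ℝ) : ℂ) := by
  rw [term, ll, sub_self, mul_zero, zero_mul]
  simp

theorem sum_diag_le {H c : ℝ} {φ : ℝ} (hc : 0 < Real.cos φ) (hcc : Real.cos φ = c) (N : ℕ) (v : ℝ) :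
    ∑ m ∈ Finset.range N, amp H (bb φ m m) v * Real.exp v ≤ wt H v * (1 / √c) := by
  have hpi := Real.pi_pos
  have hev := Real.exp_pos v
  rw [hcc] at hc
  have e : ∀ m : ℕ, amp H (bb φ m m) v * Real.exp v =
      wt H v * Real.exp (v / 2) * Real.exp (-(2 * π * c * Real.exp v) * ((m : ℝ) + 1) ^ 2) := by
    intro m
    have h1 : Real.exp (-(v / 2) - bb φ m m * Real.exp v) * Real.exp v =
        Real.exp (v / 2) * Real.exp (-(2 * π * c * Real.exp v) * ((m : ℝ) + 1) ^ 2) := by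
      rw [← Real.exp_add, ← Real.exp_add]
      congr 1
      rw [bb, hcc]
      ring
    rw [amp]
    linear_combination wt H v * h1
  rw [Finset.sum_congr rfl fun m _ => e m, ← Finset.mul_sum]
  have h1 := sum_gauss_le (a := 2 * π * c * Real.exp v) (by positivity) N
  have h2 : √(π / (2 * π * c * Real.exp v)) ≤ 1 / √c * Real.exp (-(v / 2)) := by
    have h3 : (1 / √c * Real.exp (-(v / 2))) ^ 2 = 1 / (c * Real.exp v) := by
      rw [mul_pow, div_pow, Real.sq_sqrt hc.le, ← Real.exp_nat_mul, one_pow,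
        show ((2 : ℕ) : ℝ) * (-(v / 2)) = -v by push_cast; ring, Real.exp_neg]
      field_simp
    rw [Real.sqrt_le_left (by positivity), h3,
      show π / (2 * π * c * Real.exp v) = 1 / (2 * (c * Real.exp v)) by field_simp]
    apply one_div_le_one_div_of_le (by positivity)
    have : 0 < c * Real.exp v := by positivity
    linarith
  have h4 : Real.exp (v / 2) * Real.exp (-(v / 2)) = 1 := by
    rw [← Real.exp_add]
    simp
  have hw := wt_nonneg H v
  calc wt H v * Real.exp (v / 2) * ∑ m ∈ Finset.range N,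
        Real.exp (-(2 * π * c * Real.exp v) * ((m : ℝ) + 1) ^ 2)
      ≤ wt H v * Real.exp (v / 2) * (1 / √c * Real.exp (-(v / 2))) := by
        gcongr
        refine h1.trans ?_
        have : 0 ≤ 1 / √c * Real.exp (-(v / 2)) := by positivity
        linarith
    _ = wt H v * (1 / √c) * (Real.exp (v / 2) * Real.exp (-(v / 2))) := by ring
    _ = _ := by rw [h4, mul_one]

/-- the finite version of the mean square -/
theorem integral_SN_le {H φ q : ℝ} (hH : 0 < H) (hq : 0 < q) (hcq : Real.cos φ = q ^ 4)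
    (hs : 1 / 3 ≤ Real.sin φ) (N : ℕ) :
    ∫ v in Ioi (0 : ℝ), wt H v * Real.exp (v / 2) * ‖SN φ N v‖ ^ 2 ≤
      H * (π / 2) * (1 / q ^ 2) + 2 * H ^ 2 * ((∑' k : ℤ, Fk k) *
        ((1 + ∑' m : ℕ, ((m : ℝ) + 1) ^ (-(3 / 2) : ℝ)) / q)) := by
  have hc : 0 < Real.cos φ := by rw [hcq]; positivity
  have hsq : √(q ^ 4) = q ^ 2 := by
    rw [show q ^ 4 = (q ^ 2) ^ 2 by ring]
    exact Real.sqrt_sq (by positivity)
  have hcomplex : ((∫ v in Ioi (0 : ℝ), wt H v * Real.exp (v / 2) * ‖SN φ N v‖ ^ 2 : ℝ) : ℂ) =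
      ∑ m ∈ Finset.range N, ∑ n ∈ Finset.range N, ∫ v in Ioi (0 : ℝ), term H φ m n v := by
    rw [← integral_complex_ofReal]
    have e : ∀ v : ℝ, ((wt H v * Real.exp (v / 2) * ‖SN φ N v‖ ^ 2 : ℝ) : ℂ) =
        ∑ m ∈ Finset.range N, ∑ n ∈ Finset.range N, term H φ m n v := fun v => sq_SN H φ N v
    have e2 : (fun v : ℝ => ((wt H v * Real.exp (v / 2) * ‖SN φ N v‖ ^ 2 : ℝ) : ℂ)) =
        fun v : ℝ => ∑ m ∈ Finset.range N, ∑ n ∈ Finset.range N, term H φ m n v := funext e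
    refine (congrArg (fun f : ℝ → ℂ => ∫ v in Ioi (0 : ℝ), f v) e2).trans ?_
    rw [integral_finsetSum _ fun m _ => integrable_finsetSum _ fun n _ =>
      integrableOn_term H hc m n]
    refine Finset.sum_congr rfl fun m _ => ?_
    exact integral_finsetSum _ fun n _ => integrableOn_term H hc m n
  have hre := congrArg Complex.re hcomplex
  rw [ofReal_re, re_sum] at hre
  rw [hre]
  have hrow : ∀ m ∈ Finset.range N,
      (∑ n ∈ Finset.range N, ∫ v in Ioi (0 : ℝ), term H φ m n v).re ≤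
        (∫ v in Ioi (0 : ℝ), amp H (bb φ m m) v * Real.exp v) +
          2 * H ^ 2 * (Em (q ^ 4) m * ∑' k : ℤ, Fk k) := by
    intro m hm
    rw [re_sum, ← Finset.add_sum_erase _ _ hm]
    refine add_le_add (le_of_eq ?_) ?_
    · have h1 : ∫ v in Ioi (0 : ℝ), term H φ m m v =
          ((∫ v in Ioi (0 : ℝ), amp H (bb φ m m) v * Real.exp v : ℝ) : ℂ) := by
        rw [← integral_complex_ofReal]
        exact integral_congr_ae (Eventually.of_forall fun v => term_self_re H φ m v)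
      rw [h1, ofReal_re]
    · calc ∑ n ∈ (Finset.range N).erase m, (∫ v in Ioi (0 : ℝ), term H φ m n v).re
          ≤ ∑ n ∈ (Finset.range N).erase m, 2 * H ^ 2 * (Em (Real.cos φ) m * Fk ((m : ℤ) - n)) := by
            refine Finset.sum_le_sum fun n hn => ?_
            exact (re_le_norm _).trans (norm_integral_term_le hc hs (Finset.ne_of_mem_erase hn).symm)
        _ ≤ ∑ n ∈ Finset.range N, 2 * H ^ 2 * (Em (Real.cos φ) m * Fk ((m : ℤ) - n)) := by
            refine Finset.sum_le_sum_of_subset_of_nonneg (Finset.erase_subset _ _) fun n _ _ => ?_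
            have h1 := Em_nonneg (Real.cos φ) m
            have h2 := Fk_nonneg ((m : ℤ) - n)
            positivity
        _ = 2 * H ^ 2 * (Em (q ^ 4) m * ∑ n ∈ Finset.range N, Fk ((m : ℤ) - n)) := by
            rw [← Finset.mul_sum, ← Finset.mul_sum, hcq]
        _ ≤ _ := by
            have h1 := Em_nonneg (q ^ 4) m
            gcongr
            exact sum_Fk_le N m
  refine (Finset.sum_le_sum hrow).trans ?_
  rw [Finset.sum_add_distrib]
  refine add_le_add ?_ ?_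
  · rw [← integral_finsetSum _ fun m _ => integrableOn_amp_exp (bb_pos hc m m)]
    calc ∫ v in Ioi (0 : ℝ), ∑ m ∈ Finset.range N, amp H (bb φ m m) v * Real.exp v
        ≤ ∫ v in Ioi (0 : ℝ), wt H v * (1 / √(q ^ 4)) := by
          refine integral_mono (integrable_finsetSum _ fun m _ =>
            integrableOn_amp_exp (bb_pos hc m m)) ((integrable_wt hH).1.mul_const _) fun v => ?_
          exact sum_diag_le hc hcq N v
      _ = _ := by rw [integral_mul_const, (integrable_wt hH).2, hsq]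
  · rw [← Finset.mul_sum, ← Finset.sum_mul, mul_comm (∑ m ∈ Finset.range N, Em (q ^ 4) m)]
    have h1 : 0 ≤ ∑' k : ℤ, Fk k := tsum_nonneg Fk_nonneg
    gcongr
    exact sum_Em_le hq N

theorem norm_SN_le {φ : ℝ} (hc : 0 < Real.cos φ) (N : ℕ) (v : ℝ) :
    ‖SN φ N v‖ ^ 2 ≤ 1 / Real.cos φ * Real.exp (-v) := by
  have hpi := Real.pi_pos
  have h1 : ‖SN φ N v‖ ≤ √(π / (π * Real.cos φ * Real.exp v)) / 2 := by
    refine (norm_sum_le _ _).trans ?_
    rw [Finset.sum_congr rfl fun n _ => norm_tm φ n v]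
    exact sum_gauss_le (by positivity) N
  have h2 : √(π / (π * Real.cos φ * Real.exp v)) ^ 2 = 1 / Real.cos φ * Real.exp (-v) := by
    rw [Real.sq_sqrt (by positivity), Real.exp_neg]
    field_simp
  have h3 : 0 ≤ √(π / (π * Real.cos φ * Real.exp v)) := Real.sqrt_nonneg _
  calc ‖SN φ N v‖ ^ 2 ≤ (√(π / (π * Real.cos φ * Real.exp v)) / 2) ^ 2 := by gcongr
    _ ≤ √(π / (π * Real.cos φ * Real.exp v)) ^ 2 := by
      rw [div_pow]
      have : 0 ≤ √(π / (π * Real.cos φ * Real.exp v)) ^ 2 := sq_nonneg _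
      linarith
    _ = _ := h2

/-- the limit -/
theorem tendsto_SN {φ : ℝ} (hc : 0 < Real.cos φ) (v : ℝ) :
    Tendsto (fun N => SN φ N v) atTop (𝓝 ((th (cexp (φ * I) * (Real.exp v : ℂ)) - 1) / 2)) := by
  have hre : 0 < (cexp (φ * I) * (Real.exp v : ℂ)).re := by
    rw [Fermat.Agent.Cor.Hardy.rot_re]
    positivity
  exact (hasSum_th hre).tendsto_sum_nat

theorem integrable_bound (H : ℝ) (c : ℝ) :
    IntegrableOn (fun v : ℝ => H ^ 2 * (1 / c) * Real.exp (-(1 / 2) * v)) (Ioi 0) :=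
  (integrableOn_exp_mul_Ioi (by norm_num) 0).const_mul _

theorem bound_SN (H : ℝ) {φ : ℝ} (hc : 0 < Real.cos φ) (N : ℕ) (v : ℝ) :
    ‖wt H v * Real.exp (v / 2) * ‖SN φ N v‖ ^ 2‖ ≤
      H ^ 2 * (1 / Real.cos φ) * Real.exp (-(1 / 2) * v) := by
  have hw := wt_nonneg H v
  rw [Real.norm_eq_abs, abs_of_nonneg (by positivity)]
  calc wt H v * Real.exp (v / 2) * ‖SN φ N v‖ ^ 2
      ≤ H ^ 2 * Real.exp (v / 2) * (1 / Real.cos φ * Real.exp (-v)) := by
        gcongr
        · exact wt_le H v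
        · exact norm_SN_le hc N v
    _ = H ^ 2 * (1 / Real.cos φ) * (Real.exp (v / 2) * Real.exp (-v)) := by ring
    _ = _ := by
      rw [← Real.exp_add]
      congr 2
      ring

theorem continuous_SN (φ : ℝ) (N : ℕ) : Continuous (SN φ N) := by
  unfold SN tm
  fun_prop

theorem tendsto_integrand (H : ℝ) {φ : ℝ} (hc : 0 < Real.cos φ) (v : ℝ) :
    Tendsto (fun N => wt H v * Real.exp (v / 2) * ‖SN φ N v‖ ^ 2) atTop
      (𝓝 (wt H v * Real.exp (v / 2) * ‖(th (cexp (φ * I) * (Real.exp v : ℂ)) - 1) / 2‖ ^ 2)) :=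
  (((tendsto_SN hc v).norm).pow 2).const_mul _

/-- **the mean square of the theta function** -/
theorem integral_th_le {H φ q : ℝ} (hH : 0 < H) (hq : 0 < q) (hcq : Real.cos φ = q ^ 4)
    (hs : 1 / 3 ≤ Real.sin φ) :
    IntegrableOn (fun v => wt H v * Real.exp (v / 2) *
      ‖(th (cexp (φ * I) * (Real.exp v : ℂ)) - 1) / 2‖ ^ 2) (Ioi 0) ∧
    ∫ v in Ioi (0 : ℝ), wt H v * Real.exp (v / 2) *
      ‖(th (cexp (φ * I) * (Real.exp v : ℂ)) - 1) / 2‖ ^ 2 ≤
      H * (π / 2) * (1 / q ^ 2) + 2 * H ^ 2 * ((∑' k : ℤ, Fk k) *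
        ((1 + ∑' m : ℕ, ((m : ℝ) + 1) ^ (-(3 / 2) : ℝ)) / q)) := by
  have hc : 0 < Real.cos φ := by rw [hcq]; positivity
  have hmeas : ∀ N : ℕ, AEStronglyMeasurable (fun v => wt H v * Real.exp (v / 2) * ‖SN φ N v‖ ^ 2)
      (volume.restrict (Ioi (0 : ℝ))) := by
    intro N
    refine Continuous.aestronglyMeasurable ?_
    exact ((continuous_wt H).mul (Real.continuous_exp.comp (by fun_prop))).mul
      ((continuous_SN φ N).norm.pow 2)
  have hlim := tendsto_integral_of_dominated_convergence _ hmeas (integrable_bound H (Real.cos φ))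
    (fun N => Eventually.of_forall fun v => bound_SN H hc N v)
    (Eventually.of_forall fun v => tendsto_integrand H hc v)
  constructor
  · refine (integrable_bound H (Real.cos φ)).mono' ?_ (Eventually.of_forall fun v => ?_)
    · exact aestronglyMeasurable_of_tendsto_ae atTop hmeas
        (Eventually.of_forall fun v => tendsto_integrand H hc v)
    · exact le_of_tendsto (tendsto_integrand H hc v).norm
        (Eventually.of_forall fun N => bound_SN H hc N v)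
  · exact le_of_tendsto hlim (Eventually.of_forall fun N => integral_SN_le hH hq hcq hs N)

end Fermat.Agent.Cor.HL

end
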